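import Fermat.Agent.S15P.M1.Ell4

/-!
# (M1)/(C4): the discriminant of the lattice `Λ' = Λ + ℤ z₀`

`Δ(Λ') · (∏_{k=1}^{p-1} ℘'_Λ(k z₀))⁴ = Δ(Λ)^p` for `z₀` of exact odd order `p` in `ℂ/Λ`.
Mathlib only (through `Ell4`).
-/

set_option autoImplicit false

namespace Fermat.Agent.S15P.M1.Isog4

open Filter Topology PeriodPair
open Fermat.Agent.S15P.M1.Ell4

/-- `Λ' = Λ + ℤ z₀`, where `z₀` has exact order `p` in `ℂ / Λ`. -/
structure IsSuper (L L' : PeriodPair) (p : ℕ) (z₀ : ℂ) : Prop where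
  order : ∀ k : ℕ, (k : ℂ) * z₀ ∈ L.lattice ↔ p ∣ k
  mem : ∀ w : ℂ, w ∈ L'.lattice ↔ ∃ k : ℕ, w - k * z₀ ∈ L.lattice

section Lattice

variable {L L' : PeriodPair} {p : ℕ} {z₀ : ℂ}

theorem IsSuper.le (S : IsSuper L L' p z₀) {w : ℂ} (hw : w ∈ L.lattice) : w ∈ L'.lattice :=
  (S.mem w).mpr ⟨0, by simpa using hw⟩

theorem IsSuper.p_mul_mem (S : IsSuper L L' p z₀) : (p : ℂ) * z₀ ∈ L.lattice :=
  (S.order p).mpr dvd_rfl

theorem IsSuper.nat_mul_mem' (S : IsSuper L L' p z₀) (k : ℕ) : (k : ℂ) * z₀ ∈ L'.lattice :=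
  (S.mem _).mpr ⟨k, by simp⟩

theorem IsSuper.int_mul_mem_iff (S : IsSuper L L' p z₀) (m : ℤ) :
    (m : ℂ) * z₀ ∈ L.lattice ↔ (p : ℤ) ∣ m := by
  obtain ⟨n, rfl | rfl⟩ := Int.eq_nat_or_neg m
  · rw [Int.cast_natCast, S.order, Int.natCast_dvd_natCast]
  · rw [Int.cast_neg, Int.cast_natCast, neg_mul, neg_mem_iff, S.order, dvd_neg,
      Int.natCast_dvd_natCast]

theorem IsSuper.exists_lt (S : IsSuper L L' p z₀) (hp : 0 < p) {w : ℂ} (hw : w ∈ L'.lattice) :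
    ∃ k < p, w - k * z₀ ∈ L.lattice := by
  obtain ⟨k, hk⟩ := (S.mem w).mp hw
  refine ⟨k % p, Nat.mod_lt _ hp, ?_⟩
  have h1 : ((k / p : ℕ) : ℂ) * ((p : ℂ) * z₀) ∈ L.lattice := by
    have := L.lattice.nsmul_mem S.p_mul_mem (k / p)
    simpa [nsmul_eq_mul] using this
  have hc : (k : ℂ) = ((k % p : ℕ) : ℂ) + (p : ℂ) * ((k / p : ℕ) : ℂ) := by
    exact_mod_cast (Nat.mod_add_div k p).symm
  have : w - ((k % p : ℕ) : ℂ) * z₀ = (w - k * z₀) + ((k / p : ℕ) : ℂ) * ((p : ℂ) * z₀) := by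
    linear_combination z₀ * hc
  rw [this]
  exact L.lattice.add_mem hk h1

theorem IsSuper.exists_add_lt (S : IsSuper L L' p z₀) (hp : 0 < p) {w : ℂ}
    (hw : w ∈ L'.lattice) : ∃ k < p, w + k * z₀ ∈ L.lattice := by
  obtain ⟨k, hk, h⟩ := S.exists_lt hp (L'.lattice.neg_mem hw)
  refine ⟨k, hk, ?_⟩
  have := L.lattice.neg_mem h
  rwa [show -(-w - k * z₀) = w + k * z₀ by ring] at this

theorem IsSuper.eq_of_two_mem (S : IsSuper L L' p z₀) (hodd : Odd p) {z : ℂ} {k k₀ : ℕ}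
    (hk : k < p) (hk₀ : k₀ < p) (h1 : 2 * (z + k * z₀) ∈ L.lattice)
    (h2 : 2 * (z + k₀ * z₀) ∈ L.lattice) : k = k₀ := by
  have hsub := L.lattice.sub_mem h1 h2
  have hmem : ((2 * ((k : ℤ) - k₀) : ℤ) : ℂ) * z₀ ∈ L.lattice := by
    convert hsub using 1
    push_cast
    ring
  have hdvd := (S.int_mul_mem_iff _).mp hmem
  have hcop : IsCoprime (p : ℤ) (2 : ℤ) := by
    have : IsCoprime ((p : ℕ) : ℤ) ((2 : ℕ) : ℤ) :=
      Nat.isCoprime_iff_coprime.mpr (Nat.coprime_two_right.mpr hodd)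
    simpa using this
  have hdvd' : (p : ℤ) ∣ (k : ℤ) - k₀ := hcop.dvd_of_dvd_mul_left hdvd
  have hmod : (k₀ : ℤ) ≡ (k : ℤ) [ZMOD (p : ℤ)] := Int.modEq_iff_dvd.mpr hdvd'
  exact ((Int.natCast_modEq_iff.mp hmod).eq_of_lt_of_lt hk₀ hk).symm

/-- a half-period of `Λ` is a half-period of `Λ'` (`p` odd). -/
theorem IsSuper.isHalf (S : IsSuper L L' p z₀) (hodd : Odd p) {h : ℂ} (hh : IsHalf L h) :
    IsHalf L' h := by
  refine ⟨fun hmem => ?_, S.le hh.two⟩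
  obtain ⟨k, hk, hkL⟩ := S.exists_add_lt hodd.pos hmem
  have h1 : 2 * (h + k * z₀) ∈ L.lattice := by
    rw [two_mul]; exact L.lattice.add_mem hkL hkL
  have h2 : 2 * (h + (0 : ℕ) * z₀) ∈ L.lattice := by
    simpa using hh.two
  have hk0 : k = 0 := S.eq_of_two_mem hodd hk hodd.pos h1 h2
  apply hh.notMem
  simpa [hk0] using hkL

theorem IsSuper.isTriple (S : IsSuper L L' p z₀) (hodd : Odd p) {h₁ h₂ h₃ : ℂ}
    (T : IsTriple L h₁ h₂ h₃) : IsTriple L' h₁ h₂ h₃ :=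
  ⟨S.isHalf hodd T.half₁, S.isHalf hodd T.half₂, S.isHalf hodd T.half₃, S.le T.sum⟩

end Lattice

/-! ## The product `∏_{k<p} ℘'_Λ(z + k z₀)` -/

section Prod

variable {L L' : PeriodPair} {p : ℕ} {z₀ : ℂ}

/-- `∏_{k<p} ℘'_Λ(z + k z₀)`. -/
noncomputable def isoProd (L : PeriodPair) (p : ℕ) (z₀ z : ℂ) : ℂ :=
  ∏ k ∈ Finset.range p, ℘'[L] (z + k * z₀)

/-- `∏_{1≤k<p} ℘'_Λ(z + k z₀)`. -/
noncomputable def isoTail (L : PeriodPair) (p : ℕ) (z₀ z : ℂ) : ℂ :=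
  ∏ k ∈ Finset.Ico 1 p, ℘'[L] (z + k * z₀)

theorem isoProd_eq (L : PeriodPair) {p : ℕ} (hp : 0 < p) (z₀ z : ℂ) :
    isoProd L p z₀ z = ℘'[L] z * isoTail L p z₀ z := by
  unfold isoProd isoTail
  rw [Finset.range_eq_Ico, Finset.prod_eq_prod_Ico_succ_bot hp]
  simp

theorem isoProd_add_z₀ (S : IsSuper L L' p z₀) (hp : 0 < p) (z : ℂ) :
    isoProd L p z₀ (z + z₀) = isoProd L p z₀ z := by
  have h1 : isoProd L p z₀ (z + z₀) = ∏ k ∈ Finset.Ico 1 (p + 1), ℘'[L] (z + k * z₀) := by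
    unfold isoProd
    have := Finset.prod_Ico_add' (fun k : ℕ => ℘'[L] (z + k * z₀)) 0 p 1
    rw [zero_add] at this
    rw [Finset.range_eq_Ico, ← this]
    refine Finset.prod_congr rfl fun k _ => ?_
    push_cast
    ring_nf
  rw [h1, Finset.prod_Ico_succ_top (by omega : 1 ≤ p), isoProd_eq L hp, mul_comm]
  congr 1
  exact dwp_add_mem z S.p_mul_mem

theorem isoProd_add_mem (L : PeriodPair) (p : ℕ) (z₀ : ℂ) {l : ℂ} (hl : l ∈ L.lattice) (z : ℂ) :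
    isoProd L p z₀ (z + l) = isoProd L p z₀ z := by
  unfold isoProd
  refine Finset.prod_congr rfl fun k _ => ?_
  rw [show z + l + k * z₀ = z + k * z₀ + l by ring, dwp_add_mem _ hl]

theorem isoProd_add_nat (S : IsSuper L L' p z₀) (hp : 0 < p) (k : ℕ) (z : ℂ) :
    isoProd L p z₀ (z + k * z₀) = isoProd L p z₀ z := by
  induction k with
  | zero => simp
  | succ n ih =>
    rw [show z + ((n + 1 : ℕ) : ℂ) * z₀ = z + n * z₀ + z₀ by push_cast; ring,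
      isoProd_add_z₀ S hp, ih]

theorem isoProd_periodic (S : IsSuper L L' p z₀) (hp : 0 < p) {w : ℂ} (hw : w ∈ L'.lattice)
    (z : ℂ) : isoProd L p z₀ (z + w) = isoProd L p z₀ z := by
  obtain ⟨k, hk⟩ := (S.mem w).mp hw
  rw [show z + w = z + (w - k * z₀) + k * z₀ by ring, isoProd_add_nat S hp,
    isoProd_add_mem L p z₀ hk]

theorem meromorphic_isoProd (L : PeriodPair) (p : ℕ) (z₀ : ℂ) : Meromorphic (isoProd L p z₀) :=
  fun x => MeromorphicAt.fun_prod (s := Finset.range p)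
    (F := fun (k : ℕ) (w : ℂ) => ℘'[L] (w + k * z₀)) (fun _ _ => meromorphic_shift_dwp L _ x)

theorem order_isoProd (L : PeriodPair) (p : ℕ) (z₀ z : ℂ) :
    meromorphicOrderAt (isoProd L p z₀) z
      = ∑ k ∈ Finset.range p, meromorphicOrderAt ℘'[L] (z + k * z₀) := by
  have := meromorphicOrderAt_fun_prod (s := Finset.range p)
    (f := fun (k : ℕ) (w : ℂ) => ℘'[L] (w + k * z₀)) (x := z)
    (fun k _ => meromorphic_shift_dwp L _ z)
  rw [show isoProd L p z₀ = fun a => ∏ k ∈ Finset.range p, ℘'[L] (a + k * z₀) from rfl, this]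
  exact Finset.sum_congr rfl fun k _ => order_shift ℘'[L] _ z

theorem sum_order_eq (S : IsSuper L L' p z₀) (hodd : Odd p) {z : ℂ} {k₀ : ℕ} (hk₀ : k₀ < p)
    (h2 : 2 * (z + k₀ * z₀) ∈ L.lattice) :
    ∑ k ∈ Finset.range p, meromorphicOrderAt ℘'[L] (z + k * z₀)
      = meromorphicOrderAt ℘'[L] (z + k₀ * z₀) := by
  refine Finset.sum_eq_single k₀ (fun k hk hne => ?_)
    (fun h => absurd (Finset.mem_range.mpr hk₀) h)
  have h2k : 2 * (z + k * z₀) ∉ L.lattice := fun h =>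
    hne (S.eq_of_two_mem hodd (Finset.mem_range.mp hk) hk₀ h h2)
  exact order_eq_zero_of_ne (analyticAt_dwp L (notMem_of_two h2k))
    ((isTriple_std L).dwp_ne_zero h2k)

theorem IsSuper.add_notMem (S : IsSuper L L' p z₀) {z : ℂ} (hz : z ∉ L'.lattice) (k : ℕ) :
    z + k * z₀ ∉ L.lattice := fun h => hz (by
  have := L'.lattice.sub_mem (S.le h) (S.nat_mul_mem' k)
  simpa using this)

theorem analyticAt_isoProd (S : IsSuper L L' p z₀) {z : ℂ} (hz : z ∉ L'.lattice) :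
    AnalyticAt ℂ (isoProd L p z₀) z := by
  refine Finset.analyticAt_fun_prod (Finset.range p) fun k _ => ?_
  exact (analyticAt_dwp L (S.add_notMem hz k)).comp_of_eq (f := fun w : ℂ => w + k * z₀)
    (by fun_prop) rfl

theorem order_isoQuot_nonneg (S : IsSuper L L' p z₀) (hodd : Odd p) (z : ℂ) :
    0 ≤ meromorphicOrderAt (fun w => ℘'[L'] w * (isoProd L p z₀ w)⁻¹) z := by
  have hmul : meromorphicOrderAt (fun w => ℘'[L'] w * (isoProd L p z₀ w)⁻¹) z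
      = meromorphicOrderAt ℘'[L'] z + meromorphicOrderAt (isoProd L p z₀)⁻¹ z :=
    meromorphicOrderAt_mul (L'.meromorphic_derivWeierstrassP z) ((meromorphic_isoProd L p z₀ z).inv)
  by_cases hz : z ∈ L'.lattice
  · obtain ⟨k₀, hk₀, hmem⟩ := S.exists_add_lt hodd.pos hz
    rw [hmul, meromorphicOrderAt_inv, order_isoProd,
      sum_order_eq S hodd hk₀ (by rw [two_mul]; exact L.lattice.add_mem hmem hmem),
      order_dwp L hmem, order_dwp L' hz, ← WithTop.LinearOrderedAddCommGroup.coe_neg,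
      ← WithTop.coe_add]
    norm_num
  · by_cases hex : ∃ k ∈ Finset.range p, ℘'[L] (z + k * z₀) = 0
    · obtain ⟨k₀, hk₀, h0⟩ := hex
      have hnot : z + k₀ * z₀ ∉ L.lattice := S.add_notMem hz k₀
      have h2 := (dwp_eq_zero_iff L hnot).mp h0
      have hhalf : IsHalf L (z + k₀ * z₀) := ⟨hnot, h2⟩
      have hz2 : 2 * z ∈ L'.lattice := by
        have := L'.lattice.sub_mem (S.le h2) (S.nat_mul_mem' (2 * k₀))
        convert this using 1
        push_cast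
        ring
      have hg := one_le_order_of_zero (analyticAt_dwp L' hz) (IsHalf.mk hz hz2).dwp_eq_zero
      rw [hmul, meromorphicOrderAt_inv, order_isoProd,
        sum_order_eq S hodd (Finset.mem_range.mp hk₀) h2, hhalf.order_dwp]
      generalize meromorphicOrderAt ℘'[L'] z = x at hg
      induction x using WithTop.recTopCoe with
      | top => simp
      | coe n =>
        rw [← WithTop.LinearOrderedAddCommGroup.coe_neg, ← WithTop.coe_add]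
        have : (1 : ℤ) ≤ n := by exact_mod_cast hg
        exact_mod_cast (by omega : (0 : ℤ) ≤ n + -1)
    · have hne : isoProd L p z₀ z ≠ 0 := by
        unfold isoProd
        rw [Finset.prod_ne_zero_iff]
        intro k hk h0
        exact hex ⟨k, hk, h0⟩
      have han : AnalyticAt ℂ (fun w => ℘'[L'] w * (isoProd L p z₀ w)⁻¹) z :=
        (analyticAt_dwp L' hz).mul ((analyticAt_isoProd S hz).inv hne)
      exact han.meromorphicOrderAt_nonneg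

/-- **Liouville (iii).** `℘'_{Λ'} = c · ∏_{k<p} ℘'_Λ(· + k z₀)`. -/
theorem isoQuot_const (S : IsSuper L L' p z₀) (hodd : Odd p) :
    ∃ c : ℂ, ∀ z, z ∉ L'.lattice → isoProd L p z₀ z ≠ 0 → ℘'[L'] z = c * isoProd L p z₀ z := by
  have hmero : Meromorphic (fun w => ℘'[L'] w * (isoProd L p z₀ w)⁻¹) :=
    L'.meromorphic_derivWeierstrassP.mul (meromorphic_isoProd L p z₀).inv
  obtain ⟨c, hc⟩ := const_of_periodic L' _ hmero
    (fun l hl z => by
      show ℘'[L'] (z + l) * (isoProd L p z₀ (z + l))⁻¹ = ℘'[L'] z * (isoProd L p z₀ z)⁻¹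
      rw [dwp_add_mem z hl, isoProd_periodic S hodd.pos hl])
    (order_isoQuot_nonneg S hodd)
  refine ⟨c, fun z hz hne => ?_⟩
  have han : AnalyticAt ℂ (fun w => ℘'[L'] w * (isoProd L p z₀ w)⁻¹) z :=
    (analyticAt_dwp L' hz).mul ((analyticAt_isoProd S hz).inv hne)
  have := hc z han
  rw [← this]
  field_simp

end Prod


/-! ## The constant, the derivative at the half-periods, and the discriminant -/

section Final

variable {L L' : PeriodPair} {p : ℕ} {z₀ : ℂ}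

/-- `z³ ℘'(z) → −2` at the origin. -/
theorem tendsto_cube_mul_dwp (M : PeriodPair) :
    Tendsto (fun z => z ^ 3 * ℘'[M] z) (𝓝[≠] 0) (𝓝 (-2)) := by
  have hc : ContinuousAt (fun z => z ^ 3 * ℘'[M - (0 : ℂ)] z - 2) 0 := by
    have := (M.analyticAt_derivWeierstrassPExcept 0).continuousAt
    fun_prop
  have h1 : Tendsto (fun z => z ^ 3 * ℘'[M - (0 : ℂ)] z - 2) (𝓝[≠] 0) (𝓝 (-2)) := by
    have := hc.tendsto.mono_left (nhdsWithin_le_nhds (s := {(0 : ℂ)}ᶜ))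
    simpa using this
  refine h1.congr' ?_
  filter_upwards [self_mem_nhdsWithin] with z hz
  have hz0 : z ≠ 0 := hz
  have := M.derivWeierstrassPExcept_sub (0 : M.lattice) z
  simp only [ZeroMemClass.coe_zero, sub_zero] at this
  rw [← this]
  field_simp

theorem analyticAt_isoTail (L : PeriodPair) (p : ℕ) (z₀ : ℂ) {z : ℂ}
    (hz : ∀ k ∈ Finset.Ico 1 p, z + k * z₀ ∉ L.lattice) : AnalyticAt ℂ (isoTail L p z₀) z := by
  refine Finset.analyticAt_fun_prod (Finset.Ico 1 p) fun k hk => ?_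
  exact (analyticAt_dwp L (hz k hk)).comp_of_eq (f := fun w : ℂ => w + k * z₀)
    (by fun_prop) rfl

theorem IsSuper.nat_mul_notMem (S : IsSuper L L' p z₀) {k : ℕ} (hk : k ∈ Finset.Ico 1 p) :
    (k : ℂ) * z₀ ∉ L.lattice := by
  rw [S.order]
  have := Finset.mem_Ico.mp hk
  exact Nat.not_dvd_of_pos_of_lt (by omega) this.2

theorem IsSuper.two_nat_mul_notMem (S : IsSuper L L' p z₀) (hodd : Odd p) {k : ℕ}
    (hk : k ∈ Finset.Ico 1 p) : 2 * ((k : ℂ) * z₀) ∉ L.lattice := by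
  have h2 : 2 * ((k : ℂ) * z₀) = ((2 * k : ℕ) : ℂ) * z₀ := by push_cast; ring
  rw [h2, S.order]
  intro hdvd
  have := Finset.mem_Ico.mp hk
  have hcop : Nat.Coprime p 2 := Nat.coprime_two_right.mpr hodd
  exact Nat.not_dvd_of_pos_of_lt (by omega) this.2 (hcop.dvd_of_dvd_mul_left hdvd)

/-- the constant of Liouville (iii) is the inverse of `∏_{k=1}^{p-1} ℘'_Λ(k z₀)`. -/
theorem isoConst (S : IsSuper L L' p z₀) (hodd : Odd p) :
    ∃ c : ℂ, c * isoTail L p z₀ 0 = 1 ∧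
      ∀ z, z ∉ L'.lattice → isoProd L p z₀ z ≠ 0 → ℘'[L'] z = c * isoProd L p z₀ z := by
  obtain ⟨c, hc⟩ := isoQuot_const S hodd
  refine ⟨c, ?_, hc⟩
  have hord : meromorphicOrderAt (isoProd L p z₀) 0 ≠ ⊤ := by
    rw [order_isoProd, sum_order_eq S hodd hodd.pos (by simp), order_dwp L (by simp)]
    exact WithTop.coe_ne_top
  have hne : ∀ᶠ z in 𝓝[≠] (0 : ℂ), isoProd L p z₀ z ≠ 0 :=
    (meromorphicOrderAt_ne_top_iff_eventually_ne_zero (meromorphic_isoProd L p z₀ 0)).mp hord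
  have hev : (fun z => z ^ 3 * ℘'[L'] z) =ᶠ[𝓝[≠] (0 : ℂ)]
      fun z => c * (z ^ 3 * ℘'[L] z) * isoTail L p z₀ z := by
    filter_upwards [hne, eventually_notMem L' 0] with z hz hzL
    rw [hc z hzL hz, isoProd_eq L hodd.pos]
    ring
  have hT : Tendsto (isoTail L p z₀) (𝓝[≠] (0 : ℂ)) (𝓝 (isoTail L p z₀ 0)) :=
    ((analyticAt_isoTail L p z₀ (z := 0)
      (fun k hk => by simpa using S.nat_mul_notMem hk)).continuousAt.tendsto).mono_left
      nhdsWithin_le_nhds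
  have hlim : Tendsto (fun z => c * (z ^ 3 * ℘'[L] z) * isoTail L p z₀ z) (𝓝[≠] (0 : ℂ))
      (𝓝 (c * (-2) * isoTail L p z₀ 0)) :=
    ((tendsto_cube_mul_dwp L).const_mul c).mul hT
  have huniq := tendsto_nhds_unique ((tendsto_cube_mul_dwp L').congr' hev) hlim
  linear_combination (1 / 2 : ℂ) * huniq

/-- derivative of Liouville (iii) at a half-period of `Λ`. -/
theorem deriv_iso_half (S : IsSuper L L' p z₀) (hodd : Odd p) {h : ℂ} (hh : IsHalf L h) :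
    isoTail L p z₀ 0 * deriv ℘'[L'] h = deriv ℘'[L] h * isoTail L p z₀ h := by
  obtain ⟨c, hcC, hc⟩ := isoConst S hodd
  have hh' : IsHalf L' h := S.isHalf hodd hh
  have h20 : 2 * (h + ((0 : ℕ) : ℂ) * z₀) ∈ L.lattice := by simpa using hh.two
  have hord : meromorphicOrderAt (isoProd L p z₀) h ≠ ⊤ := by
    rw [order_isoProd, sum_order_eq S hodd hodd.pos h20]
    have : h + ((0 : ℕ) : ℂ) * z₀ = h := by simp
    rw [this, hh.order_dwp]
    exact WithTop.coe_ne_top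
  have hne : ∀ᶠ z in 𝓝[≠] h, isoProd L p z₀ z ≠ 0 :=
    (meromorphicOrderAt_ne_top_iff_eventually_ne_zero (meromorphic_isoProd L p z₀ h)).mp hord
  have hev : ℘'[L'] =ᶠ[𝓝 h] fun w => c * (℘'[L] w * isoTail L p z₀ w) := by
    refine eventuallyEq_nhds_of_eventuallyEq_nhdsNE ?_ ?_
    · filter_upwards [hne, eventually_notMem L' h] with z hz hzL
      rw [hc z hzL hz, isoProd_eq L hodd.pos]
    · rw [hh'.dwp_eq_zero, hh.dwp_eq_zero]; ring
  have hTan : AnalyticAt ℂ (isoTail L p z₀) h :=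
    analyticAt_isoTail L p z₀ (fun k _ => S.add_notMem hh'.notMem k)
  have hd : HasDerivAt (fun w => c * (℘'[L] w * isoTail L p z₀ w))
      (c * (deriv ℘'[L] h * isoTail L p z₀ h + ℘'[L] h * deriv (isoTail L p z₀) h)) h :=
    (((analyticAt_dwp L hh.notMem).differentiableAt.hasDerivAt).mul
      hTan.differentiableAt.hasDerivAt).const_mul c
  have hderiv : deriv ℘'[L'] h
      = c * (deriv ℘'[L] h * isoTail L p z₀ h + ℘'[L] h * deriv (isoTail L p z₀) h) := by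
    rw [hev.deriv_eq]; exact hd.deriv
  rw [hderiv, hh.dwp_eq_zero]
  linear_combination (deriv ℘'[L] h * isoTail L p z₀ h) * hcC

/-- `∏_{k=1}^{p-1} ℘'_Λ(k z₀) ≠ 0`. -/
theorem prod_deriv_ne_zero (L L' : PeriodPair) (p : ℕ) (z₀ : ℂ) (hp : Odd p)
    (h : IsSuper L L' p z₀) : ∏ k ∈ Finset.Ico 1 p, ℘'[L] (k * z₀) ≠ 0 := by
  rw [Finset.prod_ne_zero_iff]
  intro k hk
  exact (isTriple_std L).dwp_ne_zero (h.two_nat_mul_notMem hp hk)

/-- **(C4), discriminant.** `Δ(Λ') · (∏_{k=1}^{p-1} ℘'_Λ(k z₀))⁴ = Δ(Λ)^p`. -/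
theorem disc_super (L L' : PeriodPair) (p : ℕ) (z₀ : ℂ) (hp : Odd p) (h : IsSuper L L' p z₀) :
    (L'.g₂ ^ 3 - 27 * L'.g₃ ^ 2) * (∏ k ∈ Finset.Ico 1 p, ℘'[L] (k * z₀)) ^ 4
      = (L.g₂ ^ 3 - 27 * L.g₃ ^ 2) ^ p := by
  have T := isTriple_std L
  have T' := h.isTriple hp T
  have hC : ∏ k ∈ Finset.Ico 1 p, ℘'[L] (k * z₀) = isoTail L p z₀ 0 := by
    unfold isoTail
    refine Finset.prod_congr rfl fun k _ => ?_
    rw [zero_add]
  have D1 := deriv_iso_half h hp T.half₁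
  have D2 := deriv_iso_half h hp T.half₂
  have D3 := deriv_iso_half h hp T.half₃
  have hΔ' := T'.disc_eq_prod_deriv
  have hΔ := T.disc_eq_prod_deriv
  -- the product over `k` of `℘'(k z₀) ∏ᵢ ℘'(k z₀ + hᵢ) = Δ`
  have K : isoTail L p z₀ 0 * isoTail L p z₀ (L.ω₁ / 2) * isoTail L p z₀ (L.ω₂ / 2)
      * isoTail L p z₀ (L.ω₁ / 2 + L.ω₂ / 2) = (L.g₂ ^ 3 - 27 * L.g₃ ^ 2) ^ (p - 1) := by
    unfold isoTail
    rw [← Finset.prod_mul_distrib, ← Finset.prod_mul_distrib, ← Finset.prod_mul_distrib]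
    have hcard : (Finset.Ico 1 p).card = p - 1 := by simp
    rw [← hcard, ← Finset.prod_const]
    refine Finset.prod_congr rfl fun k hk => ?_
    have := T.prod_dwp (h.two_nat_mul_notMem hp hk)
    rw [zero_add, add_comm (L.ω₁ / 2), add_comm (L.ω₂ / 2), add_comm (L.ω₁ / 2 + L.ω₂ / 2)]
    exact this
  have hpow : (L.g₂ ^ 3 - 27 * L.g₃ ^ 2) ^ p
      = (L.g₂ ^ 3 - 27 * L.g₃ ^ 2) * (L.g₂ ^ 3 - 27 * L.g₃ ^ 2) ^ (p - 1) := by
    rw [← pow_succ']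
    congr 1
    have := hp.pos
    omega
  rw [hC, hpow, ← K, hΔ', hΔ]
  linear_combination (-2 * isoTail L p z₀ 0) *
    (D1 * (isoTail L p z₀ 0 * deriv ℘'[L'] (L.ω₂ / 2))
        * (isoTail L p z₀ 0 * deriv ℘'[L'] (L.ω₁ / 2 + L.ω₂ / 2))
      + (deriv ℘'[L] (L.ω₁ / 2) * isoTail L p z₀ (L.ω₁ / 2)) * D2
        * (isoTail L p z₀ 0 * deriv ℘'[L'] (L.ω₁ / 2 + L.ω₂ / 2))
      + (deriv ℘'[L] (L.ω₁ / 2) * isoTail L p z₀ (L.ω₁ / 2))
        * (deriv ℘'[L] (L.ω₂ / 2) * isoTail L p z₀ (L.ω₂ / 2)) * D3)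

end Final


/-! ## `g₂(Λ')` by regrouping the lattice sum over the cosets of `Λ` -/

section G2

variable {L L' : PeriodPair} {p : ℕ} {z₀ : ℂ}

/-- the coset parametrisation `(k, l) ↦ l − k z₀` of `Λ'`. -/
noncomputable def cosetMap (S : IsSuper L L' p z₀) (c : Fin p × L.lattice) : L'.lattice :=
  ⟨(c.2 : ℂ) - ((c.1 : ℕ) : ℂ) * z₀, L'.lattice.sub_mem (S.le c.2.2) (S.nat_mul_mem' _)⟩

theorem cosetMap_bijective (S : IsSuper L L' p z₀) (hp : 0 < p) :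
    Function.Bijective (cosetMap S) := by
  constructor
  · rintro ⟨k, l⟩ ⟨k', l'⟩ hEq
    have hval : (l : ℂ) - ((k : ℕ) : ℂ) * z₀ = (l' : ℂ) - ((k' : ℕ) : ℂ) * z₀ :=
      congrArg Subtype.val hEq
    have hmem : ((((k : ℕ) : ℤ) - ((k' : ℕ) : ℤ) : ℤ) : ℂ) * z₀ ∈ L.lattice := by
      have h1 : ((((k : ℕ) : ℤ) - ((k' : ℕ) : ℤ) : ℤ) : ℂ) * z₀ = (l : ℂ) - (l' : ℂ) := by
        push_cast
        linear_combination -hval
      rw [h1]
      exact L.lattice.sub_mem l.2 l'.2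
    have hdvd := (S.int_mul_mem_iff _).mp hmem
    have hmod : ((k' : ℕ) : ℤ) ≡ ((k : ℕ) : ℤ) [ZMOD (p : ℤ)] := Int.modEq_iff_dvd.mpr hdvd
    have hkk : (k' : ℕ) = (k : ℕ) :=
      (Int.natCast_modEq_iff.mp hmod).eq_of_lt_of_lt k'.2 k.2
    have hk : k = k' := Fin.ext hkk.symm
    subst hk
    have hl : (l : ℂ) = (l' : ℂ) := by linear_combination hval
    rw [Subtype.ext hl]
  · intro w
    obtain ⟨k, hk, hmem⟩ := S.exists_add_lt hp w.2
    refine ⟨(⟨k, hk⟩, ⟨(w : ℂ) + k * z₀, hmem⟩), ?_⟩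
    apply Subtype.ext
    simp [cosetMap]

/-- `G₄(Λ') = ∑_{k<p} ∑_{l ∈ Λ} (l − k z₀)⁻⁴`. -/
theorem G4_super (S : IsSuper L L' p z₀) (hp : 0 < p) :
    L'.G 4 = ∑ k ∈ Finset.range p, L.sumInvPow (k * z₀) 4 := by
  have hs' : Summable (fun w : L'.lattice => ((w : ℂ) ^ 4)⁻¹) := by
    have := (L'.hasSum_sumInvPow 0 (r := 4) (by norm_num)).summable
    simpa using this
  let e : Fin p × L.lattice ≃ L'.lattice := Equiv.ofBijective _ (cosetMap_bijective S hp)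
  have h1 : L'.G 4 = ∑' c : Fin p × L.lattice, (((e c : L'.lattice) : ℂ) ^ 4)⁻¹ :=
    (e.tsum_eq (fun w : L'.lattice => ((w : ℂ) ^ 4)⁻¹)).symm
  have hsum : Summable (fun c : Fin p × L.lattice => (((e c : L'.lattice) : ℂ) ^ 4)⁻¹) :=
    (e.summable_iff (f := fun w : L'.lattice => ((w : ℂ) ^ 4)⁻¹)).mpr hs'
  have hslice : ∀ k : Fin p, HasSum
      (fun l : L.lattice => (((e (k, l) : L'.lattice) : ℂ) ^ 4)⁻¹)
      (L.sumInvPow (((k : ℕ) : ℂ) * z₀) 4) := fun k =>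
    L.hasSum_sumInvPow (((k : ℕ) : ℂ) * z₀) (r := 4) (by norm_num)
  rw [h1, hsum.tsum_prod' (fun k => (hslice k).summable), tsum_fintype,
    ← Fin.sum_univ_eq_sum_range (fun k : ℕ => L.sumInvPow ((k : ℂ) * z₀) 4) p]
  exact Finset.sum_congr rfl fun k _ => (hslice k).tsum_eq

/-- `6 ℘(x)² − g₂/2 = 6 ∑_{l} (l − x)⁻⁴` off the lattice. -/
theorem six_sumInvPow (L : PeriodPair) {x : ℂ} (hx : x ∉ L.lattice) :
    6 * L.sumInvPow x 4 = 6 * ℘[L] x ^ 2 - L.g₂ / 2 := by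
  rw [← deriv_dwp L hx, ← L.deriv_derivWeierstrassPExcept_self x,
    L.derivWeierstrassPExcept_of_notMem x hx]

/-- **(C4), `g₂`.** `g₂(Λ') = g₂(Λ) + 10 ∑_{k=1}^{p-1} ℘''_Λ(k z₀)`. -/
theorem g₂_super (L L' : PeriodPair) (p : ℕ) (z₀ : ℂ) (hp : 0 < p) (h : IsSuper L L' p z₀) :
    L'.g₂ = L.g₂ + 10 * ∑ k ∈ Finset.Ico 1 p, (6 * ℘[L] (k * z₀) ^ 2 - L.g₂ / 2) := by
  have hG := G4_super h hp
  rw [Finset.range_eq_Ico, Finset.sum_eq_sum_Ico_succ_bot hp] at hG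
  simp only [Nat.cast_zero, zero_mul, zero_add] at hG
  have h0 : L.sumInvPow 0 4 = L.G 4 := by rw [L.sumInvPow_zero]
  have hk : ∑ k ∈ Finset.Ico 1 p, (6 * ℘[L] (k * z₀) ^ 2 - L.g₂ / 2)
      = 6 * ∑ k ∈ Finset.Ico 1 p, L.sumInvPow (k * z₀) 4 := by
    rw [Finset.mul_sum]
    exact Finset.sum_congr rfl fun k hk => (six_sumInvPow L (h.nat_mul_notMem hk)).symm
  rw [hk]
  unfold PeriodPair.g₂
  rw [hG, h0]
  ring

end G2

end Fermat.Agent.S15P.M1.Isog4
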