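/-
S15 cell, brick (C1) of (M1) (helper21): uniformisation of complex Weierstrass data.

* `exists_E_eq`     : `j` is onto `ℂ` (projective form): for `A³ ≠ B²` there is `τ ∈ ℍ` with
                      `B² E₄(τ)³ = A³ E₆(τ)²`;
* `exists_tau`      : every `(a, b)` with `a³ ≠ b²` is `(E₄(τ), E₆(τ))` up to `(c⁴, c⁶)`;
* `g₂_ppOf`, `g₃_ppOf` : the invariants of the lattice `c (ℤ τ + ℤ)` (`S20.JInj.ppOf`);
* `disc_ppOf`       : `g₂³ - 27 g₃² = (2π)¹² Δ(τ) / c¹²` for that lattice (`disc_ppOf_ne_zero`);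
* `exists_ppOf`, `exists_periodPair` : every `(g₂, g₃)` with `g₂³ - 27 g₃² ≠ 0` comes from a
                      lattice.

Proof of `exists_E_eq`: if `F = B² E₄³ - A³ E₆²` had no zero, `Δ / F` would be a modular form of
weight `0` and level `1`, hence constant, equal to its limit `0` at `i∞`; but `Δ` has no zero.
-/
import Mathlib
import Fermat.Agent.S20.SerreFacts
import Fermat.Agent.S20.JInj

set_option autoImplicit false

namespace Fermat.Agent.S15P.M1.Unif21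

open UpperHalfPlane ModularForm Filter Topology EisensteinSeries SlashInvariantForm
  SlashInvariantFormClass ModularFormClass MatrixGroups OnePoint
open scoped MatrixGroups Manifold ModularForm Real

local notation "Δ" => ModularForm.discriminant

/-- The weight `12` form `B² E₄³ - A³ E₆²`. -/
noncomputable def F12 (A B : ℂ) : ModularForm 𝒮ℒ 12 :=
  B ^ 2 • ModularForm.mcast (by norm_num) (E₄.mul (E₄.mul E₄))
    - A ^ 3 • ModularForm.mcast (by norm_num) (E₆.mul E₆)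

theorem F12_apply (A B : ℂ) (z : ℍ) :
    F12 A B z = B ^ 2 * E₄ z ^ 3 - A ^ 3 * E₆ z ^ 2 := by
  have h1 : (E₄.mul (E₄.mul E₄)) z = E₄ z * (E₄ z * E₄ z) := rfl
  have h2 : (E₆.mul E₆) z = E₆ z * E₆ z := rfl
  simp only [F12, sub_apply, smul_apply, ModularForm.mcast_apply, h1, h2, smul_eq_mul]
  ring

theorem tendsto_F12 (A B : ℂ) :
    Tendsto (fun z => F12 A B z) atImInfty (𝓝 (B ^ 2 - A ^ 3)) := by
  have h4 := Fermat.Agent.S20.SerreFacts.tendsto_E₄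
  have h6 := Fermat.Agent.S20.SerreFacts.tendsto_E₆
  have h := ((h4.pow 3).const_mul (B ^ 2)).sub ((h6.pow 2).const_mul (A ^ 3))
  simp only [one_pow, mul_one] at h
  refine h.congr (fun z => ?_)
  rw [F12_apply]

theorem quot_slash (A B : ℂ) (γ : SL(2, ℤ)) :
    (fun z ↦ Δ z / F12 A B z) ∣[(0 : ℤ)] γ = fun z ↦ Δ z / F12 A B z := by
  have hγ : (γ : GL (Fin 2) ℝ) ∈ 𝒮ℒ := ⟨γ, rfl⟩
  change (⇑CuspForm.discriminant / ⇑(F12 A B)) ∣[(0 : ℤ)] γ = ⇑CuspForm.discriminant / ⇑(F12 A B)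
  rw [show (0 : ℤ) = 12 - 12 by norm_num]
  simp_rw [div_slash_SL2, SL_slash, slash_action_eqn _ _ hγ]

theorem tendsto_quot (A B : ℂ) (h : A ^ 3 ≠ B ^ 2) :
    Tendsto (fun z ↦ Δ z / F12 A B z) atImInfty (𝓝 0) := by
  have hne : B ^ 2 - A ^ 3 ≠ 0 := sub_ne_zero.2 (Ne.symm h)
  have h0 : Tendsto Δ atImInfty (𝓝 0) := discriminant_isZeroAtImInfty
  have := h0.div (tendsto_F12 A B) hne
  rw [zero_div] at this
  exact this

/-- The quotient `Δ / F` as a modular form of weight `0`. -/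
noncomputable def quot (A B : ℂ) (h : A ^ 3 ≠ B ^ 2) (hF : ∀ z, F12 A B z ≠ 0) :
    ModularForm 𝒮ℒ 0 where
  toFun z := Δ z / F12 A B z
  slash_action_eq' := fun _ ⟨γ, hγ⟩ ↦ hγ ▸ quot_slash A B γ
  holo' := CuspForm.discriminant.holo'.div (F12 A B).holo' hF
  bdd_at_cusps' {c} hc := by
    rw [Subgroup.IsArithmetic.isCusp_iff_isCusp_SL2Z] at hc
    rw [isBoundedAt_iff_forall_SL2Z hc]
    intro γ _
    rw [quot_slash A B γ]
    exact ZeroAtFilter.boundedAtFilter (l := atImInfty) (tendsto_quot A B h)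

/-- **`j` is onto `ℂ`** (projective form): for `A³ ≠ B²` there is `τ` with
`B² E₄(τ)³ = A³ E₆(τ)²`. -/
theorem exists_E_eq (A B : ℂ) (h : A ^ 3 ≠ B ^ 2) :
    ∃ τ : ℍ, B ^ 2 * E₄ τ ^ 3 = A ^ 3 * E₆ τ ^ 2 := by
  by_contra hcon
  simp only [not_exists] at hcon
  have hF : ∀ z, F12 A B z ≠ 0 := fun z => by
    rw [F12_apply]; exact sub_ne_zero.2 (hcon z)
  obtain ⟨c, hc⟩ := levelOne_weight_zero_const (quot A B h hF)
  have hc' : ∀ z : ℍ, Δ z / F12 A B z = c := fun z => congrFun hc z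
  have hlim : Tendsto (fun z ↦ Δ z / F12 A B z) atImInfty (𝓝 c) := by
    simp only [hc']; exact tendsto_const_nhds
  have hc0 : c = 0 := tendsto_nhds_unique hlim (tendsto_quot A B h)
  have z : ℍ := UpperHalfPlane.I
  have := hc' z
  rw [hc0, div_eq_zero_iff] at this
  rcases this with h1 | h1
  · exact discriminant_ne_zero z h1
  · exact hF z h1

/-- **Uniformisation, `τ`-form**: every pair `(a, b)` with `a³ ≠ b²` is `(E₄(τ), E₆(τ))` up to
the weighted scaling `(c⁴, c⁶)`. -/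
theorem exists_tau (a b : ℂ) (h : a ^ 3 ≠ b ^ 2) :
    ∃ (τ : ℍ) (c : ℂ), c ≠ 0 ∧ E₄ τ = c ^ 4 * a ∧ E₆ τ = c ^ 6 * b := by
  obtain ⟨τ, hτ⟩ := exists_E_eq a b h
  refine ⟨τ, ?_⟩
  have hD : E₄ τ ^ 3 - E₆ τ ^ 2 ≠ 0 := by
    have h1 := discriminant_ne_zero τ
    rw [discriminant_eq_E₄_cube_sub_E₆_sq] at h1
    intro h0
    exact h1 (by rw [h0]; simp)
  set e4 := E₄ τ
  set e6 := E₆ τ
  by_cases ha : a = 0
  · have hb : b ≠ 0 := fun hb => h (by rw [ha, hb]; ring)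
    have he4 : e4 = 0 := by
      have h1 : b ^ 2 * e4 ^ 3 = 0 := by rw [hτ, ha]; ring
      rcases mul_eq_zero.mp h1 with h2 | h2
      · exact absurd (pow_eq_zero_iff (by norm_num) |>.mp h2) hb
      · exact pow_eq_zero_iff (by norm_num) |>.mp h2
    have he6 : e6 ≠ 0 := fun h0 => hD (by rw [he4, h0]; ring)
    obtain ⟨c, hc6⟩ := IsAlgClosed.exists_pow_nat_eq (e6 / b) (n := 6) (by norm_num)
    have hc : c ≠ 0 := by
      rintro rfl
      have : e6 / b = 0 := by rw [← hc6]; ring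
      exact div_ne_zero he6 hb this
    refine ⟨c, hc, ?_, ?_⟩
    · rw [he4, ha]; ring
    · rw [hc6]; field_simp
  · have he4 : e4 ≠ 0 := by
      intro h0
      have h1 : a ^ 3 * e6 ^ 2 = 0 := by rw [← hτ, h0]; ring
      rcases mul_eq_zero.mp h1 with h2 | h2
      · exact ha (pow_eq_zero_iff (by norm_num) |>.mp h2)
      · exact hD (by rw [h0, pow_eq_zero_iff (by norm_num) |>.mp h2]; ring)
    obtain ⟨l, hl4⟩ := IsAlgClosed.exists_pow_nat_eq (e4 / a) (n := 4) (by norm_num)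
    have hl : l ≠ 0 := by
      rintro rfl
      have : e4 / a = 0 := by rw [← hl4]; ring
      exact div_ne_zero he4 ha this
    have h4 : e4 = l ^ 4 * a := by rw [hl4]; field_simp
    have hsq : (e6 - l ^ 6 * b) * (e6 + l ^ 6 * b) = 0 := by
      have h3 : a ^ 3 ≠ 0 := pow_ne_zero _ ha
      apply mul_left_cancel₀ h3
      rw [h4] at hτ
      linear_combination -hτ
    rcases mul_eq_zero.mp hsq with h1 | h1
    · exact ⟨l, hl, h4, by linear_combination h1⟩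
    · refine ⟨Complex.I * l, mul_ne_zero Complex.I_ne_zero hl, ?_, ?_⟩
      · rw [mul_pow, Complex.I_pow_four, one_mul]; exact h4
      · have : Complex.I ^ 6 = -1 := by
          rw [show (6 : ℕ) = 4 + 2 by norm_num, pow_add, Complex.I_pow_four, Complex.I_sq]; ring
        rw [mul_pow, this]
        linear_combination h1

/-! ### Lattices with prescribed invariants -/

open Fermat.Agent.S20.JInj

theorem bernoulli_six : bernoulli 6 = 1 / 42 := by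
  have h5 : bernoulli' 5 = 0 := by
    have h1 : Nat.choose 5 2 = 10 := by decide
    have h2 : Nat.choose 5 3 = 10 := by decide
    rw [bernoulli'_def]
    norm_num [Finset.sum_range_succ, Finset.sum_range_zero, h1, h2]
  have h1 : Nat.choose 6 2 = 15 := by decide
  have h2 : Nat.choose 6 3 = 20 := by decide
  have h3 : Nat.choose 6 4 = 15 := by decide
  rw [bernoulli_eq_bernoulli'_of_ne_one (by norm_num), bernoulli'_def]
  norm_num [Finset.sum_range_succ, Finset.sum_range_zero, h1, h2, h3, h5]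

theorem zeta_six : riemannZeta 6 = (π : ℂ) ^ 6 / 945 := by
  have h := riemannZeta_two_mul_nat (k := 3) (by norm_num)
  have h6 : (2 * 3 : ℕ).factorial = 720 := by decide
  rw [show (2 : ℂ) * ((3 : ℕ) : ℂ) = 6 by norm_num] at h
  rw [h, show 2 * 3 = 6 by norm_num, bernoulli_six]
  norm_num [Nat.factorial]
  ring

theorem g₂_ppOf (c : ℂ) (hc : c ≠ 0) (τ : ℍ) :
    (ppOf c hc τ).g₂ = (c ^ 4)⁻¹ * (4 * (π : ℂ) ^ 4 / 3) * E₄ τ := by
  rw [PeriodPair.g₂, G_ppOf c hc τ (by norm_num : 3 ≤ 4)]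
  change 60 * ((c ^ 4)⁻¹ * (2 * riemannZeta ((4 : ℕ) : ℂ) * E₄ τ)) = _
  rw [show ((4 : ℕ) : ℂ) = 4 by norm_num, riemannZeta_four]
  ring

theorem g₃_ppOf (c : ℂ) (hc : c ≠ 0) (τ : ℍ) :
    (ppOf c hc τ).g₃ = (c ^ 6)⁻¹ * (8 * (π : ℂ) ^ 6 / 27) * E₆ τ := by
  rw [PeriodPair.g₃, G_ppOf c hc τ (by norm_num : 3 ≤ 6)]
  change 140 * ((c ^ 6)⁻¹ * (2 * riemannZeta ((6 : ℕ) : ℂ) * E₆ τ)) = _
  rw [show ((6 : ℕ) : ℂ) = 6 by norm_num, zeta_six]
  ring

/-- The discriminant of the lattice `c (ℤ τ + ℤ)`. -/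
theorem disc_ppOf (c : ℂ) (hc : c ≠ 0) (τ : ℍ) :
    (ppOf c hc τ).g₂ ^ 3 - 27 * (ppOf c hc τ).g₃ ^ 2 = (c ^ 12)⁻¹ * (2 * (π : ℂ)) ^ 12 * Δ τ := by
  rw [g₂_ppOf, g₃_ppOf, discriminant_eq_E₄_cube_sub_E₆_sq]
  field_simp
  ring

theorem disc_ppOf_ne_zero (c : ℂ) (hc : c ≠ 0) (τ : ℍ) :
    (ppOf c hc τ).g₂ ^ 3 - 27 * (ppOf c hc τ).g₃ ^ 2 ≠ 0 := by
  have hπ : (π : ℂ) ≠ 0 := Complex.ofReal_ne_zero.2 Real.pi_ne_zero
  rw [disc_ppOf]
  exact mul_ne_zero (mul_ne_zero (inv_ne_zero (pow_ne_zero _ hc))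
    (pow_ne_zero _ (mul_ne_zero two_ne_zero hπ))) (discriminant_ne_zero τ)

/-- **Uniformisation**: every `(g₂, g₃)` with `g₂³ - 27 g₃² ≠ 0` is the pair of invariants of a
lattice `c (ℤ τ + ℤ)`. -/
theorem exists_ppOf (g₂ g₃ : ℂ) (h : g₂ ^ 3 - 27 * g₃ ^ 2 ≠ 0) :
    ∃ (c : ℂ) (hc : c ≠ 0) (τ : ℍ), (ppOf c hc τ).g₂ = g₂ ∧ (ppOf c hc τ).g₃ = g₃ := by
  have hπ : (π : ℂ) ≠ 0 := Complex.ofReal_ne_zero.2 Real.pi_ne_zero
  have hα : (4 * (π : ℂ) ^ 4 / 3) ≠ 0 :=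
    div_ne_zero (mul_ne_zero (by norm_num) (pow_ne_zero _ hπ)) (by norm_num)
  have hβ : (8 * (π : ℂ) ^ 6 / 27) ≠ 0 :=
    div_ne_zero (mul_ne_zero (by norm_num) (pow_ne_zero _ hπ)) (by norm_num)
  obtain ⟨τ, c, hc, h4, h6⟩ := exists_tau (g₂ / (4 * (π : ℂ) ^ 4 / 3)) (g₃ / (8 * (π : ℂ) ^ 6 / 27))
    (by
      intro h0
      apply h
      field_simp at h0
      linear_combination h0 / 1728)
  refine ⟨c, hc, τ, ?_, ?_⟩
  · rw [g₂_ppOf, h4]; field_simp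
  · rw [g₃_ppOf, h6]; field_simp

theorem exists_periodPair (g₂ g₃ : ℂ) (h : g₂ ^ 3 - 27 * g₃ ^ 2 ≠ 0) :
    ∃ L : PeriodPair, L.g₂ = g₂ ∧ L.g₃ = g₃ := by
  obtain ⟨c, hc, τ, h2, h3⟩ := exists_ppOf g₂ g₃ h
  exact ⟨ppOf c hc τ, h2, h3⟩

end Fermat.Agent.S15P.M1.Unif21
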