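/-
S15 cell, brick (C5) of (M1) (helper36): the modular parameter of a point of order `p`.

* `exists_tau_super` (T1): for a lattice `Λ` (Mathlib's `PeriodPair`), a prime `p` and `z₀ ∉ Λ`
  with `p z₀ ∈ Λ` there are `τ ∈ ℍ` and a period pair `L'` with lattice `Λ + ℤ z₀` such that
  `j(Λ) = J(τ)` and `j(L') = J(p τ)` (both in the denominator-free form
  `1728 g₂³ = J (g₂³ - 27 g₃²)`); moreover `z₀` has exact order `p` modulo `Λ`.
* `eval_of_formal` (T2): every polynomial relation over `ℚ` between the formal `q`-expansions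
  `jq`, `jqN p` holds between the analytic functions `J(τ)`, `J(p τ)` (the `q`-expansion
  principle `S24.QExp.ev_eq_zero_iff` of main, restricted to the two generators `d = 1, p`).
* helpers: `G_congr`, `g₂_congr`, `g₃_congr` (the invariants depend only on the lattice),
  `j_ppOf` (the `j`-relation for `c (ℤ τ + ℤ)`), `exists_ppOf_lattice` (every lattice is of this
  form), `exists_basis_change` (`SL₂(ℤ)` change of basis), `exists_row`.
-/
import Mathlib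
import Fermat.Agent.S24.QExpJ
import Fermat.Agent.S15P.M1.Unif21

set_option autoImplicit false

namespace Fermat.Agent.S15P.M1.Tau36

open UpperHalfPlane ModularForm
open scoped MatrixGroups
open Fermat.Agent.S24 Fermat.Agent.S20.JInj Fermat.Agent.S15P.M1.Unif21

noncomputable section

/-- The two generators `j(q)`, `j(q^p)` among the generators `j(q^d)`, `d ∣ p`. -/
def idx (p : ℕ) : Fin 2 → Dv p := ![⟨1, one_dvd p⟩, ⟨p, dvd_rfl⟩]

theorem Jabd_one (τ : ℍ) : Jabd 1 0 1 τ = Jfun τ := by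
  unfold Jabd
  simp

/-- **(T2)** a formal relation between `j(q)` and `j(q^p)` holds for the analytic functions
`J(τ)`, `J(pτ)`. -/
theorem eval_of_formal {p : ℕ} [NeZero p] (P : MvPolynomial (Fin 2) ℚ)
    (hP : MvPolynomial.aeval ![ModularCurve.jq, ModularCurve.jqN p] P = (0 : LaurentSeries ℚ))
    (τ : ℍ) :
    MvPolynomial.aeval ![Jfun τ, Jabd p 0 1 τ] P = (0 : ℂ) := by
  set P' : MvPolynomial (Dv p) KQ :=
    MvPolynomial.map (algebraMap ℚ KQ) (MvPolynomial.rename (idx p) P) with hP'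
  have h1 : fm p P' = 0 := by
    apply Subtype.ext
    rw [QExp.coe_fm]
    have h2 : ((fun d : Dv p => (jFormal p d : LaurentSeries KQ)) ∘ idx p)
        = (ModularCurve.coeffEmb KQ) ∘ ![ModularCurve.jq, ModularCurve.jqN p] := by
      funext i
      fin_cases i
      · show ModularCurve.coeffEmb KQ (ModularCurve.qExpand ℚ 1 ModularCurve.jq)
          = ModularCurve.coeffEmb KQ ModularCurve.jq
        rw [ModularCurve.qExpand_one_apply]
      · rfl
    have h3 : (algebraMap KQ (LaurentSeries KQ)).comp (algebraMap ℚ KQ)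
        = (ModularCurve.coeffEmb KQ).comp (algebraMap ℚ (LaurentSeries ℚ)) :=
      Subsingleton.elim _ _
    rw [hP', MvPolynomial.aeval_def, MvPolynomial.eval₂_map, MvPolynomial.eval₂_rename, h2, h3,
      ← MvPolynomial.eval₂_comp_left, ← MvPolynomial.aeval_def, hP, map_zero]
    rfl
  have h4 : ev p P' = 0 := (QExp.ev_eq_zero_iff p P').mpr h1
  have h5 : ev p P' τ = 0 := by rw [h4]; rfl
  have h6 : ev p P' τ = MvPolynomial.eval₂ iotaK (fun d : Dv p => Jabd d.1 0 1 τ) P' := by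
    have h := MvPolynomial.comp_eval₂Hom ((Pi.constRingHom ℍ ℂ).comp iotaK)
      (fun d : Dv p => Jabd d.1 0 1) (Pi.evalRingHom (fun _ : ℍ => ℂ) τ)
    have h2 := congrArg (fun φ => φ P') h
    simp only [RingHom.comp_apply, Pi.evalRingHom_apply] at h2
    rw [ev]
    exact h2
  have h7 : ((fun d : Dv p => Jabd d.1 0 1 τ) ∘ idx p) = ![Jfun τ, Jabd p 0 1 τ] := by
    funext i
    fin_cases i
    · exact Jabd_one τ
    · rfl
  have h8 : iotaK.comp (algebraMap ℚ KQ) = algebraMap ℚ ℂ := Subsingleton.elim _ _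
  rw [h6, hP', MvPolynomial.eval₂_map, MvPolynomial.eval₂_rename, h7, h8,
    ← MvPolynomial.aeval_def] at h5
  exact h5


/-! ### (T1): a basis of the lattice adapted to a point of order `p` -/

theorem lattice_ppOf (c : ℂ) (hc : c ≠ 0) (τ : ℍ) :
    (ppOf c hc τ).lattice = Submodule.span ℤ {c * (τ : ℂ), c} := rfl

theorem mem_lattice_ppOf {c : ℂ} {hc : c ≠ 0} {τ : ℍ} {w : ℂ} :
    w ∈ (ppOf c hc τ).lattice ↔ ∃ m n : ℤ, w = (m : ℂ) * (c * τ) + n * c := by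
  rw [PeriodPair.mem_lattice]
  simp only [ppOf_ω₁, ppOf_ω₂]
  constructor
  · rintro ⟨m, n, h⟩; exact ⟨m, n, h.symm⟩
  · rintro ⟨m, n, h⟩; exact ⟨m, n, h.symm⟩

/-- The Eisenstein sums depend only on the lattice. -/
theorem G_congr {L L' : PeriodPair} (h : L.lattice = L'.lattice) (n : ℕ) : L.G n = L'.G n := by
  have key : ∀ (S T : Submodule ℤ ℂ), S = T →
      (∑' l : S, ((l : ℂ) ^ n)⁻¹) = ∑' l : T, ((l : ℂ) ^ n)⁻¹ := by
    rintro S _ rfl; rfl
  exact key _ _ h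

theorem g₂_congr {L L' : PeriodPair} (h : L.lattice = L'.lattice) : L.g₂ = L'.g₂ := by
  rw [PeriodPair.g₂, PeriodPair.g₂, G_congr h]

theorem g₃_congr {L L' : PeriodPair} (h : L.lattice = L'.lattice) : L.g₃ = L'.g₃ := by
  rw [PeriodPair.g₃, PeriodPair.g₃, G_congr h]

/-- The `j`-invariant of the lattice `c (ℤ τ + ℤ)` is `J(τ)` (denominator-free form). -/
theorem j_ppOf (c : ℂ) (hc : c ≠ 0) (τ : ℍ) :
    1728 * (ppOf c hc τ).g₂ ^ 3 =
      Jfun τ * ((ppOf c hc τ).g₂ ^ 3 - 27 * (ppOf c hc τ).g₃ ^ 2) := by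
  have hΔ : ModularForm.discriminant τ ≠ 0 := discriminant_ne_zero τ
  rw [disc_ppOf, g₂_ppOf, Jfun]
  field_simp
  ring

/-- Every lattice is `c (ℤ τ + ℤ)` with `τ` in the upper half plane. -/
theorem exists_ppOf_lattice (L : PeriodPair) :
    ∃ (c : ℂ) (hc : c ≠ 0) (τ : ℍ), (ppOf c hc τ).lattice = L.lattice := by
  have hind := L.indep
  rw [LinearIndependent.pair_iff] at hind
  have h2 : L.ω₂ ≠ 0 := by
    intro h
    have := hind 0 1 (by simp [h])
    exact one_ne_zero this.2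
  have h1 : L.ω₁ ≠ 0 := by
    intro h
    have := hind 1 0 (by simp [h])
    exact one_ne_zero this.1
  have him : (L.ω₁ / L.ω₂).im ≠ 0 := by
    intro h
    have hr : L.ω₁ / L.ω₂ = (((L.ω₁ / L.ω₂).re : ℝ) : ℂ) := by
      apply Complex.ext <;> simp [h]
    have := hind 1 (-(L.ω₁ / L.ω₂).re) (by
      simp only [Complex.real_smul, Complex.ofReal_one, one_mul, Complex.ofReal_neg]
      rw [← hr]; field_simp; ring)
    exact one_ne_zero this.1
  rcases lt_or_gt_of_ne him with hneg | hpos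
  · have hpos' : 0 < (L.ω₂ / L.ω₁).im := by
      have : L.ω₂ / L.ω₁ = (L.ω₁ / L.ω₂)⁻¹ := by rw [inv_div]
      rw [this, Complex.inv_im]
      exact div_pos (neg_pos.mpr hneg) (Complex.normSq_pos.mpr (div_ne_zero h1 h2))
    refine ⟨L.ω₁, h1, ⟨L.ω₂ / L.ω₁, hpos'⟩, ?_⟩
    rw [lattice_ppOf, PeriodPair.lattice]
    have : L.ω₁ * ((⟨L.ω₂ / L.ω₁, hpos'⟩ : ℍ) : ℂ) = L.ω₂ := by
      show L.ω₁ * (L.ω₂ / L.ω₁) = L.ω₂
      field_simp
    rw [this, Set.pair_comm]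
  · refine ⟨L.ω₂, h2, ⟨L.ω₁ / L.ω₂, hpos⟩, ?_⟩
    rw [lattice_ppOf, PeriodPair.lattice]
    have : L.ω₂ * ((⟨L.ω₁ / L.ω₂, hpos⟩ : ℍ) : ℂ) = L.ω₁ := by
      show L.ω₂ * (L.ω₁ / L.ω₂) = L.ω₁
      field_simp
    rw [this]

/-- Change of basis by a matrix of `SL₂(ℤ)`. -/
theorem exists_basis_change (c : ℂ) (hc : c ≠ 0) (τ₀ : ℍ) (α β γ δ : ℤ)
    (hdet : α * δ - β * γ = 1) :
    ∃ (c' : ℂ) (hc' : c' ≠ 0) (τ : ℍ), c' = c * (γ * τ₀ + δ) ∧
      (ppOf c' hc' τ).lattice = (ppOf c hc τ₀).lattice := by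
  have hden : (γ : ℂ) * τ₀ + δ ≠ 0 := by
    intro h
    have him := congrArg Complex.im h
    simp only [Complex.add_im, Complex.mul_im, Complex.intCast_re, Complex.intCast_im, zero_mul,
      add_zero, Complex.zero_im, UpperHalfPlane.coe_im] at him
    have hγ : γ = 0 := by
      rcases mul_eq_zero.mp him with h | h
      · exact_mod_cast h
      · exact absurd h τ₀.im_pos.ne'
    subst hγ
    have hre := congrArg Complex.re h
    simp at hre
    have hδ : δ = 0 := by exact_mod_cast hre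
    subst hδ
    simp at hdet
  let g : SL(2, ℤ) := ⟨!![α, β; γ, δ], by rw [Matrix.det_fin_two_of]; exact hdet⟩
  have hg : ((g • τ₀ : ℍ) : ℂ) = ((α : ℂ) * τ₀ + β) / ((γ : ℂ) * τ₀ + δ) := by
    rw [UpperHalfPlane.coe_specialLinearGroup_apply]
    simp [g]
  refine ⟨c * (γ * τ₀ + δ), mul_ne_zero hc hden, g • τ₀, rfl, ?_⟩
  have h1 : c * ((γ : ℂ) * τ₀ + δ) * ((g • τ₀ : ℍ) : ℂ) = c * (α * τ₀ + β) := by
    rw [hg]; field_simp
  rw [lattice_ppOf, lattice_ppOf, h1]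
  have hdet' : (α : ℂ) * δ - β * γ = 1 := by exact_mod_cast hdet
  apply le_antisymm
  · apply Submodule.span_le.mpr
    rintro x (rfl | rfl)
    · exact Submodule.mem_span_pair.mpr ⟨α, β, by simp only [zsmul_eq_mul]; ring⟩
    · exact Submodule.mem_span_pair.mpr ⟨γ, δ, by simp only [zsmul_eq_mul]; ring⟩
  · apply Submodule.span_le.mpr
    rintro x (rfl | hx)
    · exact Submodule.mem_span_pair.mpr ⟨δ, -β, by
        simp only [zsmul_eq_mul]; push_cast; linear_combination (c * τ₀) * hdet'⟩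
    · rw [Set.mem_singleton_iff.mp hx]
      exact Submodule.mem_span_pair.mpr ⟨-γ, α, by
        simp only [zsmul_eq_mul]; push_cast; linear_combination c * hdet'⟩

/-- A primitive row congruent to a multiple of a nonzero vector mod `p`. -/
theorem exists_row (p : ℕ) (hp : p.Prime) (a b : ℤ) (hab : ¬ ((p : ℤ) ∣ a ∧ (p : ℤ) ∣ b)) :
    ∃ α β γ δ k₀ k₁ s t m : ℤ, α * δ - β * γ = 1 ∧ a = k₀ * γ + p * s ∧ b = k₀ * δ + p * t ∧
      k₁ * k₀ = 1 + p * m := by
  have hpZ : Prime (p : ℤ) := Nat.prime_iff_prime_int.mp hp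
  by_cases hb : (p : ℤ) ∣ b
  · have ha : ¬ (p : ℤ) ∣ a := fun h => hab ⟨h, hb⟩
    obtain ⟨t, ht⟩ := hb
    have hcop : IsCoprime a (p : ℤ) := (hpZ.coprime_iff_not_dvd.mpr ha).symm
    obtain ⟨x, y, hxy⟩ := hcop
    exact ⟨0, -1, 1, 0, a, x, 0, t, -y, by ring, by ring, by rw [ht]; ring,
      by linear_combination hxy⟩
  · have hcop : IsCoprime b (p : ℤ) := (hpZ.coprime_iff_not_dvd.mpr hb).symm
    obtain ⟨x, y, hxy⟩ := hcop
    exact ⟨1, 0, x * a, 1, b, x, a * y, 0, -y, by ring, by linear_combination (-a) * hxy,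
      by ring, by linear_combination hxy⟩

/-- **(T1)** For a point `z₀` of exact order `p` on `ℂ / Λ` there is `τ ∈ ℍ` such that `Λ` has
`j`-invariant `J(τ)` and the superlattice `Λ + ℤ z₀` has `j`-invariant `J(p τ)`. -/
theorem exists_tau_super (L : PeriodPair) (p : ℕ) (hp : p.Prime) (z₀ : ℂ) (hz₀ : z₀ ∉ L.lattice)
    (hpz : (p : ℂ) * z₀ ∈ L.lattice) :
    ∃ (L' : PeriodPair) (τ : ℍ), (∀ k : ℕ, (k : ℂ) * z₀ ∈ L.lattice ↔ p ∣ k) ∧
      (∀ w : ℂ, w ∈ L'.lattice ↔ ∃ k : ℕ, w - k * z₀ ∈ L.lattice) ∧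
      1728 * L.g₂ ^ 3 = Jfun τ * (L.g₂ ^ 3 - 27 * L.g₃ ^ 2) ∧
      1728 * L'.g₂ ^ 3 = Jabd p 0 1 τ * (L'.g₂ ^ 3 - 27 * L'.g₃ ^ 2) := by
  have hp0 : (p : ℂ) ≠ 0 := Nat.cast_ne_zero.mpr hp.ne_zero
  have horder : ∀ k : ℕ, (k : ℂ) * z₀ ∈ L.lattice ↔ p ∣ k := by
    intro k
    constructor
    · intro hk
      by_contra hpk
      have hcop : IsCoprime (k : ℤ) (p : ℤ) := by
        rw [Nat.isCoprime_iff_coprime]
        exact ((Nat.Prime.coprime_iff_not_dvd hp).mpr hpk).symm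
      obtain ⟨x, y, hxy⟩ := hcop
      apply hz₀
      have : z₀ = x • ((k : ℂ) * z₀) + y • ((p : ℂ) * z₀) := by
        have h1 : ((x * k + y * p : ℤ) : ℂ) = 1 := by rw [hxy]; simp
        push_cast at h1
        simp only [zsmul_eq_mul]
        linear_combination (-z₀) * h1
      rw [this]
      exact add_mem (Submodule.smul_mem _ _ hk) (Submodule.smul_mem _ _ hpz)
    · rintro ⟨q, rfl⟩
      have : ((p * q : ℕ) : ℂ) * z₀ = (q : ℤ) • ((p : ℂ) * z₀) := by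
        simp only [zsmul_eq_mul]; push_cast; ring
      rw [this]
      exact Submodule.smul_mem _ _ hpz
  obtain ⟨c, hc, τ₀, hL⟩ := exists_ppOf_lattice L
  obtain ⟨a, b, hab⟩ : ∃ a b : ℤ, (p : ℂ) * z₀ = (a : ℂ) * (c * τ₀) + b * c := by
    rw [← hL] at hpz; exact mem_lattice_ppOf.mp hpz
  have hnd : ¬ ((p : ℤ) ∣ a ∧ (p : ℤ) ∣ b) := by
    rintro ⟨⟨a', rfl⟩, ⟨b', rfl⟩⟩
    apply hz₀
    rw [← hL]
    refine mem_lattice_ppOf.mpr ⟨a', b', ?_⟩
    apply mul_left_cancel₀ hp0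
    rw [hab]; push_cast; ring
  obtain ⟨α, β, γ, δ, k₀, k₁, s, t, m, hdet, ha, hb, hk⟩ := exists_row p hp a b hnd
  obtain ⟨c', hc', τ, hc'eq, hlat⟩ := exists_basis_change c hc τ₀ α β γ δ hdet
  have hLlat : L.lattice = (ppOf c' hc' τ).lattice := by rw [hlat, hL]
  have hε0 : c' / (p : ℂ) ≠ 0 := div_ne_zero hc' hp0
  have him : 0 < ((p : ℂ) * τ).im := by
    rw [Complex.mul_im]
    simp only [Complex.natCast_re, Complex.natCast_im, zero_mul, add_zero, UpperHalfPlane.coe_im]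
    exact mul_pos (Nat.cast_pos.mpr hp.pos) τ.im_pos
  have hτ'c : ((⟨(p : ℂ) * τ, him⟩ : ℍ) : ℂ) = (p : ℂ) * τ := rfl
  refine ⟨ppOf (c' / (p : ℂ)) hε0 ⟨(p : ℂ) * τ, him⟩, τ, horder, ?_, ?_, ?_⟩
  · have hl1 : c * ((s : ℂ) * τ₀ + t) ∈ L.lattice := by
      rw [← hL]; exact mem_lattice_ppOf.mpr ⟨s, t, by ring⟩
    have hc'mem : c' ∈ L.lattice := by
      rw [hLlat]; exact (ppOf c' hc' τ).ω₂_mem_lattice
    have hc'τmem : c' * (τ : ℂ) ∈ L.lattice := by
      rw [hLlat]; exact (ppOf c' hc' τ).ω₁_mem_lattice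
    have hpe : (p : ℂ) * (c' / (p : ℂ)) = c' := by field_simp
    have hz1 : z₀ = k₀ * (c' / (p : ℂ)) + c * ((s : ℂ) * τ₀ + t) := by
      apply mul_left_cancel₀ hp0
      rw [hab, hc'eq, ha, hb]
      push_cast
      field_simp
      ring
    have hz2 : c' / (p : ℂ) = k₁ * z₀ + (-(m : ℂ) * c' - k₁ * (c * ((s : ℂ) * τ₀ + t))) := by
      have hk' : (k₁ : ℂ) * k₀ = 1 + p * m := by exact_mod_cast hk
      linear_combination (-(c' / (p : ℂ))) * hk' - (m : ℂ) * hpe - (k₁ : ℂ) * hz1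
    have hl2 : (-(m : ℂ) * c' - k₁ * (c * ((s : ℂ) * τ₀ + t))) ∈ L.lattice := by
      have : (-(m : ℂ) * c' - k₁ * (c * ((s : ℂ) * τ₀ + t)))
          = (-m) • c' - k₁ • (c * ((s : ℂ) * τ₀ + t)) := by
        simp only [zsmul_eq_mul]; push_cast; ring
      rw [this]
      exact sub_mem (Submodule.smul_mem _ _ hc'mem) (Submodule.smul_mem _ _ hl1)
    have hLle : L.lattice ≤ (ppOf (c' / (p : ℂ)) hε0 ⟨(p : ℂ) * τ, him⟩).lattice := by
      rw [hLlat, lattice_ppOf]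
      apply Submodule.span_le.mpr
      rintro x (rfl | hx)
      · exact mem_lattice_ppOf.mpr ⟨1, 0, by rw [hτ'c]; push_cast; field_simp; ring⟩
      · rw [Set.mem_singleton_iff.mp hx]
        exact mem_lattice_ppOf.mpr ⟨0, p, by rw [hτ'c]; push_cast; field_simp; ring⟩
    have hεmem : c' / (p : ℂ) ∈ (ppOf (c' / (p : ℂ)) hε0 ⟨(p : ℂ) * τ, him⟩).lattice :=
      (ppOf (c' / (p : ℂ)) hε0 ⟨(p : ℂ) * τ, him⟩).ω₂_mem_lattice
    intro w
    constructor
    · intro hw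
      obtain ⟨m', n, hmn⟩ := mem_lattice_ppOf.mp hw
      have hετ' : c' / (p : ℂ) * ((⟨(p : ℂ) * τ, him⟩ : ℍ) : ℂ) = c' * τ := by
        rw [hτ'c]; field_simp
      have hnn : 0 ≤ (n * k₁) % (p : ℤ) := Int.emod_nonneg _ (by exact_mod_cast hp.ne_zero)
      have hq := Int.emod_add_mul_ediv (n * k₁) (p : ℤ)
      refine ⟨((n * k₁) % (p : ℤ)).toNat, ?_⟩
      have hr : ((((n * k₁) % (p : ℤ)).toNat : ℕ) : ℂ) = (((n * k₁) % (p : ℤ) : ℤ) : ℂ) := by
        have : ((((n * k₁) % (p : ℤ)).toNat : ℕ) : ℤ) = (n * k₁) % (p : ℤ) :=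
          Int.toNat_of_nonneg hnn
        exact_mod_cast congrArg (Int.cast : ℤ → ℂ) this
      have hq' : (n : ℂ) * k₁ = (((n * k₁) % (p : ℤ) : ℤ) : ℂ) + p * (((n * k₁) / (p : ℤ) : ℤ) : ℂ) := by
        exact_mod_cast congrArg (Int.cast : ℤ → ℂ) hq.symm
      have : w - ((((n * k₁) % (p : ℤ)).toNat : ℕ) : ℂ) * z₀
          = m' • (c' * (τ : ℂ)) + n • (-(m : ℂ) * c' - k₁ * (c * ((s : ℂ) * τ₀ + t)))
            + ((n * k₁) / (p : ℤ)) • ((p : ℂ) * z₀) := by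
        rw [hr, hmn, hετ']
        simp only [zsmul_eq_mul]
        linear_combination (n : ℂ) * hz2 + z₀ * hq'
      rw [this]
      exact add_mem (add_mem (Submodule.smul_mem _ _ hc'τmem) (Submodule.smul_mem _ _ hl2))
        (Submodule.smul_mem _ _ hpz)
    · rintro ⟨k, hk⟩
      have hz₀mem : z₀ ∈ (ppOf (c' / (p : ℂ)) hε0 ⟨(p : ℂ) * τ, him⟩).lattice := by
        rw [hz1]
        have : (k₀ : ℂ) * (c' / (p : ℂ)) + c * ((s : ℂ) * τ₀ + t)
            = k₀ • (c' / (p : ℂ)) + c * ((s : ℂ) * τ₀ + t) := by simp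
        rw [this]
        exact add_mem (Submodule.smul_mem _ _ hεmem) (hLle hl1)
      have : w = (w - k * z₀) + (k : ℤ) • z₀ := by simp
      rw [this]
      exact add_mem (hLle hk) (Submodule.smul_mem _ _ hz₀mem)
  · rw [g₂_congr hLlat, g₃_congr hLlat]
    exact j_ppOf c' hc' τ
  · have : Jabd p 0 1 τ = Jfun ⟨(p : ℂ) * τ, him⟩ := by
      unfold Jabd
      simp only [Nat.cast_zero, add_zero, Nat.cast_one, div_one]
      rw [ofComplex_apply_of_im_pos him]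
    rw [this]
    exact j_ppOf (c' / (p : ℂ)) hε0 ⟨(p : ℂ) * τ, him⟩

end

end Fermat.Agent.S15P.M1.Tau36
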