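/-
S15 cell, brick (M1), TOP SEAM (helper89).

`velu_pair_modular`: for a Weierstrass curve `W` over `ℚ` with `Δ ≠ 0` and a point `Q` of odd
prime order `p` over `ℚ̄`, the pair

  `(b, a) = (c₄³ / Δ, veluC4 p Q ^ 3 * veluPsi p Q ^ 4 / Δ ^ p) = (j(W), j(W / ⟨Q⟩))`

satisfies every polynomial relation over `ℚ` between `j(q)` and `j(q^p)`, i.e. it is a point of
`X₀(p)` — FROM the complex-analytic bricks of the cell, taken as explicit hypotheses in their
authors' literal shapes: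

* `HC1` (helper21): every `(g₂, g₃)` with `g₂³ - 27 g₃² ≠ 0` comes from a lattice;
* `HW4` (helper75): `z ↦ (℘(z), ℘'(z)/2)` is a surjective homomorphism `ℂ → E(ℂ)` with kernel the
  lattice, for Mathlib's group law on `Y² = X³ - g₂/4 X - g₃/4`;
* `HG`, `HD` (helper4): `g₂` and the discriminant of the superlattice `Λ + ℤ z₀`;
* `HT1`, `HT2` (helper36): `(j(Λ), j(Λ + ℤ z₀)) = (J(τ), J(pτ))` for some `τ`, and the evaluation
  of the formal `q`-identity.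

The seam itself: embedding `ℚ̄ → ℂ` (`Point.map`), short Weierstrass form (`S05.Transfer.vcEquiv`
with `u = 1`, under which `6x² + b₂x + b₄`, `2y + a₁x + a₃` and `c₄` are invariant), and the
identification of the Vélu sums with the values of `℘`, `℘'` at the multiples of `z₀`.
-/
import Mathlib
import Fermat.Prelude.Def_EllipticCurve_ZeroComponentAt
import Fermat.Prelude.Def_ModularCurve_X0
import Fermat.Agent.S24.ModDefs
import Fermat.Agent.S05.Transfer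
import Fermat.Agent.S15P.M2.Defs89

set_option autoImplicit false

namespace Fermat.Agent.S15P.M1.Top89

open WeierstrassCurve WeierstrassCurve.Affine UpperHalfPlane
open Fermat.Agent.S15P.M2 Fermat.Agent.S24 Fermat.Agent.S05.Transfer

/-! ### The hypotheses (literal shapes of the bricks) -/

/-- (C1): every `(g₂, g₃)` with nonzero discriminant is the pair of invariants of a lattice. -/
def HC1 : Prop :=
  ∀ g₂ g₃ : ℂ, g₂ ^ 3 - 27 * g₃ ^ 2 ≠ 0 → ∃ L : PeriodPair, L.g₂ = g₂ ∧ L.g₃ = g₃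

/-- (W4): the Weierstrass uniformisation is a surjective group homomorphism with kernel the
lattice. -/
def HW4 : Prop :=
  ∀ L : PeriodPair, L.g₂ ^ 3 - 27 * L.g₃ ^ 2 ≠ 0 →
    ∃ f : ℂ →+ (⟨0, 0, 0, -L.g₂ / 4, -L.g₃ / 4⟩ : WeierstrassCurve ℂ).toAffine.Point,
      Function.Surjective f ∧ (∀ z, f z = 0 ↔ z ∈ L.lattice) ∧
        ∀ z, z ∉ L.lattice →
          ptX (f z) = L.weierstrassP z ∧ ptY (f z) = L.derivWeierstrassP z / 2

/-- `Λ' = Λ + ℤ z₀` with `z₀` of exact order `p` in `ℂ / Λ`. -/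
def Super (L L' : PeriodPair) (p : ℕ) (z₀ : ℂ) : Prop :=
  (∀ k : ℕ, (k : ℂ) * z₀ ∈ L.lattice ↔ p ∣ k) ∧
    ∀ w : ℂ, w ∈ L'.lattice ↔ ∃ k : ℕ, w - k * z₀ ∈ L.lattice

/-- (C5), first half: the pair `(Λ, Λ + ℤ z₀)` is `(τ, pτ)`. -/
def HT1 : Prop :=
  ∀ (L : PeriodPair) (p : ℕ), p.Prime → ∀ z₀ : ℂ, z₀ ∉ L.lattice → (p : ℂ) * z₀ ∈ L.lattice →
    ∃ (L' : PeriodPair) (τ : ℍ), Super L L' p z₀ ∧
      1728 * L.g₂ ^ 3 = Jfun τ * (L.g₂ ^ 3 - 27 * L.g₃ ^ 2) ∧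
      1728 * L'.g₂ ^ 3 = Jabd p 0 1 τ * (L'.g₂ ^ 3 - 27 * L'.g₃ ^ 2)

/-- (C5), second half: a formal relation between `j(q)` and `j(q^p)` holds for the values. -/
def HT2 (p : ℕ) [NeZero p] : Prop :=
  ∀ P : MvPolynomial (Fin 2) ℚ,
    MvPolynomial.aeval ![ModularCurve.jq, ModularCurve.jqN p] P = (0 : LaurentSeries ℚ) →
      ∀ τ : ℍ, MvPolynomial.aeval ![Jfun τ, Jabd p 0 1 τ] P = (0 : ℂ)

/-- (C4), regrouping half: `g₂` of the superlattice. -/
def HG : Prop :=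
  ∀ (L L' : PeriodPair) (p : ℕ) (z₀ : ℂ), 0 < p → Super L L' p z₀ →
    L'.g₂ = L.g₂ + 10 * ∑ k ∈ Finset.Ico 1 p, (6 * L.weierstrassP (k * z₀) ^ 2 - L.g₂ / 2)

/-- (C4), product half: the discriminant of the superlattice. -/
def HD : Prop :=
  ∀ (L L' : PeriodPair) (p : ℕ) (z₀ : ℂ), Odd p → L.g₂ ^ 3 - 27 * L.g₃ ^ 2 ≠ 0 →
    Super L L' p z₀ →
      (L'.g₂ ^ 3 - 27 * L'.g₃ ^ 2) * (∏ k ∈ Finset.Ico 1 p, L.derivWeierstrassP (k * z₀)) ^ 4 =
        (L.g₂ ^ 3 - 27 * L.g₃ ^ 2) ^ p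

/-! ### Base change `ℚ̄ → ℂ` -/

section BaseChange

variable (W : WeierstrassCurve ℚ) (φ : AlgebraicClosure ℚ →ₐ[ℚ] ℂ)

theorem ptX_map (P : (W⁄(AlgebraicClosure ℚ)).Point) : ptX (Point.map φ P) = φ (ptX P) := by
  rcases P with _ | ⟨x, y, h⟩
  · exact (map_zero φ).symm
  · rfl

theorem ptY_map (P : (W⁄(AlgebraicClosure ℚ)).Point) : ptY (Point.map φ P) = φ (ptY P) := by
  rcases P with _ | ⟨x, y, h⟩
  · exact (map_zero φ).symm
  · rfl

theorem coeff_map (c : ℚ) : φ (algebraMap ℚ (AlgebraicClosure ℚ) c) = algebraMap ℚ ℂ c :=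
  φ.commutes c

theorem tq_map (P : (W⁄(AlgebraicClosure ℚ)).Point) : tq (Point.map φ P) = φ (tq P) := by
  unfold tq
  rw [ptX_map, map_add, map_add, map_mul, map_mul, map_pow]
  have h2 : φ (W⁄(AlgebraicClosure ℚ)).b₂ = (W⁄ℂ).b₂ := by
    change φ (W.map (algebraMap ℚ (AlgebraicClosure ℚ))).b₂ = (W.map (algebraMap ℚ ℂ)).b₂
    rw [map_b₂, map_b₂]
    exact φ.commutes _
  have h4 : φ (W⁄(AlgebraicClosure ℚ)).b₄ = (W⁄ℂ).b₄ := by
    change φ (W.map (algebraMap ℚ (AlgebraicClosure ℚ))).b₄ = (W.map (algebraMap ℚ ℂ)).b₄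
    rw [map_b₄, map_b₄]
    exact φ.commutes _
  rw [h2, h4, map_ofNat]

theorem psi2_map (P : (W⁄(AlgebraicClosure ℚ)).Point) : psi2 (Point.map φ P) = φ (psi2 P) := by
  unfold psi2
  rw [ptX_map, ptY_map, map_add, map_add, map_mul, map_mul]
  have h1 : φ (W⁄(AlgebraicClosure ℚ)).a₁ = (W⁄ℂ).a₁ := φ.commutes _
  have h3 : φ (W⁄(AlgebraicClosure ℚ)).a₃ = (W⁄ℂ).a₃ := φ.commutes _
  rw [h1, h3, map_ofNat]

theorem veluC4_map (p : ℕ) (Q : (W⁄(AlgebraicClosure ℚ)).Point) :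
    φ (veluC4 p Q) = veluC4 p (Point.map φ Q) := by
  unfold veluC4
  have hc : φ (W⁄(AlgebraicClosure ℚ)).c₄ = (W⁄ℂ).c₄ := by
    change φ (W.map (algebraMap ℚ (AlgebraicClosure ℚ))).c₄ = (W.map (algebraMap ℚ ℂ)).c₄
    rw [map_c₄, map_c₄]
    exact φ.commutes _
  rw [map_add, map_mul, map_sum, hc, map_ofNat]
  congr 2
  apply Finset.sum_congr rfl
  intro k _
  rw [← map_nsmul (Point.map φ) k Q, tq_map]

theorem veluPsi_map (p : ℕ) (Q : (W⁄(AlgebraicClosure ℚ)).Point) :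
    φ (veluPsi p Q) = veluPsi p (Point.map φ Q) := by
  unfold veluPsi
  rw [map_prod]
  apply Finset.prod_congr rfl
  intro k _
  rw [← map_nsmul (Point.map φ) k Q, psi2_map]

end BaseChange

/-! ### Variable changes with `u = 1` -/

section VC

variable {F : Type*} [Field F] [DecidableEq F] {W₁ W₂ : WeierstrassCurve F}
  (C : VariableChange F) (h : C • W₂ = W₁)

theorem tq_vc (hu : C.u = 1) {P : W₁.toAffine.Point} (hP : P ≠ 0) :
    tq (vcEquiv C h P) = tq P := by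
  subst h
  rcases P with _ | ⟨x, y, hxy⟩
  · exact absurd rfl hP
  · rw [vcEquiv_some]
    simp only [tq, ptX_some, vcX, variableChange_b₂, variableChange_b₄, hu, inv_one,
      Units.val_one]
    ring

theorem psi2_vc (hu : C.u = 1) {P : W₁.toAffine.Point} (hP : P ≠ 0) :
    psi2 (vcEquiv C h P) = psi2 P := by
  subst h
  rcases P with _ | ⟨x, y, hxy⟩
  · exact absurd rfl hP
  · rw [vcEquiv_some]
    simp only [psi2, ptX_some, ptY_some, vcX, vcY, variableChange_a₁, variableChange_a₃, hu,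
      inv_one, Units.val_one]
    ring

theorem c₄_vc (C : VariableChange F) (h : C • W₂ = W₁) (hu : C.u = 1) : W₁.c₄ = W₂.c₄ := by
  subst h
  rw [variableChange_c₄, hu, inv_one, Units.val_one, one_pow, one_mul]

theorem nsmul_ne_zero_of_order {G : Type*} [AddGroup G] {P : G} {p k : ℕ}
    (hP : addOrderOf P = p) (hk : k ∈ Finset.Ico 1 p) : k • P ≠ 0 := by
  rw [Finset.mem_Ico] at hk
  intro h0
  have hd := addOrderOf_dvd_of_nsmul_eq_zero h0
  rw [hP] at hd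
  have := Nat.le_of_dvd (by omega) hd
  omega

theorem veluC4_vc (hu : C.u = 1) {p : ℕ} {P : W₁.toAffine.Point} (hP : addOrderOf P = p) :
    veluC4 p (vcEquiv C h P) = veluC4 p P := by
  unfold veluC4
  have hc : W₂.toAffine.c₄ = W₁.toAffine.c₄ := (c₄_vc C h hu).symm
  rw [hc]
  congr 2
  apply Finset.sum_congr rfl
  intro k hk
  rw [← map_nsmul (vcEquiv C h) k P, tq_vc C h hu (nsmul_ne_zero_of_order hP hk)]

theorem veluPsi_vc (hu : C.u = 1) {p : ℕ} {P : W₁.toAffine.Point} (hP : addOrderOf P = p) :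
    veluPsi p (vcEquiv C h P) = veluPsi p P := by
  unfold veluPsi
  apply Finset.prod_congr rfl
  intro k hk
  rw [← map_nsmul (vcEquiv C h) k P, psi2_vc C h hu (nsmul_ne_zero_of_order hP hk)]

end VC

/-! ### The short Weierstrass form over `ℂ` -/

section Short

/-- The variable change (with `u = 1`) bringing a Weierstrass curve over `ℂ` to short form. -/
noncomputable def shortVC (W : WeierstrassCurve ℂ) : VariableChange ℂ :=
  ⟨1, -W.b₂ / 12, -W.a₁ / 2, -(W.a₁ * (-W.b₂ / 12) + W.a₃) / 2⟩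

theorem shortVC_smul (W : WeierstrassCurve ℂ) :
    shortVC W • W = ⟨0, 0, 0, -(W.c₄ / 12) / 4, -(W.c₆ / 216) / 4⟩ := by
  ext
  · simp only [variableChange_a₁, shortVC, inv_one, Units.val_one]
    ring
  · simp only [variableChange_a₂, shortVC, inv_one, Units.val_one, WeierstrassCurve.b₂]
    ring
  · simp only [variableChange_a₃, shortVC, inv_one, Units.val_one]
    ring
  · simp only [variableChange_a₄, shortVC, inv_one, Units.val_one, WeierstrassCurve.b₂,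
      WeierstrassCurve.b₄, WeierstrassCurve.c₄]
    ring
  · simp only [variableChange_a₆, shortVC, inv_one, Units.val_one, WeierstrassCurve.b₂,
      WeierstrassCurve.b₄, WeierstrassCurve.b₆, WeierstrassCurve.c₆]
    ring

end Short

/-! ### The seam -/

section Main

/-- **(M1), top seam.** The pair `(j(W), j(W/⟨Q⟩))`, the second entry computed by Vélu's
formulas, satisfies every polynomial relation between `j(q)` and `j(q^p)`. -/
theorem velu_pair_modular (hC1 : HC1) (hW4 : HW4) (hT1 : HT1) (hG : HG) (hD : HD)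
    {p : ℕ} [NeZero p] (hp : p.Prime) (hp2 : p ≠ 2) (hT2 : HT2 p)
    (W : WeierstrassCurve ℚ) (hΔ : W.Δ ≠ 0)
    (Q : (W⁄(AlgebraicClosure ℚ)).Point) (hQ : addOrderOf Q = p) (P : MvPolynomial (Fin 2) ℚ)
    (hP : MvPolynomial.aeval ![ModularCurve.jq, ModularCurve.jqN p] P = (0 : LaurentSeries ℚ)) :
    MvPolynomial.aeval
      ![((W.c₄ : ℚ) : AlgebraicClosure ℚ) ^ 3 / ((W.Δ : ℚ) : AlgebraicClosure ℚ),
        veluC4 p Q ^ 3 * veluPsi p Q ^ 4 / ((W.Δ : ℚ) : AlgebraicClosure ℚ) ^ p] P = 0 := by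
  let φ : AlgebraicClosure ℚ →ₐ[ℚ] ℂ := complexEmbedding
  have hinj : Function.Injective (φ : AlgebraicClosure ℚ → ℂ) := φ.toRingHom.injective
  apply hinj
  rw [map_zero, MvPolynomial.comp_aeval_apply]
  -- the point over `ℂ`
  have hQc : addOrderOf (Point.map φ Q) = p := by
    rw [addOrderOf_injective _ (Point.map_injective φ), hQ]
  have e1 : φ (veluC4 p Q) = veluC4 p (Point.map φ Q) := veluC4_map W φ p Q
  have e2 : φ (veluPsi p Q) = veluPsi p (Point.map φ Q) := veluPsi_map W φ p Q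
  -- the curve over `ℂ` and its invariants
  have hc4 : (W.map (algebraMap ℚ ℂ)).c₄ = ((W.c₄ : ℚ) : ℂ) := by
    rw [map_c₄]
    exact eq_ratCast _ _
  have hΔ' : (W.map (algebraMap ℚ ℂ)).Δ = ((W.Δ : ℚ) : ℂ) := by
    rw [map_Δ]
    exact eq_ratCast _ _
  have hΔc : (W.map (algebraMap ℚ ℂ)).Δ ≠ 0 := by
    rw [hΔ']
    exact_mod_cast hΔ
  have hrel : (W.map (algebraMap ℚ ℂ)).Δ =
      ((W.map (algebraMap ℚ ℂ)).c₄ / 12) ^ 3 - 27 * ((W.map (algebraMap ℚ ℂ)).c₆ / 216) ^ 2 := by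
    have h := (W.map (algebraMap ℚ ℂ)).c_relation
    linear_combination (1 / 1728 : ℂ) * h
  generalize hWc : W.map (algebraMap ℚ ℂ) = Wc at hc4 hΔ' hΔc hrel
  -- the lattice
  obtain ⟨L, hL2, hL3⟩ := hC1 (Wc.c₄ / 12) (Wc.c₆ / 216) (by rw [← hrel]; exact hΔc)
  have hΔL : L.g₂ ^ 3 - 27 * L.g₃ ^ 2 ≠ 0 := by
    rw [hL2, hL3, ← hrel]
    exact hΔc
  have hΔLeq : L.g₂ ^ 3 - 27 * L.g₃ ^ 2 = ((W.Δ : ℚ) : ℂ) := by
    rw [hL2, hL3, ← hrel, hΔ']
  have hc4L : ((W.c₄ : ℚ) : ℂ) = 12 * L.g₂ := by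
    rw [hL2, ← hc4]
    ring
  -- short form
  have hsm : shortVC Wc • Wc = ⟨0, 0, 0, -L.g₂ / 4, -L.g₃ / 4⟩ := by
    rw [shortVC_smul, hL2, hL3]
  have hu : (shortVC Wc).u = 1 := rfl
  have hQc' : ∃ Q' : (⟨0, 0, 0, -L.g₂ / 4, -L.g₃ / 4⟩ : WeierstrassCurve ℂ).toAffine.Point,
      addOrderOf Q' = p ∧ veluC4 p (Point.map φ Q) = veluC4 p Q' ∧
        veluPsi p (Point.map φ Q) = veluPsi p Q' := by
    subst hWc
    obtain ⟨Q', hQ'⟩ := (vcEquiv (shortVC (W.map (algebraMap ℚ ℂ))) hsm).surjective (Point.map φ Q)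
    have hQ'ord : addOrderOf Q' = p := by
      rw [← hQc, ← hQ']
      exact (addOrderOf_injective (vcEquiv (shortVC (W.map (algebraMap ℚ ℂ))) hsm).toAddMonoidHom
        (vcEquiv (shortVC (W.map (algebraMap ℚ ℂ))) hsm).injective Q').symm
    refine ⟨Q', hQ'ord, ?_, ?_⟩
    · rw [← hQ']
      exact veluC4_vc _ hsm hu hQ'ord
    · rw [← hQ']
      exact veluPsi_vc _ hsm hu hQ'ord
  obtain ⟨Q', hQ'ord, hC4, hPsi⟩ := hQc'
  -- uniformisation
  obtain ⟨f, hfs, hfk, hfxy⟩ := hW4 L hΔL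
  obtain ⟨z₀, hz₀⟩ := hfs Q'
  have hz₀n : z₀ ∉ L.lattice := by
    intro hz
    have h0 : Q' = 0 := by
      rw [← hz₀]
      exact (hfk z₀).mpr hz
    rw [h0, addOrderOf_zero] at hQ'ord
    exact hp.one_lt.ne hQ'ord
  have hpz : (p : ℂ) * z₀ ∈ L.lattice := by
    rw [← hfk, ← nsmul_eq_mul, map_nsmul, hz₀, ← hQ'ord]
    exact addOrderOf_nsmul_eq_zero Q'
  obtain ⟨L', τ, hS, hJ, hJ'⟩ := hT1 L p hp z₀ hz₀n hpz
  have hk : ∀ k ∈ Finset.Ico 1 p, ptX (k • Q') = L.weierstrassP (k * z₀) ∧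
      ptY (k • Q') = L.derivWeierstrassP (k * z₀) / 2 := by
    intro k hk
    have hkn : (k : ℂ) * z₀ ∉ L.lattice := by
      rw [hS.1 k]
      rw [Finset.mem_Ico] at hk
      intro hd
      have := Nat.le_of_dvd (by omega) hd
      omega
    have hkQ : k • Q' = f ((k : ℂ) * z₀) := by
      rw [← nsmul_eq_mul, map_nsmul, hz₀]
    rw [hkQ]
    exact hfxy _ hkn
  -- the Vélu quantities in terms of `℘`, `℘'`
  have hsum : ∑ k ∈ Finset.Ico 1 p, tq (k • Q') =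
      ∑ k ∈ Finset.Ico 1 p, (6 * L.weierstrassP (k * z₀) ^ 2 - L.g₂ / 2) := by
    apply Finset.sum_congr rfl
    intro k hkm
    unfold tq
    rw [(hk k hkm).1]
    simp only [WeierstrassCurve.b₂, WeierstrassCurve.b₄]
    ring
  have hC4' : veluC4 p Q' = 12 * L'.g₂ := by
    rw [hG L L' p z₀ hp.pos hS]
    unfold veluC4
    rw [hsum]
    simp only [WeierstrassCurve.c₄, WeierstrassCurve.b₂, WeierstrassCurve.b₄]
    ring
  have hPsi' : veluPsi p Q' = ∏ k ∈ Finset.Ico 1 p, L.derivWeierstrassP (k * z₀) := by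
    unfold veluPsi
    apply Finset.prod_congr rfl
    intro k hkm
    unfold psi2
    rw [(hk k hkm).1, (hk k hkm).2]
    ring
  have hDD := hD L L' p z₀ (hp.odd_of_ne_two hp2) hΔL hS
  rw [← hPsi'] at hDD
  have hprod : (L'.g₂ ^ 3 - 27 * L'.g₃ ^ 2) * veluPsi p Q' ^ 4 ≠ 0 := by
    rw [hDD]
    exact pow_ne_zero p hΔL
  -- the two values
  have hb : φ (((W.c₄ : ℚ) : AlgebraicClosure ℚ) ^ 3 / ((W.Δ : ℚ) : AlgebraicClosure ℚ)) =
      Jfun τ := by
    rw [map_div₀, map_pow, map_ratCast, map_ratCast, hc4L, ← hΔLeq, div_eq_iff hΔL]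
    linear_combination hJ
  have ha : φ (veluC4 p Q ^ 3 * veluPsi p Q ^ 4 / ((W.Δ : ℚ) : AlgebraicClosure ℚ) ^ p) =
      Jabd p 0 1 τ := by
    rw [map_div₀, map_mul, map_pow, map_pow, map_pow, map_ratCast, e1, e2, hC4, hPsi, hC4',
      ← hΔLeq, ← hDD, div_eq_iff hprod]
    linear_combination veluPsi p Q' ^ 4 * hJ'
  have key : (fun i => φ (![((W.c₄ : ℚ) : AlgebraicClosure ℚ) ^ 3 / ((W.Δ : ℚ) : AlgebraicClosure ℚ),
      veluC4 p Q ^ 3 * veluPsi p Q ^ 4 / ((W.Δ : ℚ) : AlgebraicClosure ℚ) ^ p] i)) =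
      ![Jfun τ, Jabd p 0 1 τ] := by
    funext i
    fin_cases i
    · exact hb
    · exact ha
  rw [key]
  exact hT2 P hP τ

end Main

end Fermat.Agent.S15P.M1.Top89
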