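import Fermat.Agent.S15P.M1.Addition75
import Mathlib.AlgebraicGeometry.EllipticCurve.Affine.Point
import Mathlib.Analysis.Calculus.DSlope

/-!
# Uniformisation: `z ↦ (℘ z, ℘' z / 2)` is a surjective group homomorphism `ℂ → E(ℂ)` with
kernel the lattice (S15 cell, brick (M1), helper75)
-/

set_option autoImplicit false

open Filter Topology
open PeriodPair
open WeierstrassCurve Affine

namespace Fermat.Agent.S15P.M1.Wp75

/-- `℘` is surjective. -/
theorem exists_wp_eq (L : PeriodPair) (x : ℂ) : ∃ z : ℂ, z ∉ L.lattice ∧ ℘[L] z = x := by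
  by_contra hcon
  simp only [not_exists, not_and] at hcon
  set f : ℂ → ℂ := (fun z => ℘[L] z - x)⁻¹ with hf
  have hsub : ∀ y, MeromorphicAt (fun z => ℘[L] z - x) y := fun y =>
    (meromorphicAt_wp L y).sub (MeromorphicAt.const _ y)
  have hrem : ∀ y, ∃ g : ℂ → ℂ, AnalyticAt ℂ g y ∧ f =ᶠ[𝓝[≠] y] g := by
    intro y
    by_cases hy : y ∈ L.lattice
    · have h1 : meromorphicOrderAt ℘[L] y = ((-2 : ℤ) : WithTop ℤ) := by
        have h := L.order_weierstrassP y hy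
        exact_mod_cast h
      have h2 : (0 : WithTop ℤ) ≤ meromorphicOrderAt (fun _ : ℂ => -x) y :=
        (analyticAt_const).meromorphicOrderAt_nonneg
      have h3 : meromorphicOrderAt ℘[L] y < meromorphicOrderAt (fun _ : ℂ => -x) y := by
        rw [h1]
        exact lt_of_lt_of_le (by exact_mod_cast (by norm_num : (-2 : ℤ) < 0)) h2
      have h4 : meromorphicOrderAt (℘[L] + fun _ : ℂ => -x) y = ((-2 : ℤ) : WithTop ℤ) := by
        rw [meromorphicOrderAt_add_eq_left_of_lt (MeromorphicAt.const _ _) h3, h1]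
      have h5 : (fun z => ℘[L] z - x) = (℘[L] + fun _ : ℂ => -x) := by
        funext z; simp [sub_eq_add_neg]
      have h6 : meromorphicOrderAt f y = ((2 : ℤ) : WithTop ℤ) := by
        rw [hf, meromorphicOrderAt_inv, h5, h4]; rfl
      have h7 : (0 : WithTop ℤ) ≤ meromorphicOrderAt f y := by
        rw [h6]; exact_mod_cast (by norm_num : (0 : ℤ) ≤ 2)
      exact ((hsub y).inv.meromorphicOrderAt_nonneg_iff).mp h7
    · refine ⟨f, ?_, EventuallyEq.rfl⟩
      exact ((analyticAt_wp L hy).sub analyticAt_const).inv (sub_ne_zero.mpr (hcon y hy))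
  have hper : ∀ z, ∀ l ∈ L.lattice, f (z + l) = f z := by
    intro z l hl
    simp only [hf, Pi.inv_apply]
    rw [L.weierstrassP_add_coe z ⟨l, hl⟩]
  obtain ⟨c, hc⟩ := exists_const_of_removable_of_periodic L hrem hper
  have hfc : ∀ y, y ∉ L.lattice → ℘[L] y = x + c⁻¹ := by
    intro y hy
    have h1 : ContinuousAt f y :=
      (((analyticAt_wp L hy).sub analyticAt_const).inv
        (sub_ne_zero.mpr (hcon y hy))).continuousAt
    have h2 := hc y h1
    simp only [hf, Pi.inv_apply] at h2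
    rw [← h2, inv_inv]; ring
  have h8 : ℘[L] =ᶠ[𝓝[≠] (0 : ℂ)] fun _ => x + c⁻¹ := by
    filter_upwards [eventually_ne_notMem_lattice L 0] with y hy using hfc y hy
  have h9 := meromorphicOrderAt_congr h8
  rw [order_wp_zero] at h9
  have h10 : (0 : WithTop ℤ) ≤ meromorphicOrderAt (fun _ : ℂ => x + c⁻¹) 0 :=
    (analyticAt_const).meromorphicOrderAt_nonneg
  rw [← h9] at h10
  exact absurd h10 (by exact_mod_cast (by norm_num : ¬ (0 : ℤ) ≤ -2))

lemma eq_zero_of_continuousAt_of_eventually_ne {h : ℂ → ℂ} {z : ℂ} (hc : ContinuousAt h z)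
    (he : ∀ᶠ y in 𝓝[≠] z, h y = 0) : h z = 0 := by
  have h5 : Tendsto h (𝓝[≠] z) (𝓝 (h z)) := hc.tendsto.mono_left nhdsWithin_le_nhds
  have h6 : Tendsto h (𝓝[≠] z) (𝓝 0) :=
    tendsto_const_nhds.congr' (he.mono fun _ h => h.symm)
  exact tendsto_nhds_unique h5 h6

lemma dslope_mul' (f : ℂ → ℂ) (z y : ℂ) : (y - z) * dslope f z y = f y - f z := by
  simpa [smul_eq_mul] using sub_smul_dslope f z y

/-- Abstract limit argument for the `X`-coordinate of the duplication formula. -/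
lemma limit_sq {A p q : ℂ → ℂ} {z d e : ℂ} (hA : ContinuousAt A z) (hp : HasDerivAt p d z)
    (hq : HasDerivAt q e z)
    (h : ∀ᶠ y in 𝓝[≠] z, (A y + p y + p z) * (p y - p z) ^ 2 = (q y - q z) ^ 2 / 4) :
    (A z + 2 * p z) * d ^ 2 = e ^ 2 / 4 := by
  have hXc : ContinuousAt (dslope p z) z := continuousAt_dslope_same.mpr hp.differentiableAt
  have hYc : ContinuousAt (dslope q z) z := continuousAt_dslope_same.mpr hq.differentiableAt
  have hpc : ContinuousAt p z := hp.continuousAt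
  have key : (fun y => (A y + p y + p z) * dslope p z y ^ 2 - dslope q z y ^ 2 / 4) z = 0 := by
    refine eq_zero_of_continuousAt_of_eventually_ne
      (h := fun y => (A y + p y + p z) * dslope p z y ^ 2 - dslope q z y ^ 2 / 4) ?_ ?_
    · exact (((hA.add hpc).add continuousAt_const).mul (hXc.pow 2)).sub ((hYc.pow 2).div_const _)
    · filter_upwards [h, self_mem_nhdsWithin] with y hy hyz
      have hyz' : y - z ≠ 0 := sub_ne_zero.mpr hyz
      have e1 := dslope_mul' p z y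
      have e2 := dslope_mul' q z y
      generalize dslope p z y = a at e1 ⊢
      generalize dslope q z y = b at e2 ⊢
      have : (y - z) ^ 2 * ((A y + p y + p z) * a ^ 2 - b ^ 2 / 4) = 0 := by
        linear_combination hy + (A y + p y + p z) * ((y - z) * a + (p y - p z)) * e1
          - ((y - z) * b + (q y - q z)) / 4 * e2
      exact (mul_eq_zero.mp this).resolve_left (pow_ne_zero 2 hyz')
  simp only [dslope_same, hp.deriv, hq.deriv] at key
  linear_combination key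

/-- Abstract limit argument for the `Y`-coordinate of the duplication formula. -/
lemma limit_lin {A B p q : ℂ → ℂ} {z d e : ℂ} (hA : ContinuousAt A z) (hB : ContinuousAt B z)
    (hp : HasDerivAt p d z) (hq : HasDerivAt q e z)
    (h : ∀ᶠ y in 𝓝[≠] z, (p y - p z) * B y + (q y - q z) * A y + p y * q z - p z * q y = 0) :
    d * B z + e * A z + d * q z - p z * e = 0 := by
  have hXc : ContinuousAt (dslope p z) z := continuousAt_dslope_same.mpr hp.differentiableAt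
  have hYc : ContinuousAt (dslope q z) z := continuousAt_dslope_same.mpr hq.differentiableAt
  have key : (fun y => dslope p z y * B y + dslope q z y * A y + dslope p z y * q z
      - p z * dslope q z y) z = 0 := by
    refine eq_zero_of_continuousAt_of_eventually_ne
      (h := fun y => dslope p z y * B y + dslope q z y * A y + dslope p z y * q z
        - p z * dslope q z y) ?_ ?_
    · exact (((hXc.mul hB).add (hYc.mul hA)).add (hXc.mul continuousAt_const)).sub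
        (continuousAt_const.mul hYc)
    · filter_upwards [h, self_mem_nhdsWithin] with y hy hyz
      have hyz' : y - z ≠ 0 := sub_ne_zero.mpr hyz
      have e1 := dslope_mul' p z y
      have e2 := dslope_mul' q z y
      generalize dslope p z y = a at e1 ⊢
      generalize dslope q z y = b at e2 ⊢
      have : (y - z) * (a * B y + b * A y + a * q z - p z * b) = 0 := by
        linear_combination hy + (B y + q z) * e1 + (A y - p z) * e2
      exact (mul_eq_zero.mp this).resolve_left hyz'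
  simp only [dslope_same, hp.deriv, hq.deriv] at key
  linear_combination key

/-- The duplication formulas, obtained as the limit `w → z` of the addition theorem; stated for
`w` with `(℘ w, ℘' w) = (℘ z, ℘' z)`. -/
theorem wp_double (L : PeriodPair) {z w : ℂ} (hz : z ∉ L.lattice) (hw : w ∉ L.lattice)
    (hzw : z + w ∉ L.lattice) (hx : ℘[L] w = ℘[L] z) (hy : ℘'[L] w = ℘'[L] z) :
    (℘[L] (z + w) + 2 * ℘[L] z) * ℘'[L] z ^ 2 = (6 * ℘[L] z ^ 2 - L.g₂ / 2) ^ 2 / 4 ∧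
    ℘'[L] z * ℘'[L] (z + w) + (6 * ℘[L] z ^ 2 - L.g₂ / 2) * (℘[L] (z + w) - ℘[L] z)
      + ℘'[L] z ^ 2 = 0 := by
  have h1c : ContinuousAt (fun y => ℘[L] (y + w)) z := (analyticAt_wp_add L hzw).continuousAt
  have h1c' : ContinuousAt (fun y => ℘'[L] (y + w)) z := (analyticAt_dwp_add L hzw).continuousAt
  have hev : ∀ᶠ y in 𝓝[≠] z, y ∉ L.lattice ∧ y + w ∉ L.lattice := by
    filter_upwards [(eventually_notMem_lattice L hz).filter_mono nhdsWithin_le_nhds,
      (eventually_add_notMem_lattice L hzw).filter_mono nhdsWithin_le_nhds] with y h2 h3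
    exact ⟨h2, h3⟩
  constructor
  · refine limit_sq (A := fun y => ℘[L] (y + w)) h1c (hasDerivAt_wp L hz) (hasDerivAt_dwp L hz) ?_
    filter_upwards [hev] with y ⟨hy1, hy2⟩
    have hadd := wp_add_mul L hy1 hw hy2
    rw [hx, hy] at hadd
    exact hadd
  · have := limit_lin (A := fun y => ℘[L] (y + w)) (B := fun y => ℘'[L] (y + w)) h1c h1c'
      (hasDerivAt_wp L hz) (hasDerivAt_dwp L hz) (by
        filter_upwards [hev] with y ⟨hy1, hy2⟩
        have hcol := collinear L hw hy1 hy2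
        rw [hx, hy] at hcol
        exact hcol)
    linear_combination this

/-! ### The curve and the uniformising homomorphism -/

/-- The Weierstrass curve `Y² = X³ - g₂/4 X - g₃/4`. -/
noncomputable def curve (g₂ g₃ : ℂ) : WeierstrassCurve ℂ := ⟨0, 0, 0, -g₂ / 4, -g₃ / 4⟩

@[simp] lemma curve_a₁ (g₂ g₃ : ℂ) : (curve g₂ g₃).a₁ = 0 := rfl
@[simp] lemma curve_a₂ (g₂ g₃ : ℂ) : (curve g₂ g₃).a₂ = 0 := rfl
@[simp] lemma curve_a₃ (g₂ g₃ : ℂ) : (curve g₂ g₃).a₃ = 0 := rfl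
@[simp] lemma curve_a₄ (g₂ g₃ : ℂ) : (curve g₂ g₃).a₄ = -g₂ / 4 := rfl
@[simp] lemma curve_a₆ (g₂ g₃ : ℂ) : (curve g₂ g₃).a₆ = -g₃ / 4 := rfl

lemma curve_equation_iff (g₂ g₃ x y : ℂ) :
    (curve g₂ g₃).toAffine.Equation x y ↔ y ^ 2 = x ^ 3 - g₂ / 4 * x - g₃ / 4 := by
  rw [Affine.equation_iff]
  simp only [curve_a₁, curve_a₂, curve_a₃, curve_a₄, curve_a₆]
  constructor <;> intro h <;> linear_combination h

lemma curve_nonsingular_iff (g₂ g₃ x y : ℂ) :
    (curve g₂ g₃).toAffine.Nonsingular x y ↔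
      y ^ 2 = x ^ 3 - g₂ / 4 * x - g₃ / 4 ∧ (3 * x ^ 2 - g₂ / 4 ≠ 0 ∨ y ≠ 0) := by
  rw [Affine.nonsingular_iff', curve_equation_iff]
  simp only [curve_a₁, curve_a₂, curve_a₃, curve_a₄]
  refine and_congr_right fun _ => or_congr ?_ ?_
  · constructor <;> intro h h' <;> apply h <;> linear_combination -h'
  · constructor <;> intro h h' <;> apply h
    · rw [h']; ring
    · linear_combination h' / 2

lemma curve_nonsingular {g₂ g₃ : ℂ} (hΔ : g₂ ^ 3 - 27 * g₃ ^ 2 ≠ 0) {x y : ℂ}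
    (h : y ^ 2 = x ^ 3 - g₂ / 4 * x - g₃ / 4) : (curve g₂ g₃).toAffine.Nonsingular x y := by
  rw [curve_nonsingular_iff]
  refine ⟨h, ?_⟩
  by_contra hcon
  simp only [not_or, not_not] at hcon
  obtain ⟨h1, h2⟩ := hcon
  apply hΔ
  have e2 : g₂ = 12 * x ^ 2 := by linear_combination -4 * h1
  have e3 : g₃ = -8 * x ^ 3 := by
    rw [h2] at h
    linear_combination 4 * h - x * e2
  rw [e2, e3]; ring

lemma nonsingular_wp (L : PeriodPair) (hΔ : L.g₂ ^ 3 - 27 * L.g₃ ^ 2 ≠ 0) {z : ℂ}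
    (hz : z ∉ L.lattice) : (curve L.g₂ L.g₃).toAffine.Nonsingular (℘[L] z) (℘'[L] z / 2) :=
  curve_nonsingular hΔ (by linear_combination (wp_sq L hz) / 4)

open Classical in
/-- The uniformisation map `z ↦ (℘ z, ℘' z / 2)`, with the lattice sent to `0`. -/
noncomputable def toPointFun (L : PeriodPair) (hΔ : L.g₂ ^ 3 - 27 * L.g₃ ^ 2 ≠ 0) (z : ℂ) :
    (curve L.g₂ L.g₃).toAffine.Point :=
  if hz : z ∈ L.lattice then 0 else Point.some _ _ (nonsingular_wp L hΔ hz)

lemma toPointFun_of_mem (L : PeriodPair) (hΔ : L.g₂ ^ 3 - 27 * L.g₃ ^ 2 ≠ 0) {z : ℂ}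
    (hz : z ∈ L.lattice) : toPointFun L hΔ z = 0 := by
  simp [toPointFun, hz]

lemma toPointFun_of_notMem (L : PeriodPair) (hΔ : L.g₂ ^ 3 - 27 * L.g₃ ^ 2 ≠ 0) {z : ℂ}
    (hz : z ∉ L.lattice) :
    toPointFun L hΔ z = Point.some _ _ (nonsingular_wp L hΔ hz) := by
  simp [toPointFun, hz]

lemma toPointFun_eq_zero_iff (L : PeriodPair) (hΔ : L.g₂ ^ 3 - 27 * L.g₃ ^ 2 ≠ 0) {z : ℂ} :
    toPointFun L hΔ z = 0 ↔ z ∈ L.lattice := by
  constructor
  · intro h
    by_contra hz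
    rw [toPointFun_of_notMem L hΔ hz] at h
    exact Point.some_ne_zero _ h
  · exact toPointFun_of_mem L hΔ

lemma toPointFun_congr (L : PeriodPair) (hΔ : L.g₂ ^ 3 - 27 * L.g₃ ^ 2 ≠ 0) {z z' : ℂ}
    (h1 : z ∈ L.lattice ↔ z' ∈ L.lattice) (h2 : ℘[L] z = ℘[L] z') (h3 : ℘'[L] z = ℘'[L] z') :
    toPointFun L hΔ z = toPointFun L hΔ z' := by
  by_cases hz : z ∈ L.lattice
  · rw [toPointFun_of_mem L hΔ hz, toPointFun_of_mem L hΔ (h1.mp hz)]
  · rw [toPointFun_of_notMem L hΔ hz, toPointFun_of_notMem L hΔ (fun h => hz (h1.mpr h))]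
    simp only [Point.some.injEq]
    exact ⟨h2, by rw [h3]⟩

/-- The chord law on `curve g₂ g₃` in coordinates. -/
lemma curve_add_of_X_ne {g₂ g₃ x₁ y₁ x₂ y₂ x₃ y₃ : ℂ}
    (h₁ : (curve g₂ g₃).toAffine.Nonsingular x₁ y₁) (h₂ : (curve g₂ g₃).toAffine.Nonsingular x₂ y₂)
    (h₃ : (curve g₂ g₃).toAffine.Nonsingular x₃ y₃) (hx : x₁ ≠ x₂)
    (hX : (x₃ + x₁ + x₂) * (x₁ - x₂) ^ 2 = (y₁ - y₂) ^ 2)
    (hY : (x₁ - x₂) * y₃ + (y₁ - y₂) * x₃ + x₁ * y₂ - x₂ * y₁ = 0) :
    Point.some x₃ y₃ h₃ = Point.some x₁ y₁ h₁ + Point.some x₂ y₂ h₂ := by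
  rw [Point.add_of_X_ne hx]
  simp only [Point.some.injEq]
  rw [Affine.slope_of_X_ne hx]
  simp only [Affine.addX, Affine.addY, Affine.negAddY, Affine.negY, curve_a₁, curve_a₂, curve_a₃]
  have hne : x₁ - x₂ ≠ 0 := sub_ne_zero.mpr hx
  have e1 : x₃ = ((y₁ - y₂) / (x₁ - x₂)) ^ 2 - x₁ - x₂ := by
    field_simp
    linear_combination hX
  refine ⟨by rw [e1]; ring, ?_⟩
  have e2 : y₃ = -((y₁ - y₂) / (x₁ - x₂) * (x₃ - x₁) + y₁) := by
    field_simp
    linear_combination hY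
  rw [e2, e1]; ring

/-- The tangent law on `curve g₂ g₃` in coordinates. -/
lemma curve_add_of_X_eq {g₂ g₃ x₁ y₁ x₂ y₂ x₃ y₃ : ℂ}
    (h₁ : (curve g₂ g₃).toAffine.Nonsingular x₁ y₁) (h₂ : (curve g₂ g₃).toAffine.Nonsingular x₂ y₂)
    (h₃ : (curve g₂ g₃).toAffine.Nonsingular x₃ y₃) (hx : x₁ = x₂) (hy : y₁ = y₂) (hy0 : y₁ ≠ 0)
    (hX : (x₃ + 2 * x₁) * (2 * y₁) ^ 2 = (3 * x₁ ^ 2 - g₂ / 4) ^ 2)
    (hY : 2 * y₁ * y₃ + (3 * x₁ ^ 2 - g₂ / 4) * (x₃ - x₁) + 2 * y₁ ^ 2 = 0) :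
    Point.some x₃ y₃ h₃ = Point.some x₁ y₁ h₁ + Point.some x₂ y₂ h₂ := by
  subst hx hy
  have hyne : y₁ ≠ (curve g₂ g₃).toAffine.negY x₁ y₁ := by
    simp only [Affine.negY, curve_a₁, curve_a₃]
    intro h
    apply hy0
    linear_combination h / 2
  rw [Point.add_of_Y_ne hyne]
  simp only [Point.some.injEq]
  have h2y : 2 * y₁ ≠ 0 := mul_ne_zero two_ne_zero hy0
  set ℓ : ℂ := (3 * x₁ ^ 2 - g₂ / 4) / (2 * y₁) with hℓ
  have hℓ' : ℓ * (2 * y₁) = 3 * x₁ ^ 2 - g₂ / 4 := div_mul_cancel₀ _ h2y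
  have hs : (curve g₂ g₃).toAffine.slope x₁ x₁ y₁ y₁ = ℓ := by
    rw [Affine.slope_of_Y_ne rfl hyne]
    simp only [Affine.negY, curve_a₁, curve_a₂, curve_a₃, curve_a₄]
    rw [hℓ]
    congr 1 <;> ring
  rw [hs]
  simp only [Affine.addX, Affine.addY, Affine.negAddY, Affine.negY, curve_a₁, curve_a₂, curve_a₃]
  have e1 : x₃ = ℓ ^ 2 - 2 * x₁ := by
    have : (x₃ - (ℓ ^ 2 - 2 * x₁)) * (2 * y₁) ^ 2 = 0 := by
      rw [← hℓ'] at hX; linear_combination hX
    exact sub_eq_zero.mp ((mul_eq_zero.mp this).resolve_right (pow_ne_zero 2 h2y))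
  have e2 : y₃ = -(ℓ * (x₃ - x₁) + y₁) := by
    have : (y₃ + (ℓ * (x₃ - x₁) + y₁)) * (2 * y₁) = 0 := by
      rw [← hℓ'] at hY; linear_combination hY
    exact eq_neg_of_add_eq_zero_left ((mul_eq_zero.mp this).resolve_right h2y)
  constructor
  · rw [e1]; ring
  · rw [e2, e1]; ring

/-- Additivity of the uniformisation map. -/
theorem toPointFun_add (L : PeriodPair) (hΔ : L.g₂ ^ 3 - 27 * L.g₃ ^ 2 ≠ 0) (z w : ℂ) :
    toPointFun L hΔ (z + w) = toPointFun L hΔ z + toPointFun L hΔ w := by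
  by_cases hz : z ∈ L.lattice
  · rw [toPointFun_of_mem L hΔ hz, zero_add]
    refine toPointFun_congr L hΔ (L.lattice.add_mem_iff_right hz) ?_ ?_
    · rw [add_comm]; exact L.weierstrassP_add_coe w ⟨z, hz⟩
    · rw [add_comm]; exact L.derivWeierstrassP_add_coe w ⟨z, hz⟩
  by_cases hw : w ∈ L.lattice
  · rw [toPointFun_of_mem L hΔ hw, add_zero]
    refine toPointFun_congr L hΔ (L.lattice.add_mem_iff_left hw) ?_ ?_
    · exact L.weierstrassP_add_coe z ⟨w, hw⟩
    · exact L.derivWeierstrassP_add_coe z ⟨w, hw⟩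
  by_cases hzw : z + w ∈ L.lattice
  · rw [toPointFun_of_mem L hΔ hzw, toPointFun_of_notMem L hΔ hz, toPointFun_of_notMem L hΔ hw]
    symm
    have e : z = -w + (z + w) := by ring
    have h1 : ℘[L] z = ℘[L] w := by
      rw [e, L.weierstrassP_add_coe (-w) ⟨z + w, hzw⟩, L.weierstrassP_neg]
    have h2 : ℘'[L] z = -℘'[L] w := by
      rw [e, L.derivWeierstrassP_add_coe (-w) ⟨z + w, hzw⟩, L.derivWeierstrassP_neg]
    apply Point.add_of_Y_eq h1
    simp only [Affine.negY, curve_a₁, curve_a₃]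
    rw [h2]; ring
  rw [toPointFun_of_notMem L hΔ hz, toPointFun_of_notMem L hΔ hw, toPointFun_of_notMem L hΔ hzw]
  have hadd := wp_add_mul L hz hw hzw
  have hcol := collinear L hw hz hzw
  by_cases hx : ℘[L] z = ℘[L] w
  · -- tangent case
    have hy : ℘'[L] z = ℘'[L] w := by
      rw [hx] at hadd
      have : (℘'[L] z - ℘'[L] w) ^ 2 = 0 := by linear_combination -4 * hadd
      exact sub_eq_zero.mp (pow_eq_zero_iff two_ne_zero |>.mp this)
    obtain ⟨hd1, hd2⟩ := wp_double L hz hw hzw hx.symm hy.symm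
    have hy0 : ℘'[L] z ≠ 0 := by
      intro h0
      rw [h0] at hd1
      have h6 : 6 * ℘[L] z ^ 2 - L.g₂ / 2 = 0 := by
        have : (6 * ℘[L] z ^ 2 - L.g₂ / 2) ^ 2 = 0 := by linear_combination -4 * hd1
        exact pow_eq_zero_iff two_ne_zero |>.mp this
      have hsq := wp_sq L hz
      rw [h0] at hsq
      apply hΔ
      have e2 : L.g₂ = 12 * ℘[L] z ^ 2 := by linear_combination -2 * h6
      have e3 : L.g₃ = -8 * ℘[L] z ^ 3 := by linear_combination hsq - ℘[L] z * e2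
      rw [e2, e3]; ring
    refine curve_add_of_X_eq _ _ _ hx (by rw [hy]) (div_ne_zero hy0 two_ne_zero) ?_ ?_
    · linear_combination hd1
    · linear_combination hd2 / 2
  · refine curve_add_of_X_ne _ _ _ hx ?_ ?_
    · linear_combination hadd
    · linear_combination hcol / 2

/-- **Uniformisation**: the group homomorphism `ℂ → E(ℂ)`, `z ↦ (℘ z, ℘' z / 2)`. -/
noncomputable def toPoint (L : PeriodPair) (hΔ : L.g₂ ^ 3 - 27 * L.g₃ ^ 2 ≠ 0) :
    ℂ →+ (curve L.g₂ L.g₃).toAffine.Point :=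
  AddMonoidHom.mk' (toPointFun L hΔ) (toPointFun_add L hΔ)

theorem toPoint_of_notMem (L : PeriodPair) (hΔ : L.g₂ ^ 3 - 27 * L.g₃ ^ 2 ≠ 0) {z : ℂ}
    (hz : z ∉ L.lattice) :
    toPoint L hΔ z = Point.some (℘[L] z) (℘'[L] z / 2) (nonsingular_wp L hΔ hz) :=
  toPointFun_of_notMem L hΔ hz

theorem toPoint_eq_zero_iff (L : PeriodPair) (hΔ : L.g₂ ^ 3 - 27 * L.g₃ ^ 2 ≠ 0) {z : ℂ} :
    toPoint L hΔ z = 0 ↔ z ∈ L.lattice :=
  toPointFun_eq_zero_iff L hΔ

theorem toPoint_surjective (L : PeriodPair) (hΔ : L.g₂ ^ 3 - 27 * L.g₃ ^ 2 ≠ 0) :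
    Function.Surjective (toPoint L hΔ) := by
  rintro (_ | ⟨x, y, h⟩)
  · exact ⟨0, map_zero _⟩
  · obtain ⟨z, hz, hzx⟩ := exists_wp_eq L x
    have heq : y ^ 2 = x ^ 3 - L.g₂ / 4 * x - L.g₃ / 4 := ((curve_nonsingular_iff _ _ _ _).mp h).1
    have hsq : (℘'[L] z / 2) ^ 2 = y ^ 2 := by
      rw [heq, ← hzx]; linear_combination (wp_sq L hz) / 4
    rcases sq_eq_sq_iff_eq_or_eq_neg.mp hsq with h1 | h1
    · refine ⟨z, ?_⟩
      rw [toPoint_of_notMem L hΔ hz]
      simp only [Point.some.injEq]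
      exact ⟨hzx, h1⟩
    · refine ⟨-z, ?_⟩
      have hz' : -z ∉ L.lattice := neg_notMem_lattice L hz
      rw [toPoint_of_notMem L hΔ hz']
      simp only [Point.some.injEq]
      refine ⟨by rw [L.weierstrassP_neg, hzx], ?_⟩
      rw [L.derivWeierstrassP_neg]
      linear_combination -h1

/-- `℘ z = ℘ w` iff `z ≡ ± w` modulo the lattice. -/
theorem wp_eq_iff (L : PeriodPair) (hΔ : L.g₂ ^ 3 - 27 * L.g₃ ^ 2 ≠ 0) {z w : ℂ}
    (hz : z ∉ L.lattice) (hw : w ∉ L.lattice) :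
    ℘[L] z = ℘[L] w ↔ z - w ∈ L.lattice ∨ z + w ∈ L.lattice := by
  constructor
  · intro h
    have hsq : (℘'[L] z) ^ 2 = (℘'[L] w) ^ 2 := by rw [wp_sq L hz, wp_sq L hw, h]
    rcases sq_eq_sq_iff_eq_or_eq_neg.mp hsq with h1 | h1
    · left
      rw [← toPoint_eq_zero_iff L hΔ, map_sub, sub_eq_zero, toPoint_of_notMem L hΔ hz,
        toPoint_of_notMem L hΔ hw]
      simp only [Point.some.injEq]
      exact ⟨h, by rw [h1]⟩
    · right
      have hw' : -w ∉ L.lattice := neg_notMem_lattice L hw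
      have : z + w = z - -w := by ring
      rw [this, ← toPoint_eq_zero_iff L hΔ, map_sub, sub_eq_zero, toPoint_of_notMem L hΔ hz,
        toPoint_of_notMem L hΔ hw']
      simp only [Point.some.injEq]
      refine ⟨by rw [L.weierstrassP_neg, h], ?_⟩
      rw [L.derivWeierstrassP_neg, h1]
  · rintro (h | h)
    · have : z = w + (z - w) := by ring
      rw [this, L.weierstrassP_add_coe w ⟨z - w, h⟩]
    · have : z = -w + (z + w) := by ring
      rw [this, L.weierstrassP_add_coe (-w) ⟨z + w, h⟩, L.weierstrassP_neg]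

/-- `℘' z = 0` iff `z` is a half-period. -/
theorem dwp_eq_zero_iff (L : PeriodPair) (hΔ : L.g₂ ^ 3 - 27 * L.g₃ ^ 2 ≠ 0) {z : ℂ}
    (hz : z ∉ L.lattice) : ℘'[L] z = 0 ↔ z + z ∈ L.lattice := by
  constructor
  · intro h
    have hz' : -z ∉ L.lattice := neg_notMem_lattice L hz
    have : z + z = z - -z := by ring
    rw [this, ← toPoint_eq_zero_iff L hΔ, map_sub, sub_eq_zero, toPoint_of_notMem L hΔ hz,
      toPoint_of_notMem L hΔ hz']
    simp only [Point.some.injEq]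
    refine ⟨by rw [L.weierstrassP_neg], ?_⟩
    rw [L.derivWeierstrassP_neg, h]; simp
  · intro h
    have e : z = -z + (z + z) := by ring
    have h1 : ℘'[L] z = -℘'[L] z := by
      conv_lhs => rw [e, L.derivWeierstrassP_add_coe (-z) ⟨z + z, h⟩, L.derivWeierstrassP_neg]
    linear_combination h1 / 2

end Fermat.Agent.S15P.M1.Wp75
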