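import Fermat.Agent.S15P.M1.Top89
import Fermat.Agent.S15P.M1.Isog4

/-!
# (M1)/(C4): the two seam Props `Top89.HG`, `Top89.HD` are theorems

`Isog4.g₂_super` and `Isog4.disc_super` in the literal shape of the (M1) seam of record
(`Top89.velu_pair_modular`).
-/

set_option autoImplicit false

namespace Fermat.Agent.S15P.M1.Seam4

open Fermat.Agent.S15P.M1

theorem isSuper_of_super {L L' : PeriodPair} {p : ℕ} {z₀ : ℂ} (h : Top89.Super L L' p z₀) :
    Isog4.IsSuper L L' p z₀ :=
  ⟨h.1, h.2⟩

/-- (C4), regrouping half, as the seam Prop. -/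
theorem hG : Top89.HG := fun L L' p z₀ hp h =>
  Isog4.g₂_super L L' p z₀ hp (isSuper_of_super h)

/-- (C4), product half, as the seam Prop (the hypothesis `Δ(Λ) ≠ 0` is not used). -/
theorem hD : Top89.HD := fun L L' p z₀ hp _ h =>
  Isog4.disc_super L L' p z₀ hp (isSuper_of_super h)

end Fermat.Agent.S15P.M1.Seam4
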