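/-
S15 cell, (M1): the two (C5) hypotheses of the top seam `Top89.velu_pair_modular` (helper89) are
theorems — `hT1 : Top89.HT1` and `hT2 p : Top89.HT2 p` — from `Tau36.exists_tau_super` and
`Tau36.eval_of_formal` (helper36).
-/
import Mathlib
import Fermat.Agent.S15P.M1.Tau36
import Fermat.Agent.S15P.M1.Top89

set_option autoImplicit false

namespace Fermat.Agent.S15P.M1.TauSeam36

/-- (C5), first half, in the literal shape consumed by `Top89.velu_pair_modular`. -/
theorem hT1 : Top89.HT1 := by
  intro L p hp z₀ hz₀ hpz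
  obtain ⟨L', τ, h1, h2, h3, h4⟩ := Tau36.exists_tau_super L p hp z₀ hz₀ hpz
  exact ⟨L', τ, ⟨h1, h2⟩, h3, h4⟩

/-- (C5), second half, in the literal shape consumed by `Top89.velu_pair_modular`. -/
theorem hT2 (p : ℕ) [NeZero p] : Top89.HT2 p :=
  fun P hP τ => Tau36.eval_of_formal P hP τ

end Fermat.Agent.S15P.M1.TauSeam36
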