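/-
S15 cell, (M1) seam wrapper for brick (C1) (helper21): the uniformisation theorem
`Unif21.exists_periodPair` in the shape of the seam Prop `Top89.HC1` of the (M1) top seam
`Top89.velu_pair_modular`.
-/
import Mathlib
import Fermat.Agent.S15P.M1.Unif21
import Fermat.Agent.S15P.M1.Top89

namespace Fermat.Agent.S15P.M1.UnifSeam21

/-- Seam (C1): every `(g₂, g₃)` with `g₂³ - 27 g₃² ≠ 0` is the pair of invariants of a lattice. -/
theorem hC1 : Fermat.Agent.S15P.M1.Top89.HC1 :=
  fun g₂ g₃ h => Fermat.Agent.S15P.M1.Unif21.exists_periodPair g₂ g₃ h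

end Fermat.Agent.S15P.M1.UnifSeam21
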