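import Fermat.Agent.S15P.M1.Unif75
import Fermat.Agent.S15P.M1.Top89

/-!
# The seam `Top89.HW4` (S15 cell, brick (M1), helper75)

`z ↦ (℘ z, ℘' z / 2)` is a surjective homomorphism `ℂ → E(ℂ)` with kernel the lattice:
the term of `Top89.HW4` from `Wp75.toPoint`.
-/

set_option autoImplicit false

namespace Fermat.Agent.S15P.M1.UnifSeam75

open Fermat.Agent.S15P.M1

theorem hW4 : Top89.HW4 := by
  intro L hΔ
  refine ⟨Wp75.toPoint L hΔ, Wp75.toPoint_surjective L hΔ,
    fun z => Wp75.toPoint_eq_zero_iff L hΔ, fun z hz => ?_⟩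
  have h := Wp75.toPoint_of_notMem L hΔ hz
  constructor
  · exact congrArg _ h
  · exact congrArg _ h

end Fermat.Agent.S15P.M1.UnifSeam75
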