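/-
S15 cell, (M1): the instantiation of the top seam `Top89.velu_pair_modular` (helper89) at the six
analytic bricks on main — `UnifSeam21.hC1` (helper21), `UnifSeam75.hW4` (helper75), `Seam4.hG`,
`Seam4.hD` (helper4), `TauSeam36.hT1`, `TauSeam36.hT2` (helper36).
Result: `velu_pair_modular` with no hypothesis left — for a Weierstrass curve `W` over `ℚ` and a
point `Q` of odd prime order `p` over `ℚ̄`, the pair `(j(W), j(W/⟨Q⟩))` (Vélu) satisfies every
relation over `ℚ` between `j(q)` and `j(q^p)`.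
-/
import Mathlib
import Fermat.Agent.S15P.M1.Top89
import Fermat.Agent.S15P.M1.UnifSeam21
import Fermat.Agent.S15P.M1.UnifSeam75
import Fermat.Agent.S15P.M1.Seam4
import Fermat.Agent.S15P.M1.TauSeam36

set_option autoImplicit false

namespace Fermat.Agent.S15P.M1.Inst36

open WeierstrassCurve WeierstrassCurve.Affine
open Fermat.Agent.S15P.M2

/-- **(M1)**, with no hypothesis left. -/
theorem velu_pair_modular {p : ℕ} [NeZero p] (hp : p.Prime) (hp2 : p ≠ 2)
    (W : WeierstrassCurve ℚ) (hΔ : W.Δ ≠ 0) (Q : (W⁄(AlgebraicClosure ℚ)).Point)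
    (hQ : addOrderOf Q = p) (P : MvPolynomial (Fin 2) ℚ)
    (hP : MvPolynomial.aeval ![ModularCurve.jq, ModularCurve.jqN p] P = (0 : LaurentSeries ℚ)) :
    MvPolynomial.aeval ![((W.c₄ : ℚ) : AlgebraicClosure ℚ) ^ 3 / ((W.Δ : ℚ) : AlgebraicClosure ℚ),
      veluC4 p Q ^ 3 * veluPsi p Q ^ 4 / ((W.Δ : ℚ) : AlgebraicClosure ℚ) ^ p] P = 0 :=
  Top89.velu_pair_modular UnifSeam21.hC1 UnifSeam75.hW4 TauSeam36.hT1 Seam4.hG Seam4.hD hp hp2
    (TauSeam36.hT2 p) W hΔ Q hQ P hP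

end Fermat.Agent.S15P.M1.Inst36
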