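import Fermat.Agent.S15P.M1.Collinear75

/-!
# `℘''` and the addition theorem for `℘` (S15 cell, brick (M1), helper75)
-/

set_option autoImplicit false

open Filter Topology
open PeriodPair

namespace Fermat.Agent.S15P.M1.Wp75

lemma meromorphicAt_wp (L : PeriodPair) (x : ℂ) : MeromorphicAt ℘[L] x :=
  L.meromorphic_weierstrassP x

lemma meromorphicAt_dwp (L : PeriodPair) (x : ℂ) : MeromorphicAt ℘'[L] x :=
  L.meromorphic_derivWeierstrassP x

lemma meromorphicAt_wp_add (L : PeriodPair) (w x : ℂ) :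
    MeromorphicAt (fun z => ℘[L] (z + w)) x :=
  (meromorphicAt_wp L (x + w)).comp_analyticAt (g := fun z : ℂ => z + w) (by fun_prop)

lemma order_wp_zero (L : PeriodPair) : meromorphicOrderAt ℘[L] 0 = ((-2 : ℤ) : WithTop ℤ) := by
  have h := L.order_weierstrassP 0 (zero_mem _)
  exact_mod_cast h

lemma order_dwp_zero (L : PeriodPair) : meromorphicOrderAt ℘'[L] 0 = ((-3 : ℤ) : WithTop ℤ) := by
  have := meromorphicOrderAt_deriv_eq_sub_one (f := ℘[L]) (x := 0) (n := -2) (by norm_num)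
    (order_wp_zero L)
  rw [L.deriv_weierstrassP] at this
  exact_mod_cast this

lemma hasDerivAt_wp (L : PeriodPair) {z : ℂ} (hz : z ∉ L.lattice) :
    HasDerivAt ℘[L] (℘'[L] z) z := by
  have := (analyticAt_wp L hz).differentiableAt.hasDerivAt
  rwa [L.deriv_weierstrassP] at this

lemma eventually_notMem_lattice (L : PeriodPair) {z : ℂ} (hz : z ∉ L.lattice) :
    ∀ᶠ y in 𝓝 z, y ∉ L.lattice :=
  L.isClosed_lattice.isOpen_compl.mem_nhds hz

lemma eventually_ne_notMem_lattice (L : PeriodPair) (l : L.lattice) :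
    ∀ᶠ y in 𝓝[≠] (l : ℂ), y ∉ L.lattice := by
  have := L.compl_lattice_sdiff_singleton_mem_nhds (l : ℂ)
  filter_upwards [mem_nhdsWithin_of_mem_nhds this, self_mem_nhdsWithin] with y hy hy'
  intro h
  exact hy ⟨h, hy'⟩

/-- `℘'' = 6 ℘² - g₂ / 2`. -/
theorem deriv_dwp (L : PeriodPair) {z : ℂ} (hz : z ∉ L.lattice) :
    deriv ℘'[L] z = 6 * ℘[L] z ^ 2 - L.g₂ / 2 := by
  set k : ℂ → ℂ := fun z => 2 * deriv ℘'[L] z - 12 * ℘[L] z ^ 2 + L.g₂ with hk
  have hkm : ∀ x, MeromorphicAt k x := fun x => by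
    have h1 := (meromorphicAt_dwp L x).deriv
    have h2 := meromorphicAt_wp L x
    exact (((MeromorphicAt.const 2 x).mul h1).sub ((MeromorphicAt.const 12 x).mul (h2.pow 2))).add
      (MeromorphicAt.const _ x)
  have hmul : ∀ y, y ∉ L.lattice → ℘'[L] y * k y = 0 := by
    intro y hy
    have hy1 : HasDerivAt ℘[L] (℘'[L] y) y := hasDerivAt_wp L hy
    have hy2 : HasDerivAt ℘'[L] (deriv ℘'[L] y) y :=
      (analyticAt_dwp L hy).differentiableAt.hasDerivAt
    have hL : HasDerivAt (fun y => ℘'[L] y ^ 2) (2 * ℘'[L] y * deriv ℘'[L] y) y := by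
      simpa using hy2.fun_pow 2
    have hR : HasDerivAt (fun y => 4 * ℘[L] y ^ 3 - L.g₂ * ℘[L] y - L.g₃)
        (4 * (3 * ℘[L] y ^ 2 * ℘'[L] y) - L.g₂ * ℘'[L] y) y := by
      simpa using (((hy1.fun_pow 3).const_mul 4).sub (hy1.const_mul L.g₂)).sub_const L.g₃
    have heq : (fun y => ℘'[L] y ^ 2) =ᶠ[𝓝 y]
        fun y => 4 * ℘[L] y ^ 3 - L.g₂ * ℘[L] y - L.g₃ := by
      filter_upwards [eventually_notMem_lattice L hy] with y' hy'
      exact L.derivWeierstrassP_sq y' hy'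
    have := hL.unique (hR.congr_of_eventuallyEq heq)
    simp only [hk]; linear_combination this
  have h0 : ∀ᶠ y in 𝓝[≠] (0 : ℂ), ℘'[L] y * k y = 0 := by
    filter_upwards [eventually_ne_notMem_lattice L 0] with y hy using hmul y hy
  have hcont : ContinuousAt k z := by
    have h1 : ContinuousAt (deriv ℘'[L]) z := (analyticAt_dwp L hz).deriv.continuousAt
    have h2 : ContinuousAt ℘[L] z := (analyticAt_wp L hz).continuousAt
    exact ((continuousAt_const.mul h1).sub (continuousAt_const.mul (h2.pow 2))).add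
      continuousAt_const
  have := eq_zero_of_mul_eventually_eq_zero (meromorphicAt_dwp L) hkm 0
    (by rw [order_dwp_zero]; exact WithTop.coe_ne_top) h0 z hcont
  simp only [hk] at this; linear_combination this / 2

lemma hasDerivAt_dwp (L : PeriodPair) {z : ℂ} (hz : z ∉ L.lattice) :
    HasDerivAt ℘'[L] (6 * ℘[L] z ^ 2 - L.g₂ / 2) z := by
  have := (analyticAt_dwp L hz).differentiableAt.hasDerivAt
  rwa [deriv_dwp L hz] at this

/-- The purely algebraic step from collinearity to the addition formula. -/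
lemma addition_alg {g₂ g₃ x₁ y₁ x₂ y₂ x₃ y₃ : ℂ}
    (h₁ : y₁ ^ 2 = 4 * x₁ ^ 3 - g₂ * x₁ - g₃) (h₂ : y₂ ^ 2 = 4 * x₂ ^ 3 - g₂ * x₂ - g₃)
    (h₃ : y₃ ^ 2 = 4 * x₃ ^ 3 - g₂ * x₃ - g₃)
    (hcol : (x₁ - x₂) * y₃ + (y₁ - y₂) * x₃ + x₁ * y₂ - x₂ * y₁ = 0) :
    ((x₃ - x₁) * (x₃ - x₂)) *
      ((x₃ + x₁ + x₂) * (x₁ - x₂) ^ 2 - (y₁ - y₂) ^ 2 / 4) = 0 := by
  linear_combination (-(x₁ - x₂) ^ 2 / 4) * h₃
    + ((2 * (x₁ - x₂) * y₃ - ((x₁ - x₂) * y₃ + (y₁ - y₂) * x₃ + x₁ * y₂ - x₂ * y₁)) / 4) * hcol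
    - ((x₁ - x₂) * (x₃ - x₁) / 4) * h₂ + ((x₁ - x₂) * (x₃ - x₂) / 4) * h₁

lemma wp_sq (L : PeriodPair) {z : ℂ} (hz : z ∉ L.lattice) :
    ℘'[L] z ^ 2 = 4 * ℘[L] z ^ 3 - L.g₂ * ℘[L] z - L.g₃ :=
  L.derivWeierstrassP_sq z hz

lemma eventually_add_notMem_lattice (L : PeriodPair) {z w : ℂ} (hzw : z + w ∉ L.lattice) :
    ∀ᶠ y in 𝓝 z, y + w ∉ L.lattice := by
  have h1 : ContinuousAt (fun y : ℂ => y + w) z := by fun_prop
  exact h1.eventually (eventually_notMem_lattice L hzw)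

/-- **Addition theorem** for `℘`, in denominator-free form. -/
theorem wp_add_mul (L : PeriodPair) {z w : ℂ} (hz : z ∉ L.lattice) (hw : w ∉ L.lattice)
    (hzw : z + w ∉ L.lattice) :
    (℘[L] (z + w) + ℘[L] z + ℘[L] w) * (℘[L] z - ℘[L] w) ^ 2 = (℘'[L] z - ℘'[L] w) ^ 2 / 4 := by
  set T : ℂ → ℂ := fun z => (℘[L] (z + w) + ℘[L] z + ℘[L] w) * (℘[L] z - ℘[L] w) ^ 2
    - (℘'[L] z - ℘'[L] w) ^ 2 / 4 with hT
  set f₁ : ℂ → ℂ := fun z => ℘[L] (z + w) with hf₁
  set K₁ : ℂ → ℂ := f₁ + (-℘[L]) with hK₁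
  set K₂ : ℂ → ℂ := f₁ + (fun _ => -℘[L] w) with hK₂
  have hf₁m : ∀ x, MeromorphicAt f₁ x := fun x => meromorphicAt_wp_add L w x
  have hK₁m : ∀ x, MeromorphicAt K₁ x := fun x => (hf₁m x).add (meromorphicAt_wp L x).neg
  have hK₂m : ∀ x, MeromorphicAt K₂ x := fun x => (hf₁m x).add (MeromorphicAt.const _ x)
  have hTm : ∀ x, MeromorphicAt T x := fun x => by
    have h1 := hf₁m x
    have h2 := meromorphicAt_wp L x
    have h3 := meromorphicAt_dwp L x
    exact (((h1.add h2).add (MeromorphicAt.const _ x)).mul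
      ((h2.sub (MeromorphicAt.const _ x)).pow 2)).sub
      (((h3.sub (MeromorphicAt.const _ x)).pow 2).div (MeromorphicAt.const _ x))
  -- the order of `K₁` at `0` is `-2`
  have hK₁o : meromorphicOrderAt K₁ 0 ≠ ⊤ := by
    have h1 : (0 : WithTop ℤ) ≤ meromorphicOrderAt f₁ 0 :=
      (analyticAt_wp_add L (by simpa using hw)).meromorphicOrderAt_nonneg
    have h2 : meromorphicOrderAt (-℘[L]) 0 = ((-2 : ℤ) : WithTop ℤ) := by
      rw [← meromorphicOrderAt_neg]; exact order_wp_zero L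
    have h3 : meromorphicOrderAt (-℘[L]) 0 < meromorphicOrderAt f₁ 0 := by
      rw [h2]
      exact lt_of_lt_of_le (by exact_mod_cast (by norm_num : (-2 : ℤ) < 0)) h1
    rw [hK₁, meromorphicOrderAt_add_eq_right_of_lt (hf₁m 0) h3, h2]
    exact WithTop.coe_ne_top
  -- the order of `K₂` at `-w` is `-2`, hence its order at `0` is finite
  have hK₂o : meromorphicOrderAt K₂ 0 ≠ ⊤ := by
    have h1 : meromorphicOrderAt f₁ (-w) = ((-2 : ℤ) : WithTop ℤ) := by
      have := meromorphicOrderAt_comp_add_const_eq_meromorphicOrderAt (c := w) (f := ℘[L])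
        (x := -w)
      rw [neg_add_cancel, order_wp_zero] at this
      exact this
    have h2 : (0 : WithTop ℤ) ≤ meromorphicOrderAt (fun _ : ℂ => -℘[L] w) (-w) :=
      (analyticAt_const).meromorphicOrderAt_nonneg
    have h3 : meromorphicOrderAt f₁ (-w) < meromorphicOrderAt (fun _ : ℂ => -℘[L] w) (-w) := by
      rw [h1]
      exact lt_of_lt_of_le (by exact_mod_cast (by norm_num : (-2 : ℤ) < 0)) h2
    have h4 : meromorphicOrderAt K₂ (-w) ≠ ⊤ := by
      rw [hK₂, meromorphicOrderAt_add_eq_left_of_lt (MeromorphicAt.const _ _) h3, h1]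
      exact WithTop.coe_ne_top
    have hU : MeromorphicOn K₂ Set.univ := fun x _ => hK₂m x
    exact hU.meromorphicOrderAt_ne_top_of_isPreconnected isPreconnected_univ
      (Set.mem_univ (-w)) (Set.mem_univ 0) h4
  have hKo : meromorphicOrderAt (K₁ * K₂) 0 ≠ ⊤ := by
    rw [meromorphicOrderAt_mul (hK₁m 0) (hK₂m 0)]
    exact WithTop.add_ne_top.mpr ⟨hK₁o, hK₂o⟩
  have h0 : ∀ᶠ y in 𝓝[≠] (0 : ℂ), (K₁ * K₂) y * T y = 0 := by
    have h1 : ∀ᶠ y in 𝓝[≠] (0 : ℂ), y + w ∉ L.lattice :=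
      (eventually_add_notMem_lattice L (z := 0) (by simpa using hw)).filter_mono
        nhdsWithin_le_nhds
    filter_upwards [eventually_ne_notMem_lattice L 0, h1] with y hy hyw
    have hc := collinear L hw hy hyw
    have := addition_alg (wp_sq L hy) (wp_sq L hw) (wp_sq L hyw) (by linear_combination hc)
    simp only [hK₁, hK₂, hf₁, hT, Pi.mul_apply, Pi.add_apply, Pi.neg_apply]
    linear_combination this
  have hcont : ContinuousAt T z := by
    have h1 : ContinuousAt (fun z => ℘[L] (z + w)) z := (analyticAt_wp_add L hzw).continuousAt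
    have h2 : ContinuousAt ℘[L] z := (analyticAt_wp L hz).continuousAt
    have h3 : ContinuousAt ℘'[L] z := (analyticAt_dwp L hz).continuousAt
    exact (((h1.add h2).add continuousAt_const).mul ((h2.sub continuousAt_const).pow 2)).sub
      (((h3.sub continuousAt_const).pow 2).div_const _)
  have := eq_zero_of_mul_eventually_eq_zero (fun x => (hK₁m x).mul (hK₂m x)) hTm 0 hKo h0 z hcont
  simp only [hT] at this
  linear_combination this

end Fermat.Agent.S15P.M1.Wp75
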