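import Fermat.Agent.S15P.M1.Liouville75

/-!
# The three points `(℘ z, ℘' z)`, `(℘ w, ℘' w)`, `(℘ (z+w), -℘' (z+w))` are collinear
(S15 cell, brick (M1), helper75)
-/

set_option autoImplicit false

open Filter Topology
open PeriodPair

namespace Fermat.Agent.S15P.M1.Wp75

/-- Third-order vanishing of `(z - c) (f' z + f' c) - 2 (f z - f c)` at `c`. -/
theorem exists_eq_pow_three_mul {f : ℂ → ℂ} {c : ℂ} (hf : AnalyticAt ℂ f c) :
    ∃ M : ℂ → ℂ, AnalyticAt ℂ M c ∧ ∀ᶠ z in 𝓝 c,
      (z - c) * (deriv f z + deriv f c) - 2 * (f z - f c) = (z - c) ^ 3 * M z := by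
  set N : ℂ → ℂ := fun z => (z - c) * (deriv f z + deriv f c) - 2 * (f z - f c) with hN
  have hf' : AnalyticAt ℂ (deriv f) c := hf.deriv
  have hf'' : AnalyticAt ℂ (deriv (deriv f)) c := hf'.deriv
  have hNan : AnalyticAt ℂ N c := by
    have h1 : AnalyticAt ℂ (fun z : ℂ => z - c) c := by fun_prop
    exact (h1.mul (hf'.add analyticAt_const)).sub (analyticAt_const.mul (hf.sub analyticAt_const))
  -- the derivative of `N` near `c`
  have hder : deriv N =ᶠ[𝓝 c] fun z => (deriv f c - deriv f z) + (z - c) * deriv (deriv f) z := by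
    filter_upwards [hf.eventually_analyticAt, hf'.eventually_analyticAt] with z hz hz'
    have h1 : HasDerivAt f (deriv f z) z := hz.differentiableAt.hasDerivAt
    have h2 : HasDerivAt (deriv f) (deriv (deriv f) z) z := hz'.differentiableAt.hasDerivAt
    have h3 : HasDerivAt (fun z : ℂ => z - c) 1 z := (hasDerivAt_id z).sub_const c
    have h4 : HasDerivAt N (1 * (deriv f z + deriv f c) + (z - c) * deriv (deriv f) z
        - 2 * deriv f z) z :=
      (h3.mul (h2.add_const (deriv f c))).sub ((h1.sub_const (f c)).const_mul 2)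
    rw [h4.deriv]; ring
  have key : ((3 : ℕ) : ℕ∞) ≤ analyticOrderAt N c := by
    rw [natCast_le_analyticOrderAt_iff_iteratedDeriv_eq_zero hNan]
    intro i hi
    interval_cases i
    · simp [hN]
    · rw [iteratedDeriv_one, hder.eq_of_nhds]; simp
    · rw [iteratedDeriv_succ, iteratedDeriv_one, hder.deriv_eq]
      have h2 : HasDerivAt (deriv f) (deriv (deriv f) c) c := hf'.differentiableAt.hasDerivAt
      have h2' : HasDerivAt (deriv (deriv f)) (deriv (deriv (deriv f)) c) c :=
        hf''.differentiableAt.hasDerivAt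
      have h3 : HasDerivAt (fun z : ℂ => z - c) 1 c := (hasDerivAt_id c).sub_const c
      have h4 : HasDerivAt (fun z => (deriv f c - deriv f z) + (z - c) * deriv (deriv f) z)
          ((0 - deriv (deriv f) c) + (1 * deriv (deriv f) c + (c - c) * deriv (deriv (deriv f)) c))
          c :=
        ((hasDerivAt_const c (deriv f c)).sub h2).add (h3.mul h2')
      rw [h4.deriv]; ring
  obtain ⟨M, hM, hMeq⟩ := (natCast_le_analyticOrderAt hNan).mp key
  exact ⟨M, hM, by simpa [smul_eq_mul] using hMeq⟩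

/-- Cancellation of the poles of a `℘`-like pair `(u, v)` against a function vanishing to first
order with the matching derivative. -/
theorem exists_analyticAt_pole_cancel {u v p q f : ℂ → ℂ} {c : ℂ}
    (hp : AnalyticAt ℂ p c) (hq : AnalyticAt ℂ q c) (hf : AnalyticAt ℂ f c)
    (hu : u =ᶠ[𝓝[≠] c] fun z => 1 / (z - c) ^ 2 + p z)
    (hv : v =ᶠ[𝓝[≠] c] fun z => -2 / (z - c) ^ 3 + q z) :
    ∃ g : ℂ → ℂ, AnalyticAt ℂ g c ∧
      (fun z => v z * (f z - f c) + u z * (deriv f z + deriv f c)) =ᶠ[𝓝[≠] c] g := by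
  obtain ⟨M, hM, hMeq⟩ := exists_eq_pow_three_mul hf
  refine ⟨fun z => q z * (f z - f c) + p z * (deriv f z + deriv f c) + M z, ?_, ?_⟩
  · exact ((hq.mul (hf.sub analyticAt_const)).add (hp.mul (hf.deriv.add analyticAt_const))).add hM
  · filter_upwards [hu, hv, hMeq.filter_mono nhdsWithin_le_nhds, self_mem_nhdsWithin]
      with z hu hv hM hz
    have hz' : z - c ≠ 0 := sub_ne_zero.mpr hz
    rw [hu, hv]
    have : (-2 / (z - c) ^ 3) * (f z - f c) + (1 / (z - c) ^ 2) * (deriv f z + deriv f c)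
        = M z := by
      field_simp
      linear_combination hM
    linear_combination this

end Fermat.Agent.S15P.M1.Wp75

namespace Fermat.Agent.S15P.M1.Wp75

lemma analyticAt_wp (L : PeriodPair) {x : ℂ} (hx : x ∉ L.lattice) : AnalyticAt ℂ ℘[L] x :=
  L.analyticOnNhd_weierstrassP x hx

lemma analyticAt_dwp (L : PeriodPair) {x : ℂ} (hx : x ∉ L.lattice) : AnalyticAt ℂ ℘'[L] x :=
  L.analyticOnNhd_derivWeierstrassP x hx

lemma analyticAt_wp_add (L : PeriodPair) {x w : ℂ} (hx : x + w ∉ L.lattice) :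
    AnalyticAt ℂ (fun z => ℘[L] (z + w)) x :=
  AnalyticAt.fun_comp (f := fun z : ℂ => z + w) (analyticAt_wp L hx) (by fun_prop)

lemma analyticAt_dwp_add (L : PeriodPair) {x w : ℂ} (hx : x + w ∉ L.lattice) :
    AnalyticAt ℂ (fun z => ℘'[L] (z + w)) x :=
  AnalyticAt.fun_comp (f := fun z : ℂ => z + w) (analyticAt_dwp L hx) (by fun_prop)

lemma half_notMem_lattice (L : PeriodPair) {w : ℂ} (hw : w ∉ L.lattice) : w / 2 ∉ L.lattice := by
  intro h
  apply hw
  have : w = w / 2 + w / 2 := by ring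
  rw [this]
  exact L.lattice.add_mem h h

lemma neg_notMem_lattice (L : PeriodPair) {w : ℂ} (hw : w ∉ L.lattice) : -w ∉ L.lattice := by
  intro h
  exact hw (by simpa using L.lattice.neg_mem h)

lemma add_coe_notMem_lattice (L : PeriodPair) {w : ℂ} (hw : w ∉ L.lattice) (l : L.lattice) :
    (l : ℂ) + w ∉ L.lattice := by
  intro h
  apply hw
  have : w = (l : ℂ) + w - l := by ring
  rw [this]
  exact L.lattice.sub_mem h l.2

lemma wp_eq_pole (L : PeriodPair) (l : L.lattice) (z : ℂ) :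
    ℘[L] z = 1 / (z - l) ^ 2 + (℘[L - (l : ℂ)] z - 1 / (l : ℂ) ^ 2) := by
  rw [L.weierstrassPExcept_def l z]; ring

lemma dwp_eq_pole (L : PeriodPair) (l : L.lattice) (z : ℂ) :
    ℘'[L] z = -2 / (z - l) ^ 3 + ℘'[L - (l : ℂ)] z := by
  rw [L.derivWeierstrassPExcept_def l z]; ring

/-- The determinant expressing that `(℘ z, ℘' z)`, `(℘ w, ℘' w)`, `(℘ (z+w), -℘' (z+w))` are
collinear. -/
noncomputable def colDet (L : PeriodPair) (w z : ℂ) : ℂ :=
  ℘[L] z * (℘'[L] (z + w) + ℘'[L] w) + ℘'[L] z * (℘[L] (z + w) - ℘[L] w)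
    - ℘[L] w * ℘'[L] (z + w) - ℘'[L] w * ℘[L] (z + w)

lemma colDet_add_coe (L : PeriodPair) (w z : ℂ) (l : L.lattice) :
    colDet L w (z + l) = colDet L w z := by
  unfold colDet
  rw [add_right_comm z (l : ℂ) w, L.weierstrassP_add_coe, L.weierstrassP_add_coe,
    L.derivWeierstrassP_add_coe, L.derivWeierstrassP_add_coe]

lemma analyticAt_colDet (L : PeriodPair) (w : ℂ) {x : ℂ} (hx : x ∉ L.lattice)
    (hxw : x + w ∉ L.lattice) : AnalyticAt ℂ (colDet L w) x := by
  have h1 := analyticAt_wp L hx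
  have h2 := analyticAt_dwp L hx
  have h3 := analyticAt_wp_add L hxw
  have h4 := analyticAt_dwp_add L hxw
  unfold colDet
  exact (((h1.mul (h4.add analyticAt_const)).add (h2.mul (h3.sub analyticAt_const))).sub
    (analyticAt_const.mul h4)).sub (analyticAt_const.mul h3)

lemma colDet_removable (L : PeriodPair) {w : ℂ} (hw : w ∉ L.lattice) (x : ℂ) :
    ∃ g : ℂ → ℂ, AnalyticAt ℂ g x ∧ colDet L w =ᶠ[𝓝[≠] x] g := by
  by_cases hx : x ∈ L.lattice
  · -- pole of `℘ z`, `℘' z`
    lift x to L.lattice using hx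
    have hxw : (x : ℂ) + w ∉ L.lattice := add_coe_notMem_lattice L hw x
    have hf : AnalyticAt ℂ (fun z => ℘[L] (z + w)) (x : ℂ) := analyticAt_wp_add L hxw
    have hp : AnalyticAt ℂ (fun z => ℘[L - (x : ℂ)] z - 1 / (x : ℂ) ^ 2) (x : ℂ) :=
      (L.analyticAt_weierstrassPExcept x).sub analyticAt_const
    have hq : AnalyticAt ℂ ℘'[L - (x : ℂ)] (x : ℂ) := L.analyticAt_derivWeierstrassPExcept x
    obtain ⟨g, hg, hgeq⟩ := exists_analyticAt_pole_cancel (u := ℘[L]) (v := ℘'[L]) hp hq hf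
      (Eventually.of_forall fun z => wp_eq_pole L x z)
      (Eventually.of_forall fun z => dwp_eq_pole L x z)
    have hder : deriv (fun z => ℘[L] (z + w)) = fun z => ℘'[L] (z + w) := by
      funext z
      rw [deriv_comp_add_const, L.deriv_weierstrassP]
    have hfx : ℘[L] ((x : ℂ) + w) = ℘[L] w := by
      rw [add_comm]; exact L.weierstrassP_add_coe w x
    have hfx' : ℘'[L] ((x : ℂ) + w) = ℘'[L] w := by
      rw [add_comm]; exact L.derivWeierstrassP_add_coe w x
    refine ⟨fun z => g z - (℘[L] w * ℘'[L] (z + w) + ℘'[L] w * ℘[L] (z + w)), ?_, ?_⟩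
    · exact hg.sub ((analyticAt_const.mul (analyticAt_dwp_add L hxw)).add
        (analyticAt_const.mul hf))
    · filter_upwards [hgeq] with z hz
      rw [← hz]
      simp only [hder, hfx, hfx']
      unfold colDet
      ring
  · by_cases hxw : x + w ∈ L.lattice
    · -- pole of `℘ (z + w)`, `℘' (z + w)`
      obtain ⟨l, hl⟩ : ∃ l : L.lattice, (l : ℂ) = x + w := ⟨⟨x + w, hxw⟩, rfl⟩
      have hxl : x = l - w := by rw [hl]; ring
      have hf : AnalyticAt ℂ ℘[L] x := analyticAt_wp L hx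
      have hp : AnalyticAt ℂ (fun z => ℘[L - (l : ℂ)] (z + w) - 1 / (l : ℂ) ^ 2) x := by
        have h1 : AnalyticAt ℂ ℘[L - (l : ℂ)] (x + w) := by
          rw [← hl]; exact L.analyticAt_weierstrassPExcept l
        exact (AnalyticAt.fun_comp (f := fun z : ℂ => z + w) h1 (by fun_prop)).sub analyticAt_const
      have hq : AnalyticAt ℂ (fun z => ℘'[L - (l : ℂ)] (z + w)) x := by
        have h1 : AnalyticAt ℂ ℘'[L - (l : ℂ)] (x + w) := by
          rw [← hl]; exact L.analyticAt_derivWeierstrassPExcept l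
        exact AnalyticAt.fun_comp (f := fun z : ℂ => z + w) h1 (by fun_prop)
      obtain ⟨g, hg, hgeq⟩ := exists_analyticAt_pole_cancel (u := fun z => ℘[L] (z + w))
        (v := fun z => ℘'[L] (z + w)) hp hq hf
        (Eventually.of_forall fun z => by
          have := wp_eq_pole L l (z + w)
          show ℘[L] (z + w) = 1 / (z - x) ^ 2 + (℘[L - (l : ℂ)] (z + w) - 1 / (l : ℂ) ^ 2)
          rw [this, hxl]; ring)
        (Eventually.of_forall fun z => by
          have := dwp_eq_pole L l (z + w)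
          show ℘'[L] (z + w) = -2 / (z - x) ^ 3 + ℘'[L - (l : ℂ)] (z + w)
          rw [this, hxl]; ring)
      have hfx : ℘[L] x = ℘[L] w := by
        rw [hxl, sub_eq_neg_add, L.weierstrassP_add_coe, L.weierstrassP_neg]
      have hfx' : ℘'[L] x = -℘'[L] w := by
        rw [hxl, sub_eq_neg_add, L.derivWeierstrassP_add_coe, L.derivWeierstrassP_neg]
      refine ⟨fun z => g z + (℘'[L] w * ℘[L] z - ℘[L] w * ℘'[L] z), ?_, ?_⟩
      · exact hg.add ((analyticAt_const.mul hf).sub (analyticAt_const.mul (analyticAt_dwp L hx)))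
      · filter_upwards [hgeq] with z hz
        rw [← hz]
        simp only [L.deriv_weierstrassP, hfx, hfx']
        unfold colDet
        ring
    · exact ⟨colDet L w, analyticAt_colDet L w hx hxw, EventuallyEq.rfl⟩

/-- **Collinearity**: the points `(℘ z, ℘' z)`, `(℘ w, ℘' w)`, `(℘ (z+w), -℘' (z+w))` lie on a
line. -/
theorem colDet_eq_zero (L : PeriodPair) {w z : ℂ} (hw : w ∉ L.lattice) (hz : z ∉ L.lattice)
    (hzw : z + w ∉ L.lattice) : colDet L w z = 0 := by
  obtain ⟨c, hc⟩ := exists_const_of_removable_of_periodic L (colDet_removable L hw)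
    (fun z l hl => colDet_add_coe L w z ⟨l, hl⟩)
  have h0 : colDet L w (-w / 2) = 0 := by
    unfold colDet
    have e1 : -w / 2 + w = w / 2 := by ring
    have e2 : -w / 2 = -(w / 2) := by ring
    rw [e1, e2, L.weierstrassP_neg, L.derivWeierstrassP_neg]
    ring
  have hc0 : c = 0 := by
    have hw2 : w / 2 ∉ L.lattice := half_notMem_lattice L hw
    have h1 : -w / 2 ∉ L.lattice := by
      have e2 : -w / 2 = -(w / 2) := by ring
      rw [e2]; exact neg_notMem_lattice L hw2
    have h2 : -w / 2 + w ∉ L.lattice := by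
      have e1 : -w / 2 + w = w / 2 := by ring
      rw [e1]; exact hw2
    rw [← hc _ (analyticAt_colDet L w h1 h2).continuousAt, h0]
  rw [hc _ (analyticAt_colDet L w hz hzw).continuousAt, hc0]

/-- Collinearity, spelled out. -/
theorem collinear (L : PeriodPair) {w z : ℂ} (hw : w ∉ L.lattice) (hz : z ∉ L.lattice)
    (hzw : z + w ∉ L.lattice) :
    (℘[L] z - ℘[L] w) * ℘'[L] (z + w) + (℘'[L] z - ℘'[L] w) * ℘[L] (z + w)
      + ℘[L] z * ℘'[L] w - ℘[L] w * ℘'[L] z = 0 := by
  have := colDet_eq_zero L hw hz hzw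
  unfold colDet at this
  linear_combination this

end Fermat.Agent.S15P.M1.Wp75
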