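import Mathlib

/-!
# (M1)/(C4) tool: Liouville for elliptic functions, and the half-period theory of `℘`

Mathlib only.  Everything is proved from Mathlib's `PeriodPair` API with ONE tool:
a meromorphic, lattice-periodic function all of whose orders are `≥ 0` is constant
(on the set where it is analytic).
-/

set_option autoImplicit false

namespace Fermat.Agent.S15P.M1.Ell4

open Filter Topology PeriodPair

/-- **Liouville for elliptic functions.** A meromorphic function that is periodic with respect to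
a lattice and has no pole (all meromorphic orders are `≥ 0`) is constant on its analytic locus. -/
theorem const_of_periodic (L : PeriodPair) (F : ℂ → ℂ) (hF : Meromorphic F)
    (hper : ∀ l ∈ L.lattice, ∀ z, F (z + l) = F z)
    (hord : ∀ z, 0 ≤ meromorphicOrderAt F z) :
    ∃ c : ℂ, ∀ z, AnalyticAt ℂ F z → F z = c := by
  have hFU : MeromorphicOn F Set.univ := fun x _ => hF x
  have hGNF : MeromorphicNFOn (toMeromorphicNFOn F Set.univ) Set.univ :=
    meromorphicNFOn_toMeromorphicNFOn F Set.univ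
  have hGan : ∀ z, AnalyticAt ℂ (toMeromorphicNFOn F Set.univ) z := fun z =>
    (hGNF (Set.mem_univ z)).meromorphicOrderAt_nonneg_iff_analyticAt.mp
      (by rw [meromorphicOrderAt_toMeromorphicNFOn hFU (Set.mem_univ z)]; exact hord z)
  have hGdiff : Differentiable ℂ (toMeromorphicNFOn F Set.univ) :=
    fun z => (hGan z).differentiableAt
  have hGF : ∀ z, F =ᶠ[𝓝[≠] z] toMeromorphicNFOn F Set.univ :=
    fun z => (hFU.toMeromorphicNFOn_eq_self_on_nhdsNE (Set.mem_univ z)).symm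
  have hGper : ∀ l ∈ L.lattice, ∀ z,
      toMeromorphicNFOn F Set.univ (z + l) = toMeromorphicNFOn F Set.univ z := by
    intro l hl z
    have hshift : Tendsto (fun w : ℂ => w + l) (𝓝[≠] z) (𝓝[≠] (z + l)) := by
      refine tendsto_nhdsWithin_of_tendsto_nhds_of_eventually_within _
        ((continuous_add_const l).continuousAt.tendsto.mono_left nhdsWithin_le_nhds) ?_
      filter_upwards [self_mem_nhdsWithin] with w hw
      simpa using hw
    have h1 : Tendsto (fun w => toMeromorphicNFOn F Set.univ (w + l)) (𝓝[≠] z)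
        (𝓝 (toMeromorphicNFOn F Set.univ (z + l))) :=
      ((hGdiff.continuous.tendsto (z + l)).mono_left nhdsWithin_le_nhds).comp hshift
    have h2 : Tendsto (toMeromorphicNFOn F Set.univ) (𝓝[≠] z)
        (𝓝 (toMeromorphicNFOn F Set.univ z)) :=
      (hGdiff.continuous.tendsto z).mono_left nhdsWithin_le_nhds
    have h3 : (fun w => toMeromorphicNFOn F Set.univ (w + l)) =ᶠ[𝓝[≠] z]
        toMeromorphicNFOn F Set.univ := by
      filter_upwards [hGF z, hshift.eventually (hGF (z + l))] with w hw1 hw2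
      rw [← hw2, ← hw1, hper l hl]
    exact tendsto_nhds_unique (h1.congr' h3) h2
  have hbdd : Bornology.IsBounded (Set.range (toMeromorphicNFOn F Set.univ)) :=
    (IsZLattice.isCompact_range_of_periodic L.lattice _ hGdiff.continuous
      (fun z w hw => hGper w hw z)).isBounded
  refine ⟨toMeromorphicNFOn F Set.univ 0, fun z hz => ?_⟩
  have hz' : toMeromorphicNFOn F Set.univ z = F z := by
    rw [toMeromorphicNFOn_eq_toMeromorphicNFAt hFU (Set.mem_univ z)]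
    exact congrFun (toMeromorphicNFAt_eq_self.mpr hz.meromorphicNFAt) z
  rw [← hz']
  exact hGdiff.apply_eq_apply_of_bounded hbdd z 0


/-! ## Basic local facts about `℘` and `℘'` -/

section Basic

variable (L : PeriodPair)

theorem analyticAt_wp {z : ℂ} (hz : z ∉ L.lattice) : AnalyticAt ℂ ℘[L] z :=
  L.analyticOnNhd_weierstrassP z hz

theorem analyticAt_dwp {z : ℂ} (hz : z ∉ L.lattice) : AnalyticAt ℂ ℘'[L] z :=
  L.analyticOnNhd_derivWeierstrassP z hz

theorem hasDerivAt_wp {z : ℂ} (hz : z ∉ L.lattice) : HasDerivAt ℘[L] (℘'[L] z) z := by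
  have h := (analyticAt_wp L hz).differentiableAt.hasDerivAt
  rwa [L.deriv_weierstrassP] at h

/-- `℘'` has a pole of order 3 at every lattice point. -/
theorem order_dwp {l : ℂ} (hl : l ∈ L.lattice) : meromorphicOrderAt ℘'[L] l = ((-3 : ℤ) : WithTop ℤ) := by
  have h : meromorphicOrderAt ℘[L] l = ((-2 : ℤ) : WithTop ℤ) := by
    rw [L.order_weierstrassP l hl]; norm_num
  have h2 := meromorphicOrderAt_deriv_eq_sub_one (f := ℘[L]) (x := l) (n := -2) (by norm_num) h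
  rw [L.deriv_weierstrassP] at h2
  rw [h2]; norm_num

/-- `℘ - e` has a pole of order 2 at every lattice point. -/
theorem order_wp_sub (e : ℂ) {l : ℂ} (hl : l ∈ L.lattice) :
    meromorphicOrderAt (fun z => ℘[L] z - e) l = ((-2 : ℤ) : WithTop ℤ) := by
  have h1 : meromorphicOrderAt ℘[L] l = ((-2 : ℤ) : WithTop ℤ) := by
    rw [L.order_weierstrassP l hl]; norm_num
  have h3 : (fun z => ℘[L] z - e) = ℘[L] + fun _ => -e := by
    ext z; simp [sub_eq_add_neg]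
  classical
  rw [h3, meromorphicOrderAt_add_eq_left_of_lt (MeromorphicAt.const _ _), h1]
  rw [h1, meromorphicOrderAt_const]
  split_ifs
  · exact WithTop.coe_lt_top _
  · exact_mod_cast (by norm_num : (-2 : ℤ) < 0)

/-- translation invariance of the order, in `fun` form. -/
theorem order_shift (f : ℂ → ℂ) (a z : ℂ) :
    meromorphicOrderAt (fun w => f (w + a)) z = meromorphicOrderAt f (z + a) :=
  meromorphicOrderAt_comp_add_const_eq_meromorphicOrderAt (f := f) (c := a) (x := z)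

/-- a zero of `℘ - e` where `℘'` vanishes has order at least 2. -/
theorem two_le_order_sub {z₁ e : ℂ} (hz : z₁ ∉ L.lattice) (he : ℘[L] z₁ = e)
    (hd : ℘'[L] z₁ = 0) :
    ((2 : ℤ) : WithTop ℤ) ≤ meromorphicOrderAt (fun z => ℘[L] z - e) z₁ := by
  have han : AnalyticAt ℂ (fun z => ℘[L] z - e) z₁ := (analyticAt_wp L hz).sub analyticAt_const
  rw [han.meromorphicOrderAt_eq]
  have h2 : ((2 : ℕ) : ℕ∞) ≤ analyticOrderAt (fun z => ℘[L] z - e) z₁ := by
    refine (natCast_le_analyticOrderAt_iff_iteratedDeriv_eq_zero han).mpr fun i hi => ?_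
    interval_cases i
    · simp [he]
    · simp only [iteratedDeriv_one]
      have : HasDerivAt (fun z => ℘[L] z - e) (℘'[L] z₁) z₁ := (hasDerivAt_wp L hz).sub_const e
      rw [this.deriv, hd]
  exact ENat.monotone_map_iff.mpr Nat.mono_cast h2

/-- at an analytic zero the order is at least 1. -/
theorem one_le_order_of_zero {f : ℂ → ℂ} {z₁ : ℂ} (han : AnalyticAt ℂ f z₁) (h0 : f z₁ = 0) :
    ((1 : ℤ) : WithTop ℤ) ≤ meromorphicOrderAt f z₁ := by
  rw [han.meromorphicOrderAt_eq]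
  have h2 : ((1 : ℕ) : ℕ∞) ≤ analyticOrderAt f z₁ := by
    refine (natCast_le_analyticOrderAt_iff_iteratedDeriv_eq_zero han).mpr fun i hi => ?_
    interval_cases i
    simp [h0]
  exact ENat.monotone_map_iff.mpr Nat.mono_cast h2

/-- at an analytic non-zero the order is 0. -/
theorem order_eq_zero_of_ne {f : ℂ → ℂ} {z₁ : ℂ} (han : AnalyticAt ℂ f z₁) (h0 : f z₁ ≠ 0) :
    meromorphicOrderAt f z₁ = ((0 : ℤ) : WithTop ℤ) := by
  rw [han.meromorphicOrderAt_eq, han.analyticOrderAt_eq_zero.mpr h0]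
  rfl

end Basic


/-! ## Half-periods -/

section Half

/-- `h` is a (non-zero) half-period of the lattice: `h ∉ Λ`, `2h ∈ Λ`. -/
structure IsHalf (L : PeriodPair) (h : ℂ) : Prop where
  notMem : h ∉ L.lattice
  two : 2 * h ∈ L.lattice

variable {L : PeriodPair}

theorem meromorphic_shift_wp (L : PeriodPair) (a : ℂ) : Meromorphic (fun z => ℘[L] (z + a)) :=
  Meromorphic.meromorphic_fun_comp_add_const_iff_meromorphic.mpr L.meromorphic_weierstrassP

theorem meromorphic_shift_dwp (L : PeriodPair) (a : ℂ) : Meromorphic (fun z => ℘'[L] (z + a)) :=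
  Meromorphic.meromorphic_fun_comp_add_const_iff_meromorphic.mpr L.meromorphic_derivWeierstrassP

theorem wp_add_mem (z : ℂ) {l : ℂ} (hl : l ∈ L.lattice) : ℘[L] (z + l) = ℘[L] z :=
  L.weierstrassP_add_coe z ⟨l, hl⟩

theorem dwp_add_mem (z : ℂ) {l : ℂ} (hl : l ∈ L.lattice) : ℘'[L] (z + l) = ℘'[L] z :=
  L.derivWeierstrassP_add_coe z ⟨l, hl⟩

theorem IsHalf.dwp_eq_zero {h : ℂ} (hh : IsHalf L h) : ℘'[L] h = 0 := by
  have h1 : ℘'[L] (-h + 2 * h) = ℘'[L] (-h) := dwp_add_mem (-h) hh.two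
  have h2 : ℘'[L] (-h) = - ℘'[L] h := L.derivWeierstrassP_neg h
  rw [show -h + 2 * h = h by ring, h2] at h1
  linear_combination (1 / 2 : ℂ) * h1

/-- if `z + h ∈ Λ` for a half-period `h`, then `℘(z) = ℘(h)`. -/
theorem IsHalf.wp_eq_of_add_mem {h z : ℂ} (_hh : IsHalf L h) (hz : z + h ∈ L.lattice) :
    ℘[L] z = ℘[L] h := by
  have h1 : ℘[L] (-h + (z + h)) = ℘[L] (-h) := wp_add_mem (-h) hz
  rw [show -h + (z + h) = z by ring, L.weierstrassP_neg] at h1
  exact h1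

theorem IsHalf.dwp_eq_zero_of_add_mem {h z : ℂ} (hh : IsHalf L h) (hz : z + h ∈ L.lattice) :
    ℘'[L] z = 0 := by
  have h1 : ℘'[L] (-h + (z + h)) = ℘'[L] (-h) := dwp_add_mem (-h) hz
  rw [show -h + (z + h) = z by ring, L.derivWeierstrassP_neg, hh.dwp_eq_zero, neg_zero] at h1
  exact h1

theorem IsHalf.notMem_of_add_mem {h z : ℂ} (hh : IsHalf L h) (hz : z + h ∈ L.lattice) :
    z ∉ L.lattice := fun hz' => hh.notMem (by
  have := L.lattice.sub_mem hz hz'
  rwa [add_sub_cancel_left] at this)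

theorem IsHalf.add_notMem_of_mem {h z : ℂ} (hh : IsHalf L h) (hz : z ∈ L.lattice) :
    z + h ∉ L.lattice := fun hz' => hh.notMem (by
  have := L.lattice.sub_mem hz' hz
  rwa [add_sub_cancel_left] at this)

/-- the punctured neighbourhoods of a point avoid the lattice -/
theorem eventually_notMem (L : PeriodPair) (x : ℂ) : ∀ᶠ z in 𝓝[≠] x, z ∉ L.lattice := by
  have h := L.compl_lattice_sdiff_singleton_mem_nhds x
  filter_upwards [mem_nhdsWithin_of_mem_nhds h, self_mem_nhdsWithin] with z hz hzx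
  intro hzL
  exact hz ⟨hzL, hzx⟩

/-- the elliptic function `(℘(z+h) − ℘(h))·(℘(z) − ℘(h))` attached to a half-period. -/
noncomputable def halfProd (L : PeriodPair) (h z : ℂ) : ℂ :=
  (℘[L] (z + h) - ℘[L] h) * (℘[L] z - ℘[L] h)

theorem analyticAt_halfProd {h z : ℂ} (hz : z ∉ L.lattice) (hzh : z + h ∉ L.lattice) :
    AnalyticAt ℂ (halfProd L h) z := by
  have h1 : AnalyticAt ℂ (fun w => ℘[L] (w + h)) z :=
    (analyticAt_wp L hzh).comp_of_eq (f := fun w : ℂ => w + h) (by fun_prop) rfl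
  have h2 : AnalyticAt ℂ ℘[L] z := analyticAt_wp L hz
  unfold halfProd
  fun_prop

theorem order_halfProd_nonneg {h : ℂ} (hh : IsHalf L h) (z : ℂ) :
    0 ≤ meromorphicOrderAt (halfProd L h) z := by
  have hA : Meromorphic (fun w => ℘[L] (w + h) - ℘[L] h) :=
    (meromorphic_shift_wp L h).sub (Meromorphic.const _)
  have hB : Meromorphic (fun w => ℘[L] w - ℘[L] h) :=
    L.meromorphic_weierstrassP.sub (Meromorphic.const _)
  have hmul : meromorphicOrderAt (halfProd L h) z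
      = meromorphicOrderAt (fun w => ℘[L] (w + h) - ℘[L] h) z
        + meromorphicOrderAt (fun w => ℘[L] w - ℘[L] h) z :=
    meromorphicOrderAt_mul (hA z) (hB z)
  have hAs : meromorphicOrderAt (fun w => ℘[L] (w + h) - ℘[L] h) z
      = meromorphicOrderAt (fun w => ℘[L] w - ℘[L] h) (z + h) :=
    order_shift (fun w => ℘[L] w - ℘[L] h) h z
  have h20 : (0 : WithTop ℤ) = ((2 : ℤ) : WithTop ℤ) + ((-2 : ℤ) : WithTop ℤ) := by
    rw [← WithTop.coe_add]; norm_num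
  by_cases hz : z ∈ L.lattice
  · have hzh : z + h ∉ L.lattice := hh.add_notMem_of_mem hz
    have h1 := two_le_order_sub L (z₁ := z + h) (e := ℘[L] h) hzh
      (by rw [add_comm]; exact wp_add_mem h hz)
      (by rw [add_comm, dwp_add_mem h hz]; exact hh.dwp_eq_zero)
    have h2 := order_wp_sub L (℘[L] h) hz
    rw [hmul, hAs, h2, h20]
    exact add_le_add h1 le_rfl
  · by_cases hzh : z + h ∈ L.lattice
    · have h1 := two_le_order_sub L (z₁ := z) (e := ℘[L] h) hz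
        (hh.wp_eq_of_add_mem hzh) (hh.dwp_eq_zero_of_add_mem hzh)
      have h2 := order_wp_sub L (℘[L] h) hzh
      rw [hmul, hAs, h2, h20, add_comm]
      exact add_le_add le_rfl h1
    · exact (analyticAt_halfProd hz hzh).meromorphicOrderAt_nonneg

theorem halfProd_periodic (h : ℂ) {l : ℂ} (hl : l ∈ L.lattice) (z : ℂ) :
    halfProd L h (z + l) = halfProd L h z := by
  unfold halfProd
  rw [show z + l + h = z + h + l by ring, wp_add_mem _ hl, wp_add_mem _ hl]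

theorem meromorphic_halfProd (L : PeriodPair) (h : ℂ) : Meromorphic (halfProd L h) :=
  ((meromorphic_shift_wp L h).sub (Meromorphic.const _)).mul
    (L.meromorphic_weierstrassP.sub (Meromorphic.const _))

/-- `℘ - e` is not locally zero anywhere. -/
theorem order_wp_sub_ne_top (L : PeriodPair) (e x : ℂ) :
    meromorphicOrderAt (fun w => ℘[L] w - e) x ≠ ⊤ := by
  have hB : MeromorphicOn (fun w => ℘[L] w - e) Set.univ :=
    fun x _ => (L.meromorphic_weierstrassP.sub (Meromorphic.const _)) x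
  refine MeromorphicOn.meromorphicOrderAt_ne_top_of_isPreconnected hB isPreconnected_univ
    (Set.mem_univ (0 : ℂ)) (Set.mem_univ x) ?_
  rw [order_wp_sub L e L.lattice.zero_mem]
  exact WithTop.coe_ne_top

/-- **Liouville (i).** `(℘(z+h) − ℘(h))·(℘(z) − ℘(h))` is a non-zero constant. -/
theorem halfProd_const {h : ℂ} (hh : IsHalf L h) :
    ∃ c : ℂ, c ≠ 0 ∧ ∀ z, z ∉ L.lattice → z + h ∉ L.lattice → halfProd L h z = c := by
  obtain ⟨c, hc⟩ := const_of_periodic L (halfProd L h) (meromorphic_halfProd L h)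
    (fun l hl z => halfProd_periodic h hl z) (order_halfProd_nonneg hh)
  refine ⟨c, ?_, fun z hz hzh => hc z (analyticAt_halfProd hz hzh)⟩
  rintro rfl
  -- the order at `0` would be `⊤`
  have hev : ∀ᶠ z in 𝓝[≠] (0 : ℂ), halfProd L h z = 0 := by
    have h1 := eventually_notMem L 0
    have h2 : ∀ᶠ z in 𝓝[≠] (0 : ℂ), z + h ∉ L.lattice := by
      have : {z : ℂ | z + h ∉ L.lattice} ∈ 𝓝 (0 : ℂ) := by
        have hcont : ContinuousAt (fun z : ℂ => z + h) 0 := by fun_prop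
        exact hcont.preimage_mem_nhds
          (L.isClosed_lattice.isOpen_compl.mem_nhds (by simpa using hh.notMem))
      exact mem_nhdsWithin_of_mem_nhds this
    filter_upwards [h1, h2] with z hz hzh
    exact hc z (analyticAt_halfProd hz hzh)
  have htop : meromorphicOrderAt (halfProd L h) 0 = ⊤ := meromorphicOrderAt_eq_top_iff.mpr hev
  have hA : Meromorphic (fun w => ℘[L] (w + h) - ℘[L] h) :=
    (meromorphic_shift_wp L h).sub (Meromorphic.const _)
  have hB : Meromorphic (fun w => ℘[L] w - ℘[L] h) :=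
    L.meromorphic_weierstrassP.sub (Meromorphic.const _)
  have hmul : meromorphicOrderAt (halfProd L h) 0
      = meromorphicOrderAt (fun w => ℘[L] (w + h) - ℘[L] h) 0
        + meromorphicOrderAt (fun w => ℘[L] w - ℘[L] h) 0 :=
    meromorphicOrderAt_mul (hA 0) (hB 0)
  have hAs : meromorphicOrderAt (fun w => ℘[L] (w + h) - ℘[L] h) 0
      = meromorphicOrderAt (fun w => ℘[L] w - ℘[L] h) (0 + h) :=
    order_shift (fun w => ℘[L] w - ℘[L] h) h 0
  rw [hmul, hAs] at htop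
  exact WithTop.add_ne_top.mpr ⟨order_wp_sub_ne_top L _ _, order_wp_sub_ne_top L _ _⟩ htop

/-- `℘` takes the value `℘(h)` only at the points congruent to the half-period `h`. -/
theorem IsHalf.wp_ne {h z : ℂ} (hh : IsHalf L h) (hz : z ∉ L.lattice) (hzh : z + h ∉ L.lattice) :
    ℘[L] z ≠ ℘[L] h := by
  obtain ⟨c, hc0, hc⟩ := halfProd_const hh
  intro he
  apply hc0
  rw [← hc z hz hzh, halfProd, he, sub_self, mul_zero]

end Half


/-! ## `℘'' = 6℘² − g₂/2` -/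

section SecondDeriv

theorem order_dwp_ne_top (L : PeriodPair) (x : ℂ) : meromorphicOrderAt ℘'[L] x ≠ ⊤ := by
  have hB : MeromorphicOn ℘'[L] Set.univ := fun x _ => L.meromorphic_derivWeierstrassP x
  refine MeromorphicOn.meromorphicOrderAt_ne_top_of_isPreconnected hB isPreconnected_univ
    (Set.mem_univ (0 : ℂ)) (Set.mem_univ x) ?_
  rw [order_dwp L L.lattice.zero_mem]
  exact WithTop.coe_ne_top

/-- `℘'' = 6 ℘² − g₂/2` off the lattice. -/
theorem deriv_dwp (L : PeriodPair) {z : ℂ} (hz : z ∉ L.lattice) :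
    deriv ℘'[L] z = 6 * ℘[L] z ^ 2 - L.g₂ / 2 := by
  have key : ∀ w, w ∉ L.lattice →
      ℘'[L] w * (deriv ℘'[L] w - (6 * ℘[L] w ^ 2 - L.g₂ / 2)) = 0 := by
    intro w hw
    have hrel : (fun u => ℘'[L] u ^ 2) =ᶠ[𝓝 w]
        fun u => 4 * ℘[L] u ^ 3 - L.g₂ * ℘[L] u - L.g₃ := by
      filter_upwards [L.isClosed_lattice.isOpen_compl.mem_nhds hw] with u hu
      exact L.derivWeierstrassP_sq u hu
    have hd1 : HasDerivAt (fun u => ℘'[L] u ^ 2) (2 * ℘'[L] w * deriv ℘'[L] w) w := by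
      have := ((analyticAt_dwp L hw).differentiableAt.hasDerivAt).fun_pow 2
      simpa using this
    have hd2 : HasDerivAt (fun u => 4 * ℘[L] u ^ 3 - L.g₂ * ℘[L] u - L.g₃)
        (4 * (3 * ℘[L] w ^ 2 * ℘'[L] w) - L.g₂ * ℘'[L] w) w := by
      have h := hasDerivAt_wp L hw
      have h3 := h.fun_pow 3
      simp only [Nat.cast_ofNat, Nat.add_one_sub_one] at h3
      exact ((h3.const_mul 4).sub (h.const_mul L.g₂)).sub_const L.g₃
    have := hd1.unique (hd2.congr_of_eventuallyEq hrel)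
    linear_combination (1 / 2 : ℂ) * this
  have hne : ∀ᶠ w in 𝓝[≠] z, ℘'[L] w ≠ 0 :=
    (meromorphicOrderAt_ne_top_iff_eventually_ne_zero (L.meromorphic_derivWeierstrassP z)).mp
      (order_dwp_ne_top L z)
  have hG : ∀ᶠ w in 𝓝[≠] z, deriv ℘'[L] w - (6 * ℘[L] w ^ 2 - L.g₂ / 2) = 0 := by
    filter_upwards [hne, eventually_notMem L z] with w hw hwL
    exact (mul_eq_zero.mp (key w hwL)).resolve_left hw
  have hcont : ContinuousAt (fun w => deriv ℘'[L] w - (6 * ℘[L] w ^ 2 - L.g₂ / 2)) z := by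
    have h1 : AnalyticAt ℂ (deriv ℘'[L]) z := (analyticAt_dwp L hz).deriv
    have h2 := analyticAt_wp L hz
    have h3 : AnalyticAt ℂ (fun w => deriv ℘'[L] w - (6 * ℘[L] w ^ 2 - L.g₂ / 2)) z := by
      fun_prop
    exact h3.continuousAt
  have hlim := tendsto_nhds_unique (hcont.tendsto.mono_left nhdsWithin_le_nhds)
    (tendsto_const_nhds.congr' (hG.mono fun w hw => hw.symm))
  linear_combination hlim

end SecondDeriv

/-! ## Triples of half-periods: the cubic, the discriminant, the zeros of `℘'` -/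

section Triple

/-- three half-periods representing the three non-zero classes of `½Λ/Λ`. -/
structure IsTriple (L : PeriodPair) (h₁ h₂ h₃ : ℂ) : Prop where
  half₁ : IsHalf L h₁
  half₂ : IsHalf L h₂
  half₃ : IsHalf L h₃
  sum : h₁ + h₂ + h₃ ∈ L.lattice

variable {L : PeriodPair} {h₁ h₂ h₃ : ℂ}

theorem IsTriple.rot (T : IsTriple L h₁ h₂ h₃) : IsTriple L h₂ h₃ h₁ :=
  ⟨T.half₂, T.half₃, T.half₁, by have := T.sum; rwa [show h₂ + h₃ + h₁ = h₁ + h₂ + h₃ by ring]⟩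

theorem IsTriple.swap (T : IsTriple L h₁ h₂ h₃) : IsTriple L h₂ h₁ h₃ :=
  ⟨T.half₂, T.half₁, T.half₃, by have := T.sum; rwa [show h₂ + h₁ + h₃ = h₁ + h₂ + h₃ by ring]⟩

theorem IsTriple.add_notMem (T : IsTriple L h₁ h₂ h₃) : h₁ + h₂ ∉ L.lattice := fun h =>
  T.half₃.notMem (by
    have := L.lattice.sub_mem T.sum h
    rwa [add_sub_cancel_left] at this)

theorem IsTriple.wp_add (T : IsTriple L h₁ h₂ h₃) : ℘[L] (h₁ + h₂) = ℘[L] h₃ :=
  T.half₃.wp_eq_of_add_mem T.sum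

theorem IsTriple.ne₁₂ (T : IsTriple L h₁ h₂ h₃) : ℘[L] h₁ ≠ ℘[L] h₂ :=
  T.half₂.wp_ne T.half₁.notMem T.add_notMem

theorem IsTriple.ne₂₃ (T : IsTriple L h₁ h₂ h₃) : ℘[L] h₂ ≠ ℘[L] h₃ := T.rot.ne₁₂

theorem IsTriple.ne₁₃ (T : IsTriple L h₁ h₂ h₃) : ℘[L] h₁ ≠ ℘[L] h₃ := fun h => T.rot.rot.ne₁₂ h.symm

theorem IsHalf.cubic {h : ℂ} (hh : IsHalf L h) :
    4 * ℘[L] h ^ 3 - L.g₂ * ℘[L] h - L.g₃ = 0 := by
  have := L.derivWeierstrassP_sq h hh.notMem
  rw [hh.dwp_eq_zero] at this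
  linear_combination -this

theorem IsTriple.sum_zero (T : IsTriple L h₁ h₂ h₃) : ℘[L] h₁ + ℘[L] h₂ + ℘[L] h₃ = 0 := by
  have c1 := T.half₁.cubic
  have c2 := T.half₂.cubic
  have c3 := T.half₃.cubic
  have n12 := sub_ne_zero.mpr T.ne₁₂
  have n13 := sub_ne_zero.mpr T.ne₁₃
  have n23 := sub_ne_zero.mpr T.ne₂₃
  have e12 : 4 * (℘[L] h₁ ^ 2 + ℘[L] h₁ * ℘[L] h₂ + ℘[L] h₂ ^ 2) - L.g₂ = 0 := by
    apply mul_left_cancel₀ n12
    linear_combination c1 - c2
  have e13 : 4 * (℘[L] h₁ ^ 2 + ℘[L] h₁ * ℘[L] h₃ + ℘[L] h₃ ^ 2) - L.g₂ = 0 := by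
    apply mul_left_cancel₀ n13
    linear_combination c1 - c3
  apply mul_left_cancel₀ n23
  linear_combination (1 / 4 : ℂ) * (e12 - e13)

theorem IsTriple.g₂_eq (T : IsTriple L h₁ h₂ h₃) :
    L.g₂ = -4 * (℘[L] h₁ * ℘[L] h₂ + ℘[L] h₁ * ℘[L] h₃ + ℘[L] h₂ * ℘[L] h₃) := by
  have c1 := T.half₁.cubic
  have c2 := T.half₂.cubic
  have n12 := sub_ne_zero.mpr T.ne₁₂
  have s := T.sum_zero
  have e12 : 4 * (℘[L] h₁ ^ 2 + ℘[L] h₁ * ℘[L] h₂ + ℘[L] h₂ ^ 2) - L.g₂ = 0 := by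
    apply mul_left_cancel₀ n12
    linear_combination c1 - c2
  have h3 : ℘[L] h₃ = -℘[L] h₁ - ℘[L] h₂ := by linear_combination s
  rw [h3]
  linear_combination -e12

theorem IsTriple.g₃_eq (T : IsTriple L h₁ h₂ h₃) :
    L.g₃ = 4 * (℘[L] h₁ * ℘[L] h₂ * ℘[L] h₃) := by
  have c1 := T.half₁.cubic
  have g := T.g₂_eq
  have s := T.sum_zero
  have h3 : ℘[L] h₃ = -℘[L] h₁ - ℘[L] h₂ := by linear_combination s
  rw [h3] at g ⊢
  rw [g] at c1
  linear_combination -c1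

/-- the cubic factors. -/
theorem IsTriple.cubic_factor (T : IsTriple L h₁ h₂ h₃) (x : ℂ) :
    4 * x ^ 3 - L.g₂ * x - L.g₃ = 4 * ((x - ℘[L] h₁) * (x - ℘[L] h₂) * (x - ℘[L] h₃)) := by
  have g2 := T.g₂_eq
  have g3 := T.g₃_eq
  have s := T.sum_zero
  rw [g2, g3]
  linear_combination (4 * x ^ 2) * s

theorem IsTriple.disc_eq (T : IsTriple L h₁ h₂ h₃) :
    L.g₂ ^ 3 - 27 * L.g₃ ^ 2
      = 16 * ((℘[L] h₁ - ℘[L] h₂) * (℘[L] h₁ - ℘[L] h₃) * (℘[L] h₂ - ℘[L] h₃)) ^ 2 := by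
  have g2 := T.g₂_eq
  have g3 := T.g₃_eq
  have s := T.sum_zero
  have h3 : ℘[L] h₃ = -℘[L] h₁ - ℘[L] h₂ := by linear_combination s
  rw [g2, g3, h3]
  ring

theorem IsTriple.disc_ne_zero (T : IsTriple L h₁ h₂ h₃) : L.g₂ ^ 3 - 27 * L.g₃ ^ 2 ≠ 0 := by
  rw [T.disc_eq]
  have n12 := sub_ne_zero.mpr T.ne₁₂
  have n13 := sub_ne_zero.mpr T.ne₁₃
  have n23 := sub_ne_zero.mpr T.ne₂₃
  exact mul_ne_zero (by norm_num) (pow_ne_zero _ (mul_ne_zero (mul_ne_zero n12 n13) n23))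

/-- the standard triple `ω₁/2, ω₂/2, ω₁/2 + ω₂/2`. -/
theorem isTriple_std (L : PeriodPair) : IsTriple L (L.ω₁ / 2) (L.ω₂ / 2) (L.ω₁ / 2 + L.ω₂ / 2) := by
  have h1 : IsHalf L (L.ω₁ / 2) :=
    ⟨L.ω₁_div_two_notMem_lattice, by rw [mul_div_cancel₀ _ (two_ne_zero)]; exact L.ω₁_mem_lattice⟩
  have h2 : IsHalf L (L.ω₂ / 2) :=
    ⟨L.ω₂_div_two_notMem_lattice, by rw [mul_div_cancel₀ _ (two_ne_zero)]; exact L.ω₂_mem_lattice⟩
  have h3 : IsHalf L (L.ω₁ / 2 + L.ω₂ / 2) := by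
    refine ⟨?_, ?_⟩
    · have := (L.mul_ω₁_add_mul_ω₂_mem_lattice (α := 1 / 2) (β := 1 / 2)).not.mpr (by norm_num)
      intro hmem
      apply this
      convert hmem using 1
      push_cast
      ring
    · rw [show 2 * (L.ω₁ / 2 + L.ω₂ / 2) = L.ω₁ + L.ω₂ by ring]
      exact L.lattice.add_mem L.ω₁_mem_lattice L.ω₂_mem_lattice
  refine ⟨h1, h2, h3, ?_⟩
  rw [show L.ω₁ / 2 + L.ω₂ / 2 + (L.ω₁ / 2 + L.ω₂ / 2) = L.ω₁ + L.ω₂ by ring]
  exact L.lattice.add_mem L.ω₁_mem_lattice L.ω₂_mem_lattice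

/-- **The discriminant of a lattice is non-zero** (no modular forms needed). -/
theorem disc_ne_zero (L : PeriodPair) : L.g₂ ^ 3 - 27 * L.g₃ ^ 2 ≠ 0 :=
  (isTriple_std L).disc_ne_zero

end Triple


/-! ## The zeros of `℘'` and the product `℘'(z)·∏ ℘'(z + hᵢ) = Δ` -/

section Zeros

variable {L : PeriodPair} {h₁ h₂ h₃ : ℂ}

/-- the constant of Liouville (i), explicitly. -/
theorem IsTriple.halfProd_eq (T : IsTriple L h₁ h₂ h₃) {z : ℂ} (hz : z ∉ L.lattice)
    (hzh : z + h₁ ∉ L.lattice) :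
    (℘[L] (z + h₁) - ℘[L] h₁) * (℘[L] z - ℘[L] h₁)
      = (℘[L] h₂ - ℘[L] h₁) * (℘[L] h₃ - ℘[L] h₁) := by
  obtain ⟨c, _, hc⟩ := halfProd_const T.half₁
  have e1 := hc z hz hzh
  have e2 := hc h₂ T.half₂.notMem (by rw [add_comm]; exact T.add_notMem)
  unfold halfProd at e1 e2
  rw [add_comm h₂ h₁, T.wp_add] at e2
  rw [e1, ← e2]
  ring

theorem hasDerivAt_wp_shift {L : PeriodPair} {z a : ℂ} (hz : z + a ∉ L.lattice) :
    HasDerivAt (fun w => ℘[L] (w + a)) (℘'[L] (z + a)) z :=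
  (hasDerivAt_wp L hz).comp_add_const z a

/-- derivative of Liouville (i). -/
theorem IsTriple.dwp_shift (T : IsTriple L h₁ h₂ h₃) {z : ℂ} (hz : z ∉ L.lattice)
    (hzh : z + h₁ ∉ L.lattice) :
    ℘'[L] (z + h₁) * (℘[L] z - ℘[L] h₁) ^ 2
      = -((℘[L] h₂ - ℘[L] h₁) * (℘[L] h₃ - ℘[L] h₁)) * ℘'[L] z := by
  have hev : (fun w => (℘[L] (w + h₁) - ℘[L] h₁) * (℘[L] w - ℘[L] h₁)) =ᶠ[𝓝 z]
      fun _ => (℘[L] h₂ - ℘[L] h₁) * (℘[L] h₃ - ℘[L] h₁) := by
    have o1 : {w : ℂ | w ∉ L.lattice} ∈ 𝓝 z := L.isClosed_lattice.isOpen_compl.mem_nhds hz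
    have o2 : {w : ℂ | w + h₁ ∉ L.lattice} ∈ 𝓝 z := by
      have hcont : ContinuousAt (fun w : ℂ => w + h₁) z := by fun_prop
      exact hcont.preimage_mem_nhds (L.isClosed_lattice.isOpen_compl.mem_nhds hzh)
    filter_upwards [o1, o2] with w hw hwh
    exact T.halfProd_eq hw hwh
  have hd : HasDerivAt (fun w => (℘[L] (w + h₁) - ℘[L] h₁) * (℘[L] w - ℘[L] h₁))
      (℘'[L] (z + h₁) * (℘[L] z - ℘[L] h₁) + (℘[L] (z + h₁) - ℘[L] h₁) * ℘'[L] z) z :=
    ((hasDerivAt_wp_shift hzh).sub_const _).mul ((hasDerivAt_wp L hz).sub_const _)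
  have h0 := hd.unique ((hasDerivAt_const z _).congr_of_eventuallyEq hev)
  have hp := T.halfProd_eq hz hzh
  linear_combination (℘[L] z - ℘[L] h₁) * h0 - ℘'[L] z * hp

theorem IsHalf.add_notMem_of_two {h z : ℂ} (hh : IsHalf L h) (h2z : 2 * z ∉ L.lattice) :
    z + h ∉ L.lattice := fun hmem => h2z (by
  have := L.lattice.sub_mem (L.lattice.add_mem hmem hmem) hh.two
  rwa [show z + h + (z + h) - 2 * h = 2 * z by ring] at this)

theorem notMem_of_two {z : ℂ} (h2z : 2 * z ∉ L.lattice) : z ∉ L.lattice := fun hmem => h2z (by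
  rw [two_mul]; exact L.lattice.add_mem hmem hmem)

/-- `℘'` does not vanish off the half-periods. -/
theorem IsTriple.dwp_ne_zero (T : IsTriple L h₁ h₂ h₃) {z : ℂ} (h2z : 2 * z ∉ L.lattice) :
    ℘'[L] z ≠ 0 := by
  have hz := notMem_of_two h2z
  intro h0
  have hrel := L.derivWeierstrassP_sq z hz
  rw [h0, T.cubic_factor] at hrel
  have hprod : (℘[L] z - ℘[L] h₁) * (℘[L] z - ℘[L] h₂) * (℘[L] z - ℘[L] h₃) = 0 := by
    linear_combination (-1 / 4 : ℂ) * hrel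
  rcases mul_eq_zero.mp hprod with h12 | h3
  · rcases mul_eq_zero.mp h12 with h1 | h2
    · exact T.half₁.wp_ne hz (T.half₁.add_notMem_of_two h2z) (sub_eq_zero.mp h1)
    · exact T.half₂.wp_ne hz (T.half₂.add_notMem_of_two h2z) (sub_eq_zero.mp h2)
  · exact T.half₃.wp_ne hz (T.half₃.add_notMem_of_two h2z) (sub_eq_zero.mp h3)

/-- the zeros of `℘'` are exactly the half-periods. -/
theorem dwp_eq_zero_iff (L : PeriodPair) {z : ℂ} (hz : z ∉ L.lattice) :
    ℘'[L] z = 0 ↔ 2 * z ∈ L.lattice := by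
  constructor
  · intro h0
    by_contra h2z
    exact (isTriple_std L).dwp_ne_zero h2z h0
  · intro h2
    exact (IsHalf.mk hz h2).dwp_eq_zero

/-- **`℘'(z)·℘'(z+h₁)·℘'(z+h₂)·℘'(z+h₃) = Δ`.** -/
theorem IsTriple.prod_dwp (T : IsTriple L h₁ h₂ h₃) {z : ℂ} (h2z : 2 * z ∉ L.lattice) :
    ℘'[L] z * ℘'[L] (z + h₁) * ℘'[L] (z + h₂) * ℘'[L] (z + h₃)
      = L.g₂ ^ 3 - 27 * L.g₃ ^ 2 := by
  have hz := notMem_of_two h2z
  have E1 := T.dwp_shift hz (T.half₁.add_notMem_of_two h2z)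
  have E2 := T.rot.dwp_shift hz (T.half₂.add_notMem_of_two h2z)
  have E3 := T.rot.rot.dwp_shift hz (T.half₃.add_notMem_of_two h2z)
  have hrel := L.derivWeierstrassP_sq z hz
  rw [T.cubic_factor] at hrel
  have hP := T.dwp_ne_zero h2z
  rw [T.disc_eq]
  have key : ℘'[L] z ^ 3 * (℘'[L] z * ℘'[L] (z + h₁) * ℘'[L] (z + h₂) * ℘'[L] (z + h₃)
      - 16 * ((℘[L] h₁ - ℘[L] h₂) * (℘[L] h₁ - ℘[L] h₃) * (℘[L] h₂ - ℘[L] h₃)) ^ 2) = 0 := by
    linear_combination
      (℘'[L] z ^ 2 + 4 * ((℘[L] z - ℘[L] h₁) * (℘[L] z - ℘[L] h₂) * (℘[L] z - ℘[L] h₃)))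
          * ℘'[L] (z + h₁) * ℘'[L] (z + h₂) * ℘'[L] (z + h₃) * hrel
        + 16 * (E1 * (℘'[L] (z + h₂) * (℘[L] z - ℘[L] h₂) ^ 2)
              * (℘'[L] (z + h₃) * (℘[L] z - ℘[L] h₃) ^ 2)
            + (-((℘[L] h₂ - ℘[L] h₁) * (℘[L] h₃ - ℘[L] h₁)) * ℘'[L] z) * E2
              * (℘'[L] (z + h₃) * (℘[L] z - ℘[L] h₃) ^ 2)
            + (-((℘[L] h₂ - ℘[L] h₁) * (℘[L] h₃ - ℘[L] h₁)) * ℘'[L] z)
              * (-((℘[L] h₃ - ℘[L] h₂) * (℘[L] h₁ - ℘[L] h₂)) * ℘'[L] z) * E3)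
  exact sub_eq_zero.mp ((mul_eq_zero.mp key).resolve_left (pow_ne_zero _ hP))

/-- `℘''` at a half-period. -/
theorem IsTriple.deriv_dwp_half (T : IsTriple L h₁ h₂ h₃) :
    deriv ℘'[L] h₁ = 2 * ((℘[L] h₁ - ℘[L] h₂) * (℘[L] h₁ - ℘[L] h₃)) := by
  rw [deriv_dwp L T.half₁.notMem, T.g₂_eq]
  linear_combination (4 * ℘[L] h₁) * T.sum_zero

theorem IsTriple.deriv_dwp_half_ne (T : IsTriple L h₁ h₂ h₃) : deriv ℘'[L] h₁ ≠ 0 := by
  rw [T.deriv_dwp_half]
  exact mul_ne_zero two_ne_zero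
    (mul_ne_zero (sub_ne_zero.mpr T.ne₁₂) (sub_ne_zero.mpr T.ne₁₃))

/-- `Δ = −2 ℘''(h₁) ℘''(h₂) ℘''(h₃)`. -/
theorem IsTriple.disc_eq_prod_deriv (T : IsTriple L h₁ h₂ h₃) :
    L.g₂ ^ 3 - 27 * L.g₃ ^ 2 = -2 * (deriv ℘'[L] h₁ * deriv ℘'[L] h₂ * deriv ℘'[L] h₃) := by
  rw [T.disc_eq, T.deriv_dwp_half, T.rot.deriv_dwp_half, T.rot.rot.deriv_dwp_half]
  ring

/-- a half-period is a simple zero of `℘'`. -/
theorem IsHalf.order_dwp {h : ℂ} (hh : IsHalf L h) :
    meromorphicOrderAt ℘'[L] h = ((1 : ℤ) : WithTop ℤ) := by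
  have han := analyticAt_dwp L hh.notMem
  have hne : deriv ℘'[L] h ≠ 0 := by
    rw [deriv_dwp L hh.notMem]
    intro h0
    -- `6e² = g₂/2` and the cubic would give `Δ = 0`
    have c := hh.cubic
    have hg2 : L.g₂ = 12 * ℘[L] h ^ 2 := by linear_combination -2 * h0
    have hg3 : L.g₃ = -8 * ℘[L] h ^ 3 := by rw [hg2] at c; linear_combination -c
    apply disc_ne_zero L
    rw [hg2, hg3]; ring
  have h1 := one_le_order_of_zero han hh.dwp_eq_zero
  have hnt := order_dwp_ne_top L h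
  obtain ⟨n, hn⟩ := WithTop.ne_top_iff_exists.mp hnt
  rw [← hn] at h1 ⊢
  have hn1 : (1 : ℤ) ≤ n := by exact_mod_cast h1
  have hd := meromorphicOrderAt_deriv_eq_sub_one (f := ℘'[L]) (x := h) (n := n)
    (by exact_mod_cast (by omega : n ≠ 0)) hn.symm
  have h0 := order_eq_zero_of_ne han.deriv hne
  rw [hd] at h0
  have : n - 1 = 0 := by exact_mod_cast h0
  have : n = 1 := by omega
  rw [this]

end Zeros

end Fermat.Agent.S15P.M1.Ell4
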