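import Mathlib.Analysis.SpecialFunctions.Elliptic.Weierstrass
import Mathlib.Analysis.Meromorphic.Order

/-!
# Liouville's theorem for doubly periodic functions (S15 cell, brick (M1), helper75)

* `eq_of_differentiable_of_periodic`: an entire function which is periodic with respect to a
  lattice is constant.
* `exists_const_of_removable_of_periodic`: a periodic function all of whose singularities are
  removable is constant at its points of continuity.
* `eq_zero_of_mul_eventually_eq_zero`: the field of meromorphic functions has no zero divisors.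
-/

set_option autoImplicit false

open Filter Topology

namespace Fermat.Agent.S15P.M1.Wp75

/-- **Liouville** for entire functions which are periodic with respect to a lattice. -/
theorem eq_of_differentiable_of_periodic (L : PeriodPair) {f : ℂ → ℂ} (hf : Differentiable ℂ f)
    (hper : ∀ z, ∀ l ∈ L.lattice, f (z + l) = f z) (x y : ℂ) : f x = f y :=
  hf.apply_eq_apply_of_bounded
    (IsZLattice.isCompact_range_of_periodic L.lattice f hf.continuous
      (fun z w hw => hper z w hw)).isBounded x y

/-- **Liouville** for periodic functions with only removable singularities: such a function is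
constant on its points of continuity. -/
theorem exists_const_of_removable_of_periodic (L : PeriodPair) {f : ℂ → ℂ}
    (hrem : ∀ x, ∃ g : ℂ → ℂ, AnalyticAt ℂ g x ∧ f =ᶠ[𝓝[≠] x] g)
    (hper : ∀ z, ∀ l ∈ L.lattice, f (z + l) = f z) :
    ∃ c : ℂ, ∀ x, ContinuousAt f x → f x = c := by
  choose g hg hfg using hrem
  -- the extension
  set F : ℂ → ℂ := fun x => g x x with hF
  have hlim : ∀ x, Tendsto f (𝓝[≠] x) (𝓝 (F x)) := by
    intro x
    have h1 : Tendsto (g x) (𝓝[≠] x) (𝓝 (g x x)) :=
      ((hg x).continuousAt.tendsto).mono_left nhdsWithin_le_nhds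
    exact h1.congr' (hfg x).symm
  have hloc : ∀ x, F =ᶠ[𝓝 x] g x := by
    intro x
    have h1 : ∀ᶠ y in 𝓝 x, ∀ᶠ y' in 𝓝 y, (y' ≠ x → f y' = g x y') :=
      eventually_eventually_nhds.mpr (eventually_nhdsWithin_iff.mp (hfg x))
    filter_upwards [h1, (hg x).eventually_analyticAt] with y hy hy'
    by_cases hyx : y = x
    · subst hyx; rfl
    · have h2 : ∀ᶠ y' in 𝓝 y, f y' = g x y' := by
        filter_upwards [hy, isOpen_ne.mem_nhds hyx] with y' h h' using h h'
      have h3 : Tendsto f (𝓝[≠] y) (𝓝 (g x y)) := by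
        have : Tendsto (g x) (𝓝[≠] y) (𝓝 (g x y)) :=
          (hy'.continuousAt.tendsto).mono_left nhdsWithin_le_nhds
        exact this.congr' ((h2.filter_mono nhdsWithin_le_nhds).mono fun _ h => h.symm)
      exact tendsto_nhds_unique (hlim y) h3
  have hFan : ∀ x, AnalyticAt ℂ F x := fun x => (hg x).congr (hloc x).symm
  have hFd : Differentiable ℂ F := fun x => (hFan x).differentiableAt
  have hFper : ∀ z, ∀ l ∈ L.lattice, F (z + l) = F z := by
    intro z l hl
    have h1 : Tendsto (fun y : ℂ => y + l) (𝓝[≠] z) (𝓝[≠] (z + l)) := by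
      refine tendsto_nhdsWithin_of_tendsto_nhds_of_eventually_within _ ?_ ?_
      · exact ((continuous_id.add continuous_const).tendsto z).mono_left nhdsWithin_le_nhds
      · filter_upwards [self_mem_nhdsWithin] with y hy
        simpa using hy
    have h2 : Tendsto (fun y : ℂ => f (y + l)) (𝓝[≠] z) (𝓝 (F (z + l))) := (hlim (z + l)).comp h1
    have h3 : (fun y : ℂ => f (y + l)) = f := funext fun y => hper y l hl
    rw [h3] at h2
    exact tendsto_nhds_unique h2 (hlim z)
  refine ⟨F 0, fun x hx => ?_⟩
  have h1 : Tendsto f (𝓝[≠] x) (𝓝 (f x)) := hx.tendsto.mono_left nhdsWithin_le_nhds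
  rw [tendsto_nhds_unique h1 (hlim x)]
  exact eq_of_differentiable_of_periodic L hFd hFper x 0

/-- Meromorphic functions on `ℂ` have no zero divisors: if `f * k` vanishes near a point where `f`
is not locally zero, then `k` vanishes at each of its points of continuity. -/
theorem eq_zero_of_mul_eventually_eq_zero {f k : ℂ → ℂ} (hf : ∀ x, MeromorphicAt f x)
    (hk : ∀ x, MeromorphicAt k x) (x₀ : ℂ) (hx₀ : meromorphicOrderAt f x₀ ≠ ⊤)
    (h : ∀ᶠ z in 𝓝[≠] x₀, f z * k z = 0) (z : ℂ) (hz : ContinuousAt k z) : k z = 0 := by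
  have h1 : meromorphicOrderAt (f * k) x₀ = ⊤ := meromorphicOrderAt_eq_top_iff.mpr h
  rw [meromorphicOrderAt_mul (hf x₀) (hk x₀)] at h1
  have h2 : meromorphicOrderAt k x₀ = ⊤ := by
    rcases WithTop.add_eq_top.mp h1 with h | h
    · exact absurd h hx₀
    · exact h
  have hkU : MeromorphicOn k Set.univ := fun x _ => hk x
  have h3 : meromorphicOrderAt k z = ⊤ := by
    by_contra hne
    exact hkU.meromorphicOrderAt_ne_top_of_isPreconnected isPreconnected_univ
      (Set.mem_univ z) (Set.mem_univ x₀) hne h2
  have h4 : ∀ᶠ y in 𝓝[≠] z, k y = 0 := meromorphicOrderAt_eq_top_iff.mp h3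
  have h5 : Tendsto k (𝓝[≠] z) (𝓝 (k z)) := hz.tendsto.mono_left nhdsWithin_le_nhds
  have h6 : Tendsto k (𝓝[≠] z) (𝓝 0) :=
    tendsto_const_nhds.congr' (h4.mono fun _ h => h.symm)
  exact tendsto_nhds_unique h5 h6

end Fermat.Agent.S15P.M1.Wp75
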